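import Mathlib
import Fermat.Prelude.Def_AlgebraicCurve_DivisorClassGroup
import Fermat.Prelude.Def_AlgebraicCurve_Repartitions

set_option autoImplicit false

/-!
# Riemann-Roch library: standing hypotheses and basic definitions

Everything is stated in the Prelude's language (`AlgebraicCurve.Place`, `Divisor`,
`riemannRochSpace`, `repartitions`, `H1`, `genusFF`).

`IsRRField K F` packages exactly what Weil's adelic proof of Riemann-Roch uses:
* every nonzero function has a divisor of degree zero,
* every place has degree one (residue field `= K`),
* there is one transcendental `x` with `[F : K(x)] < ∞` whose poles, counted with multiplicity,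
  are `[F : K(x)]` many.
No assumption on the characteristic.
-/

noncomputable section

open AlgebraicCurve IntermediateField

namespace Fermat.Agent.RR

/-- Standing hypotheses of the Riemann-Roch library. -/
structure IsRRField (K F : Type*) [Field K] [Field F] [Algebra K F] : Prop where
  /-- principal divisors exist (finite support) and have degree zero -/
  principal : ∀ f : F, f ≠ 0 →
    ∃ D : Divisor K F, (∀ v : Place K F, D v = v.ord f) ∧ Divisor.degree D = 0
  /-- all places have degree one -/
  deg_one : ∀ v : Place K F, v.deg = 1
  /-- a transcendental element with the fundamental identity for its poles -/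
  exists_x : ∃ x : F, Transcendental K x ∧ FiniteDimensional K⟮x⟯ F ∧
    ∃ s : Finset (Place K F), (∀ v, v ∈ s ↔ v.ord x < 0) ∧
      ∑ v ∈ s, (-v.ord x) = (Module.finrank K⟮x⟯ F : ℤ)

variable {K F : Type*} [Field K] [Field F] [Algebra K F]

/-- `ℓ(D) = dim_K L(D)` (junk value `0` if infinite-dimensional; it never is). -/
def ell (D : Divisor K F) : ℕ := Module.finrank K (riemannRochSpace D)

/-- `i(D) = dim_K H¹(D)`. -/
def idx (D : Divisor K F) : ℕ := Module.finrank K (H1 D)

theorem ell_def (D : Divisor K F) : ell D = Module.finrank K (riemannRochSpace D) := rfl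

theorem idx_def (D : Divisor K F) : idx D = Module.finrank K (H1 D) := rfl

theorem idx_zero : idx (0 : Divisor K F) = genusFF K F := rfl

open Classical in
/-- the principal divisor of `f` (equal to `0` for `f = 0`). -/
def divOf (h : IsRRField K F) (f : F) : Divisor K F :=
  if hf : f = 0 then 0 else (h.principal f hf).choose

theorem divOf_apply (h : IsRRField K F) (f : F) (v : Place K F) : divOf h f v = v.ord f := by
  unfold divOf
  split_ifs with hf
  · subst hf
    simp
  · exact (h.principal f hf).choose_spec.1 v

theorem degree_divOf (h : IsRRField K F) (f : F) : Divisor.degree (divOf h f) = 0 := by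
  unfold divOf
  split_ifs with hf
  · simp
  · exact (h.principal f hf).choose_spec.2

@[simp]
theorem divOf_zero (h : IsRRField K F) : divOf h (0 : F) = 0 := by
  ext v
  rw [divOf_apply]
  simp

@[simp]
theorem divOf_one (h : IsRRField K F) : divOf h (1 : F) = 0 := by
  ext v
  rw [divOf_apply]
  simp

theorem divOf_mul (h : IsRRField K F) {f g : F} (hf : f ≠ 0) (hg : g ≠ 0) :
    divOf h (f * g) = divOf h f + divOf h g := by
  ext v
  rw [Finsupp.add_apply, divOf_apply, divOf_apply, divOf_apply, v.ord_mul hf hg]

theorem divOf_inv (h : IsRRField K F) (f : F) : divOf h f⁻¹ = -divOf h f := by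
  ext v
  rw [Finsupp.neg_apply, divOf_apply, divOf_apply, v.ord_inv]

/-- the degree of a divisor is the sum of its coefficients. -/
theorem degree_eq_sum (h : IsRRField K F) (D : Divisor K F) :
    Divisor.degree D = ∑ v ∈ D.support, D v := by
  simp only [Divisor.degree, Finsupp.liftAddHom_apply, Finsupp.sum, AddMonoidHom.coe_mulRight,
    h.deg_one, Nat.cast_one, mul_one]

/-- the poles of a function are finite in number. -/
theorem finite_poles (h : IsRRField K F) (f : F) : {v : Place K F | v.ord f < 0}.Finite := by
  refine (divOf h f).support.finite_toSet.subset fun v hv => ?_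
  rw [Finset.mem_coe, Finsupp.mem_support_iff, divOf_apply]
  exact ne_of_lt hv

/-- the zeros of a function are finite in number. -/
theorem finite_zeros (h : IsRRField K F) (f : F) : {v : Place K F | 0 < v.ord f}.Finite := by
  refine (divOf h f).support.finite_toSet.subset fun v hv => ?_
  rw [Finset.mem_coe, Finsupp.mem_support_iff, divOf_apply]
  exact ne_of_gt hv

/-- membership in `L(D)` in terms of divisors. -/
theorem mem_riemannRochSpace_iff_le (h : IsRRField K F) {D : Divisor K F} {f : F} (hf : f ≠ 0) :
    f ∈ riemannRochSpace D ↔ -D ≤ divOf h f := by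
  rw [mem_riemannRochSpace_iff, Finsupp.le_def]
  refine forall_congr' fun v => ?_
  rw [divOf_apply, Finsupp.neg_apply]
  simp [hf]

end Fermat.Agent.RR
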