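import Mathlib
import Fermat.Agent.Lib.RR.Defs
import Fermat.Agent.S24.Residue

set_option autoImplicit false

/-!
# Riemann-Roch library, RR0: the spaces `L(D)`

`L(D) = riemannRochSpace D = {f | div f + D ≥ 0}`, `ell D = dim_K L(D)`.
(elementary `ord` API: `Fermat.Agent.S24Res.mem_iff_ord_nonneg`, `ord_add_ge`, `ord_algebraMap`, ...)
-/

noncomputable section

open AlgebraicCurve IntermediateField

namespace Fermat.Agent.RR

variable {K F : Type*} [Field K] [Field F] [Algebra K F]

/-- there is at least one place. -/
theorem nonempty_place (h : IsRRField K F) : Nonempty (Place K F) := by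
  obtain ⟨x, -, hfd, s, hs, hsum⟩ := h.exists_x
  by_contra hne
  rw [not_nonempty_iff] at hne
  have hs0 : s = ∅ := Finset.eq_empty_of_isEmpty s
  rw [hs0, Finset.sum_empty] at hsum
  have hpos : 0 < Module.finrank K⟮x⟯ F := Module.finrank_pos
  omega

/-- the residue field of a place of degree one is `K`. -/
theorem residueField_surjective_of_isRRField (h : IsRRField K F) (v : Place K F) :
    Function.Surjective (algebraMap K v.ResidueField) := by
  have hdeg : Module.finrank K v.ResidueField = 1 := h.deg_one v
  intro z
  have h1 : (1 : v.ResidueField) ≠ 0 := one_ne_zero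
  obtain ⟨c, hc⟩ := (finrank_eq_one_iff_of_nonzero' (1 : v.ResidueField) h1).mp hdeg z
  refine ⟨c, ?_⟩
  rw [Algebra.algebraMap_eq_smul_one, hc]

/-- residue field `= K`: an element of `O_v` is congruent to a constant modulo `m_v`. -/
theorem exists_const_sub (h : IsRRField K F) (v : Place K F) {f : F} (hf : 0 ≤ v.ord f) :
    ∃ c : K, f = algebraMap K F c ∨ 0 < v.ord (f - algebraMap K F c) := by
  have hmem : f ∈ v.toValuationSubring := Fermat.Agent.S24Res.mem_of_ord_nonneg v hf
  obtain ⟨c, hc⟩ := residueField_surjective_of_isRRField h v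
    (IsLocalRing.residue v.toValuationSubring ⟨f, hmem⟩)
  refine ⟨c, ?_⟩
  set a : v.toValuationSubring := ⟨f, hmem⟩ - algebraMap K v.toValuationSubring c with ha
  have hamem : a ∈ IsLocalRing.maximalIdeal v.toValuationSubring := by
    rw [← IsLocalRing.residue_eq_zero_iff, ha, map_sub, sub_eq_zero, ← hc]
    rfl
  have hcoe : (a : F) = f - algebraMap K F c := rfl
  rcases eq_or_ne a 0 with h0 | h0
  · left
    have : (a : F) = 0 := by rw [h0]; rfl
    rw [hcoe, sub_eq_zero] at this
    exact this
  · right
    rw [← hcoe]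
    exact (Fermat.Agent.S24Res.mem_maximalIdeal_iff_ord_pos v h0).mp hamem

/-- a uniformizer at `v`. -/
theorem exists_uniformizer (v : Place K F) : ∃ t : F, v.ord t = 1 := by
  obtain ⟨π, hπ⟩ := IsDiscreteValuationRing.exists_irreducible v.toValuationSubring
  exact ⟨π, v.ord_coe_irreducible hπ⟩

/-- leading coefficient: if `ord_v f = ord_v g` (both nonzero functions) then `f - c g` has
larger order for a (unique) constant `c ≠ 0`. -/
theorem exists_const_sub_smul (h : IsRRField K F) (v : Place K F) {f g : F} (hf : f ≠ 0)
    (hg : g ≠ 0) (hfg : v.ord f = v.ord g) :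
    ∃ c : K, c ≠ 0 ∧ (f = c • g ∨ v.ord g < v.ord (f - c • g)) := by
  have hq : v.ord (f / g) = 0 := by
    rw [div_eq_mul_inv, v.ord_mul hf (inv_ne_zero hg), v.ord_inv, hfg]
    ring
  obtain ⟨c, hc⟩ := exists_const_sub h v hq.ge
  have hc0 : c ≠ 0 := by
    rintro rfl
    rw [map_zero, sub_zero] at hc
    rcases hc with hc | hc
    · exact div_ne_zero hf hg hc
    · omega
  refine ⟨c, hc0, ?_⟩
  rcases hc with hc | hc
  · left
    rw [Algebra.smul_def, ← hc, div_mul_cancel₀ _ hg]
  · right
    have hne : f / g - algebraMap K F c ≠ 0 := by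
      intro h0
      rw [h0, v.ord_zero] at hc
      exact lt_irrefl _ hc
    have hprod : f - c • g = g * (f / g - algebraMap K F c) := by
      rw [Algebra.smul_def]
      field_simp
    rw [hprod, v.ord_mul hg hne]
    omega

theorem riemannRochSpace_mono {D D' : Divisor K F} (hle : D ≤ D') :
    riemannRochSpace D ≤ riemannRochSpace D' := by
  intro f hf v
  exact (hf v).trans (WithZero.exp_le_exp.mpr (Finsupp.le_def.mp hle v))

theorem degree_single_one (h : IsRRField K F) (P : Place K F) (n : ℤ) :
    Divisor.degree (Finsupp.single P n) = n := by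
  rw [Divisor.degree_single, h.deg_one, Nat.cast_one, mul_one]

theorem degree_nonneg_of_nonneg (h : IsRRField K F) {E : Divisor K F} (hE : 0 ≤ E) :
    0 ≤ Divisor.degree E := by
  rw [degree_eq_sum h]
  exact Finset.sum_nonneg fun v _ => Finsupp.le_def.mp hE v

theorem eq_zero_of_nonneg_of_degree_eq_zero (h : IsRRField K F) {E : Divisor K F} (hE : 0 ≤ E)
    (hdeg : Divisor.degree E = 0) : E = 0 := by
  rw [degree_eq_sum h] at hdeg
  have h0 := (Finset.sum_eq_zero_iff_of_nonneg fun v _ => Finsupp.le_def.mp hE v).mp hdeg
  ext v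
  by_cases hv : v ∈ E.support
  · exact h0 v hv
  · rw [Finsupp.notMem_support_iff] at hv
    rw [hv]; rfl

theorem degree_le_of_le (h : IsRRField K F) {D D' : Divisor K F} (hle : D ≤ D') :
    Divisor.degree D ≤ Divisor.degree D' := by
  have h1 : 0 ≤ D' - D := sub_nonneg.mpr hle
  have h2 := degree_nonneg_of_nonneg h h1
  rw [map_sub] at h2
  linarith

theorem eq_of_le_of_degree_eq_aux (h : IsRRField K F) {D D' : Divisor K F} (hle : D ≤ D')
    (hdeg : Divisor.degree D = Divisor.degree D') : D = D' := by
  have h1 : 0 ≤ D' - D := sub_nonneg.mpr hle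
  have h2 : Divisor.degree (D' - D) = 0 := by rw [map_sub, hdeg, sub_self]
  have h3 := eq_zero_of_nonneg_of_degree_eq_zero h h1 h2
  exact (sub_eq_zero.mp h3).symm

/-- `L(D) ≠ 0` forces `deg D ≥ 0`. -/
theorem degree_nonneg_of_mem (h : IsRRField K F) {D : Divisor K F} {f : F} (hf : f ≠ 0)
    (hfD : f ∈ riemannRochSpace D) : 0 ≤ Divisor.degree D := by
  have hle := (mem_riemannRochSpace_iff_le h hf).mp hfD
  have h1 := degree_le_of_le h hle
  rw [map_neg, degree_divOf] at h1
  linarith

theorem riemannRochSpace_eq_bot (h : IsRRField K F) {D : Divisor K F}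
    (hD : Divisor.degree D < 0) : riemannRochSpace D = ⊥ := by
  rw [eq_bot_iff]
  intro f hf
  rw [Submodule.mem_bot]
  by_contra hf0
  have := degree_nonneg_of_mem h hf0 hf
  omega

theorem ell_eq_zero_of_degree_neg (h : IsRRField K F) {D : Divisor K F}
    (hD : Divisor.degree D < 0) : ell D = 0 := by
  rw [ell_def, riemannRochSpace_eq_bot h hD]
  exact finrank_bot K F

theorem algebraMap_mem_riemannRochSpace_zero (c : K) :
    algebraMap K F c ∈ riemannRochSpace (0 : Divisor K F) := by
  rw [mem_riemannRochSpace_iff]
  intro v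
  right
  rw [Fermat.Agent.S24Res.ord_algebraMap]
  simp

/-- `L(0) = K`. -/
theorem mem_riemannRochSpace_zero_iff (h : IsRRField K F) (f : F) :
    f ∈ riemannRochSpace (0 : Divisor K F) ↔ f ∈ Set.range (algebraMap K F) := by
  constructor
  · intro hf
    obtain ⟨v⟩ := nonempty_place h
    have hfv : 0 ≤ v.ord f := by
      rcases (mem_riemannRochSpace_iff.mp hf) v with h0 | h0
      · rw [h0, v.ord_zero]
      · simpa using h0
    obtain ⟨c, hc | hc⟩ := exists_const_sub h v hfv
    · exact ⟨c, hc.symm⟩
    · exfalso
      set g := f - algebraMap K F c with hg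
      have hg0 : g ≠ 0 := by
        intro h0
        rw [h0, v.ord_zero] at hc
        exact lt_irrefl _ hc
      have hgmem : g ∈ riemannRochSpace (0 : Divisor K F) :=
        Submodule.sub_mem _ hf (algebraMap_mem_riemannRochSpace_zero c)
      have hle := (mem_riemannRochSpace_iff_le h hg0).mp hgmem
      rw [neg_zero] at hle
      have heq := eq_of_le_of_degree_eq_aux h hle (by rw [degree_divOf, map_zero])
      have hv := congrArg (fun D : Divisor K F => D v) heq
      simp only [Finsupp.coe_zero, Pi.zero_apply] at hv
      rw [divOf_apply] at hv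
      omega
  · rintro ⟨c, rfl⟩
    exact algebraMap_mem_riemannRochSpace_zero c

theorem riemannRochSpace_zero_eq (h : IsRRField K F) :
    riemannRochSpace (0 : Divisor K F) = Submodule.span K {(1 : F)} := by
  ext f
  rw [mem_riemannRochSpace_zero_iff h, Submodule.mem_span_singleton]
  constructor
  · rintro ⟨c, rfl⟩
    exact ⟨c, by rw [Algebra.algebraMap_eq_smul_one]⟩
  · rintro ⟨c, rfl⟩
    exact ⟨c, by rw [Algebra.algebraMap_eq_smul_one]⟩

theorem ell_zero (h : IsRRField K F) : ell (0 : Divisor K F) = 1 := by
  rw [ell_def, riemannRochSpace_zero_eq h]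
  exact finrank_span_singleton one_ne_zero

/-- a function with `div f ≥ 0` and `deg D = 0`, `f ∈ L(D)`: then `div f = -D`. -/
theorem divOf_eq_neg_of_mem_of_degree_eq_zero (h : IsRRField K F) {D : Divisor K F} {f : F}
    (hf : f ≠ 0) (hfD : f ∈ riemannRochSpace D) (hD : Divisor.degree D = 0) :
    divOf h f = -D := by
  have hle := (mem_riemannRochSpace_iff_le h hf).mp hfD
  exact (eq_of_le_of_degree_eq_aux h hle (by rw [map_neg, hD, degree_divOf, neg_zero])).symm

/-- degree of `D + P`. -/
theorem degree_add_single (h : IsRRField K F) (D : Divisor K F) (P : Place K F) :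
    Divisor.degree (D + Finsupp.single P 1) = Divisor.degree D + 1 := by
  rw [map_add, Divisor.degree_single, h.deg_one]
  simp

/-- membership in `L(D)` from membership in `L(D + P)` and the order at `P`. -/
theorem mem_of_mem_add_single {D : Divisor K F} {P : Place K F} {f : F}
    (hf : f ∈ riemannRochSpace (D + Finsupp.single P 1)) (hP : f = 0 ∨ -D P ≤ P.ord f) :
    f ∈ riemannRochSpace D := by
  classical
  rw [mem_riemannRochSpace_iff] at hf ⊢
  intro v
  rcases eq_or_ne f 0 with rfl | hf0
  · exact Or.inl rfl
  right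
  by_cases hv : v = P
  · subst hv
    exact hP.resolve_left hf0
  · have := (hf v).resolve_left hf0
    rw [Finsupp.add_apply, Finsupp.single_apply, if_neg (Ne.symm hv), add_zero] at this
    exact this

/-- an element of `L(D + P)` outside `L(D)` has order exactly `-D P - 1` at `P`. -/
theorem ord_eq_of_mem_add_single_of_not_mem {D : Divisor K F} {P : Place K F} {f : F}
    (hf : f ∈ riemannRochSpace (D + Finsupp.single P 1)) (hfD : f ∉ riemannRochSpace D) :
    f ≠ 0 ∧ P.ord f = -D P - 1 := by
  have hf0 : f ≠ 0 := by
    rintro rfl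
    exact hfD (Submodule.zero_mem _)
  refine ⟨hf0, ?_⟩
  have h1 := ((mem_riemannRochSpace_iff.mp hf) P).resolve_left hf0
  rw [Finsupp.add_apply, Finsupp.single_eq_same] at h1
  by_contra hne
  apply hfD
  refine mem_of_mem_add_single hf (Or.inr ?_)
  omega

/-- one step: `dim L(D + P) / L(D) ≤ 1`, in the form: two elements of `L(D + P)` are
proportional modulo `L(D)`. -/
theorem exists_smul_sub_mem (h : IsRRField K F) (D : Divisor K F) (P : Place K F) {f g : F}
    (hf : f ∈ riemannRochSpace (D + Finsupp.single P 1))
    (hg : g ∈ riemannRochSpace (D + Finsupp.single P 1)) (hgD : g ∉ riemannRochSpace D) :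
    ∃ c : K, f - c • g ∈ riemannRochSpace D := by
  by_cases hfD : f ∈ riemannRochSpace D
  · exact ⟨0, by simpa using hfD⟩
  obtain ⟨hf0, hfo⟩ := ord_eq_of_mem_add_single_of_not_mem hf hfD
  obtain ⟨hg0, hgo⟩ := ord_eq_of_mem_add_single_of_not_mem hg hgD
  obtain ⟨c, -, hc⟩ := exists_const_sub_smul h P hf0 hg0 (hfo.trans hgo.symm)
  refine ⟨c, ?_⟩
  rcases hc with hc | hc
  · rw [hc, sub_self]
    exact Submodule.zero_mem _
  · refine mem_of_mem_add_single (P := P)
      (Submodule.sub_mem _ hf (Submodule.smul_mem _ c hg)) (Or.inr ?_)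
    omega

/-- induction along `D ≤ D'`, adding one place at a time. -/
theorem divisor_le_induction (h : IsRRField K F) {D : Divisor K F} {p : Divisor K F → Prop}
    (h0 : p D)
    (hstep : ∀ (E : Divisor K F) (P : Place K F), D ≤ E → p E → p (E + Finsupp.single P 1))
    (D' : Divisor K F) (hle : D ≤ D') : p D' := by
  classical
  suffices H : ∀ (n : ℕ) (E : Divisor K F), D ≤ E → Divisor.degree (E - D) = n → p E from
    H _ D' hle (Int.toNat_of_nonneg (degree_nonneg_of_nonneg h (sub_nonneg.mpr hle))).symm
  intro n
  induction n with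
  | zero =>
    intro E hE hsum
    have hED : E - D = 0 :=
      eq_zero_of_nonneg_of_degree_eq_zero h (sub_nonneg.mpr hE) (by simpa using hsum)
    rw [sub_eq_zero.mp hED]
    exact h0
  | succ n ih =>
    intro E hE hsum
    have hne : E - D ≠ 0 := by
      intro h0'
      rw [h0', map_zero] at hsum
      push_cast at hsum
      omega
    obtain ⟨P, hP⟩ : ∃ P, (E - D) P ≠ 0 := by
      by_contra hcon
      push Not at hcon
      exact hne (Finsupp.ext fun v => by simpa using hcon v)
    have hPpos : 0 < (E - D) P := by
      have h2 := Finsupp.le_def.mp hE P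
      rw [Finsupp.sub_apply] at hP ⊢
      omega
    set E' : Divisor K F := E - Finsupp.single P 1 with hE'
    have hEE' : E = E' + Finsupp.single P 1 := by rw [hE', sub_add_cancel]
    have hDE' : D ≤ E' := by
      rw [Finsupp.le_def]
      intro v
      have h2 := Finsupp.le_def.mp hE v
      rw [hE', Finsupp.sub_apply, Finsupp.single_apply]
      split_ifs with hv
      · subst hv
        rw [Finsupp.sub_apply] at hPpos
        omega
      · omega
    rw [hEE']
    refine hstep E' P hDE' (ih E' hDE' ?_)
    have hsub : E' - D = (E - D) - Finsupp.single P 1 := by rw [hE']; abel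
    rw [hsub, map_sub, hsum, Divisor.degree_single, h.deg_one]
    push_cast
    ring

/-- `L(D + P)` is spanned by `L(D)` and one more element. -/
theorem riemannRochSpace_add_single_le (h : IsRRField K F) (D : Divisor K F) (P : Place K F)
    {g : F} (hg : g ∈ riemannRochSpace (D + Finsupp.single P 1)) (hgD : g ∉ riemannRochSpace D) :
    riemannRochSpace (D + Finsupp.single P 1) ≤ riemannRochSpace D ⊔ Submodule.span K {g} := by
  intro f hf
  obtain ⟨c, hc⟩ := exists_smul_sub_mem h D P hf hg hgD
  have : f = (f - c • g) + c • g := by ring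
  rw [this]
  exact Submodule.add_mem_sup hc (Submodule.smul_mem _ c (Submodule.mem_span_singleton_self g))

theorem le_add_single (D : Divisor K F) (P : Place K F) : D ≤ D + Finsupp.single P 1 := by
  classical
  rw [Finsupp.le_def]
  intro v
  rw [Finsupp.add_apply, Finsupp.single_apply]
  split_ifs <;> omega

/-- finiteness in `Submodule.FG` form, one step. -/
theorem fg_add_single (h : IsRRField K F) (D : Divisor K F) (P : Place K F)
    (hD : (riemannRochSpace D).FG) : (riemannRochSpace (D + Finsupp.single P 1)).FG := by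
  by_cases hex : ∃ g, g ∈ riemannRochSpace (D + Finsupp.single P 1) ∧ g ∉ riemannRochSpace D
  · obtain ⟨g, hg, hgD⟩ := hex
    have hle := riemannRochSpace_add_single_le h D P hg hgD
    have hfg : (riemannRochSpace D ⊔ Submodule.span K {g}).FG :=
      hD.sup (Submodule.fg_span_singleton g)
    have : Module.Finite K ↥(riemannRochSpace D ⊔ Submodule.span K {g}) :=
      Module.Finite.iff_fg.mpr hfg
    have : IsNoetherian K ↥(riemannRochSpace D ⊔ Submodule.span K {g}) := inferInstance
    exact Submodule.FG.of_le hfg hle
  · push Not at hex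
    have : riemannRochSpace (D + Finsupp.single P 1) = riemannRochSpace D :=
      le_antisymm hex (riemannRochSpace_mono (le_add_single D P))
    rw [this]
    exact hD

/-- below `D` there is a divisor of negative degree. -/
theorem exists_le_degree_neg (h : IsRRField K F) (D : Divisor K F) :
    ∃ D₀ : Divisor K F, D₀ ≤ D ∧ Divisor.degree D₀ < 0 := by
  classical
  obtain ⟨P⟩ := nonempty_place h
  refine ⟨D - Finsupp.single P ((Divisor.degree D).toNat + 1 : ℤ), ?_, ?_⟩
  · rw [Finsupp.le_def]
    intro v
    rw [Finsupp.sub_apply, Finsupp.single_apply]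
    split_ifs <;> omega
  · rw [map_sub, Divisor.degree_single, h.deg_one]
    push_cast
    have := Int.self_le_toNat (Divisor.degree D)
    omega

theorem fg_riemannRochSpace (h : IsRRField K F) (D : Divisor K F) :
    (riemannRochSpace D).FG := by
  obtain ⟨D₀, hle, hdeg⟩ := exists_le_degree_neg h D
  refine divisor_le_induction h (D := D₀) (p := fun E => (riemannRochSpace E).FG) ?_
    (fun E P _ hE => fg_add_single h E P hE) D hle
  rw [riemannRochSpace_eq_bot h hdeg]
  exact Submodule.fg_bot

/-- `L(D)` is finite dimensional. -/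
theorem finite_riemannRochSpace (h : IsRRField K F) (D : Divisor K F) :
    Module.Finite K (riemannRochSpace D) :=
  Module.Finite.iff_fg.mpr (fg_riemannRochSpace h D)

/-- one step: `ℓ(D + P) ≤ ℓ(D) + 1`. -/
theorem ell_add_single_le (h : IsRRField K F) (D : Divisor K F) (P : Place K F) :
    ell (D + Finsupp.single P 1) ≤ ell D + 1 := by
  have := finite_riemannRochSpace h D
  have := finite_riemannRochSpace h (D + Finsupp.single P 1)
  unfold ell
  by_cases hex : ∃ g, g ∈ riemannRochSpace (D + Finsupp.single P 1) ∧ g ∉ riemannRochSpace D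
  · obtain ⟨g, hg, hgD⟩ := hex
    have hle := riemannRochSpace_add_single_le h D P hg hgD
    have : Module.Finite K ↥(riemannRochSpace D ⊔ Submodule.span K {g}) :=
      Module.Finite.iff_fg.mpr ((fg_riemannRochSpace h D).sup (Submodule.fg_span_singleton g))
    calc Module.finrank K ↥(riemannRochSpace (D + Finsupp.single P 1))
        ≤ Module.finrank K ↥(riemannRochSpace D ⊔ Submodule.span K {g}) :=
          Submodule.finrank_mono hle
      _ ≤ Module.finrank K ↥(riemannRochSpace D) + Module.finrank K ↥(Submodule.span K {g}) :=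
          Submodule.finrank_add_le_finrank_add_finrank _ _
      _ ≤ Module.finrank K ↥(riemannRochSpace D) + 1 := by
          have := finrank_span_le_card (R := K) ({g} : Set F)
          simp only [Set.toFinset_singleton, Finset.card_singleton] at this
          omega
  · push Not at hex
    have : riemannRochSpace (D + Finsupp.single P 1) = riemannRochSpace D :=
      le_antisymm hex (riemannRochSpace_mono (le_add_single D P))
    rw [this]
    omega

/-- one step, dichotomy: `ℓ(D + P) = ℓ(D) + 1` iff `L(D + P) ≠ L(D)`. -/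
theorem ell_add_single_eq_iff (h : IsRRField K F) (D : Divisor K F) (P : Place K F) :
    ell (D + Finsupp.single P 1) = ell D + 1 ↔
      ∃ f, f ∈ riemannRochSpace (D + Finsupp.single P 1) ∧ f ∉ riemannRochSpace D := by
  have := finite_riemannRochSpace h D
  have := finite_riemannRochSpace h (D + Finsupp.single P 1)
  constructor
  · intro heq
    by_contra hex
    push Not at hex
    have : riemannRochSpace (D + Finsupp.single P 1) = riemannRochSpace D :=
      le_antisymm hex (riemannRochSpace_mono (le_add_single D P))
    unfold ell at heq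
    rw [this] at heq
    omega
  · rintro ⟨f, hf, hfD⟩
    have hlt : riemannRochSpace D < riemannRochSpace (D + Finsupp.single P 1) :=
      lt_of_le_of_ne (riemannRochSpace_mono (le_add_single D P)) fun heq => hfD (heq ▸ hf)
    have h1 := Submodule.finrank_lt_finrank_of_lt hlt
    have h2 := ell_add_single_le h D P
    unfold ell at h2 ⊢
    omega

theorem ell_mono (h : IsRRField K F) {D D' : Divisor K F} (hle : D ≤ D') : ell D ≤ ell D' := by
  have := finite_riemannRochSpace h D'
  exact Submodule.finrank_mono (riemannRochSpace_mono hle)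

/-- `deg D - ℓ(D)` is monotone in `D`. -/
theorem degree_sub_ell_mono (h : IsRRField K F) {D D' : Divisor K F} (hle : D ≤ D') :
    Divisor.degree D - (ell D : ℤ) ≤ Divisor.degree D' - (ell D' : ℤ) := by
  refine divisor_le_induction h (D := D)
    (p := fun E => Divisor.degree D - (ell D : ℤ) ≤ Divisor.degree E - (ell E : ℤ)) le_rfl
    (fun E P _ hE => ?_) D' hle
  have h1 := ell_add_single_le h E P
  rw [degree_add_single h]
  have h2 : ((ell (E + Finsupp.single P 1) : ℕ) : ℤ) ≤ (ell E : ℤ) + 1 := by exact_mod_cast h1
  linarith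

/-- multiplication by `f` is a linear isomorphism `L(D + div f) ≃ L(D)`. -/
def mulLinearEquiv (h : IsRRField K F) (D : Divisor K F) {f : F} (hf : f ≠ 0) :
    riemannRochSpace (D + divOf h f) ≃ₗ[K] riemannRochSpace D where
  toFun g := ⟨f * g, by
    have hg := mem_riemannRochSpace_iff.mp g.2
    rw [mem_riemannRochSpace_iff]
    intro v
    rcases eq_or_ne (g : F) 0 with hg0 | hg0
    · left
      rw [hg0, mul_zero]
    right
    have := (hg v).resolve_left hg0
    rw [Finsupp.add_apply, divOf_apply] at this
    rw [v.ord_mul hf hg0]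
    omega⟩
  invFun g := ⟨f⁻¹ * g, by
    have hg := mem_riemannRochSpace_iff.mp g.2
    rw [mem_riemannRochSpace_iff]
    intro v
    rcases eq_or_ne (g : F) 0 with hg0 | hg0
    · left
      rw [hg0, mul_zero]
    right
    have := (hg v).resolve_left hg0
    rw [Finsupp.add_apply, divOf_apply, v.ord_mul (inv_ne_zero hf) hg0, v.ord_inv]
    omega⟩
  map_add' g₁ g₂ := by
    apply Subtype.ext
    simp [mul_add]
  map_smul' c g := by
    apply Subtype.ext
    simp
  left_inv g := by
    apply Subtype.ext
    simp [← mul_assoc, inv_mul_cancel₀ hf]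
  right_inv g := by
    apply Subtype.ext
    simp [← mul_assoc, mul_inv_cancel₀ hf]

/-- multiplication by `f` is a linear isomorphism `L(D + div f) ≃ L(D)`. -/
theorem ell_add_divOf (h : IsRRField K F) (D : Divisor K F) {f : F} (hf : f ≠ 0) :
    ell (D + divOf h f) = ell D :=
  (mulLinearEquiv h D hf).finrank_eq

/-- `ℓ(D) ≤ deg D + 1` for `deg D ≥ 0` (in fact always `ℓ(D) ≤ max (deg D + 1) 0`). -/
theorem ell_le_degree_add_one (h : IsRRField K F) {D : Divisor K F}
    (hD : 0 ≤ Divisor.degree D) : (ell D : ℤ) ≤ Divisor.degree D + 1 := by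
  by_cases hbot : riemannRochSpace D = ⊥
  · unfold ell
    rw [hbot, finrank_bot]
    push_cast
    omega
  · obtain ⟨f, hfD, hf0⟩ := Submodule.exists_mem_ne_zero_of_ne_bot hbot
    -- `D' = D + div f ≥ 0`
    have hD' : 0 ≤ D + divOf h f := by
      have := (mem_riemannRochSpace_iff_le h hf0).mp hfD
      rw [Finsupp.le_def] at this ⊢
      intro v
      have hv := this v
      rw [Finsupp.neg_apply] at hv
      rw [Finsupp.add_apply]
      simp only [Finsupp.coe_zero, Pi.zero_apply]
      omega
    have hmono := degree_sub_ell_mono h hD'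
    rw [ell_zero h, map_zero, ell_add_divOf h D hf0, map_add, degree_divOf, add_zero] at hmono
    push_cast at hmono
    linarith

/-- every divisor is `≤` some divisor and `≥` some divisor of any prescribed degree beyond. -/
theorem exists_le_degree (h : IsRRField K F) (D : Divisor K F) (n : ℤ) :
    ∃ D' : Divisor K F, D ≤ D' ∧ n ≤ Divisor.degree D' := by
  obtain ⟨P⟩ := nonempty_place h
  refine ⟨D + Finsupp.single P (max 0 (n - Divisor.degree D)), ?_, ?_⟩
  · rw [le_add_iff_nonneg_right]
    classical
    intro v
    rw [Finsupp.single_apply]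
    split_ifs
    · exact le_max_left _ _
    · exact le_rfl
  · rw [map_add, degree_single_one h]
    have := le_max_right 0 (n - Divisor.degree D)
    linarith

theorem exists_ge_degree (h : IsRRField K F) (D : Divisor K F) (n : ℤ) :
    ∃ D' : Divisor K F, D' ≤ D ∧ Divisor.degree D' ≤ n := by
  obtain ⟨P⟩ := nonempty_place h
  refine ⟨D - Finsupp.single P (max 0 (Divisor.degree D - n)), ?_, ?_⟩
  · rw [sub_le_self_iff]
    classical
    intro v
    rw [Finsupp.single_apply]
    split_ifs
    · exact le_max_left _ _
    · exact le_rfl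
  · rw [map_sub, degree_single_one h]
    have := le_max_right 0 (Divisor.degree D - n)
    linarith

/-- the degree is strictly monotone. -/
theorem degree_mono (h : IsRRField K F) {D D' : Divisor K F} (hle : D ≤ D') :
    Divisor.degree D ≤ Divisor.degree D' := by
  exact degree_le_of_le h hle

theorem eq_of_le_of_degree_eq (h : IsRRField K F) {D D' : Divisor K F} (hle : D ≤ D')
    (hdeg : Divisor.degree D = Divisor.degree D') : D = D' := by
  exact eq_of_le_of_degree_eq_aux h hle hdeg

end Fermat.Agent.RR
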