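import Mathlib
import Fermat.Agent.Lib.RR.Basic

set_option autoImplicit false

/-!
# Riemann-Roch library, RR2: adeles (repartitions)

`A = repartitions K F`, `A(D) = repartitionsOf D`, `F ⊆ A` is `principalRepartitions K F`,
`AF D = A(D) + F`, `H¹(D) = A / AF D`.

Key formula (Stichtenoth, Thm 1.5.4): for `D ≤ D'`
`dim_K (AF D' / AF D) = (deg D' - ℓ(D')) - (deg D - ℓ(D))`.
We phrase `AF D' / AF D` as the image of `AF D'` in the quotient `A ⧸ AF D`.
-/

noncomputable section

open AlgebraicCurve IntermediateField

namespace Fermat.Agent.RR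

variable {K F : Type*} [Field K] [Field F] [Algebra K F]

/-- `A(D) + F`. -/
def AF (D : Divisor K F) : Submodule K ↥(repartitions K F) :=
  repartitionsOf D ⊔ principalRepartitions K F

theorem AF_def (D : Divisor K F) :
    AF D = repartitionsOf D ⊔ principalRepartitions K F := rfl

theorem AF_mono {D D' : Divisor K F} (hle : D ≤ D') : AF D ≤ AF D' :=
  sup_le_sup_right (repartitionsOf_mono hle) _

/-- the image of `AF D'` in `A ⧸ AF D` (this is `AF D' / AF D` when `D ≤ D'`). -/
def relAF (D D' : Divisor K F) : Submodule K (↥(repartitions K F) ⧸ AF D) :=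
  (AF D').map (AF D).mkQ

/-! ### coercion lemmas -/

theorem adele_coe_smul_apply (c : K) (α : ↥(repartitions K F)) (v : Place K F) :
    ((c • α : ↥(repartitions K F)) : Place K F → F) v = c • (α : Place K F → F) v := rfl

theorem adele_coe_add_apply (α β : ↥(repartitions K F)) (v : Place K F) :
    ((α + β : ↥(repartitions K F)) : Place K F → F) v =
      (α : Place K F → F) v + (β : Place K F → F) v := rfl

theorem adele_coe_sub_apply (α β : ↥(repartitions K F)) (v : Place K F) :
    ((α - β : ↥(repartitions K F)) : Place K F → F) v =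
      (α : Place K F → F) v - (β : Place K F → F) v := rfl

theorem adele_coe_algebraMap_apply (f : F) (v : Place K F) :
    ((algebraMap F ↥(repartitions K F) f : ↥(repartitions K F)) : Place K F → F) v = f := rfl

/-- adeles are exactly the families with finitely many poles. -/
theorem mem_repartitions_iff (h : IsRRField K F) (α : Place K F → F) :
    α ∈ repartitions K F ↔ {v : Place K F | v.ord (α v) < 0}.Finite := by
  have key : ∀ β : Place K F → F, {v : Place K F | v.ord (β v) < 0} =
      {v | ¬ v.adicValuation (β v) ≤ 1} :=
    fun β => Set.ext fun v => v.not_adicValuation_le_one_iff.symm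
  constructor
  · intro hα
    rw [key]
    refine Algebra.adjoin_induction
      (p := fun β _ => {v : Place K F | ¬ v.adicValuation (β v) ≤ 1}.Finite) ?_ ?_ ?_ ?_ hα
    · intro β hβ
      exact hβ
    · intro f
      rw [← key]
      exact finite_poles h f
    · intro β γ _ _ hβ hγ
      refine (hβ.union hγ).subset fun v hv => ?_
      by_contra hn
      rw [Set.mem_union, not_or] at hn
      apply hv
      have h1 : v.adicValuation (β v) ≤ 1 := not_not.mp hn.1
      have h2 : v.adicValuation (γ v) ≤ 1 := not_not.mp hn.2
      exact (Valuation.map_add _ _ _).trans (max_le h1 h2)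
    · intro β γ _ _ hβ hγ
      refine (hβ.union hγ).subset fun v hv => ?_
      by_contra hn
      rw [Set.mem_union, not_or] at hn
      apply hv
      have h1 : v.adicValuation (β v) ≤ 1 := not_not.mp hn.1
      have h2 : v.adicValuation (γ v) ≤ 1 := not_not.mp hn.2
      rw [Pi.mul_apply, map_mul]
      exact mul_le_one' h1 h2
  · exact mem_repartitions_of_finite_ord

/-- every adele lies in some `A(D')` with `D' ≥ D`. -/
theorem exists_mem_repartitionsOf (h : IsRRField K F) (α : ↥(repartitions K F))
    (D : Divisor K F) : ∃ D' : Divisor K F, D ≤ D' ∧ α ∈ repartitionsOf D' := by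
  classical
  have hfin := (mem_repartitions_iff h (α : Place K F → F)).mp α.2
  set T : Finset (Place K F) := D.support ∪ hfin.toFinset with hT
  set E : Divisor K F := Finsupp.onFinset T
    (fun v => if v ∈ T then |D v| + |v.ord ((α : Place K F → F) v)| else 0)
    (fun v hv => by
      by_contra hn
      simp [hn] at hv) with hE
  have hE0 : ∀ v, 0 ≤ E v := by
    intro v
    rw [hE, Finsupp.onFinset_apply]
    split_ifs
    · positivity
    · exact le_rfl
  refine ⟨D + E, ?_, ?_⟩
  · rw [Finsupp.le_def]
    intro v
    rw [Finsupp.add_apply]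
    linarith [hE0 v]
  · rw [mem_repartitionsOf_iff]
    intro v
    right
    rw [Finsupp.add_apply, hE, Finsupp.onFinset_apply]
    by_cases hv : v ∈ T
    · rw [if_pos hv]
      have h1 := neg_abs_le (D v)
      have h2 := neg_abs_le (v.ord ((α : Place K F → F) v))
      linarith
    · rw [if_neg hv]
      rw [hT, Finset.mem_union, not_or] at hv
      have h1 : D v = 0 := Finsupp.notMem_support_iff.mp hv.1
      have h2 : ¬ v.ord ((α : Place K F → F) v) < 0 := by
        intro hlt
        exact hv.2 (hfin.mem_toFinset.mpr hlt)
      rw [h1]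
      linarith [not_lt.mp h2]

theorem mem_AF_iff {D : Divisor K F} {α : ↥(repartitions K F)} :
    α ∈ AF D ↔ ∃ f : F, ∀ v : Place K F,
      (α : Place K F → F) v - f = 0 ∨ -D v ≤ v.ord ((α : Place K F → F) v - f) := by
  rw [AF, Submodule.mem_sup]
  constructor
  · rintro ⟨β, hβ, γ, hγ, rfl⟩
    obtain ⟨f, hf⟩ := mem_principalRepartitions_iff.mp hγ
    refine ⟨f, fun v => ?_⟩
    have e : ((β + γ : ↥(repartitions K F)) : Place K F → F) v - f = (β : Place K F → F) v := by
      rw [adele_coe_add_apply, hf]
      ring
    rw [e]
    exact mem_repartitionsOf_iff.mp hβ v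
  · rintro ⟨f, hf⟩
    refine ⟨α - algebraMap F ↥(repartitions K F) f, ?_, algebraMap F ↥(repartitions K F) f, ?_,
      sub_add_cancel _ _⟩
    · rw [mem_repartitionsOf_iff]
      intro v
      rw [adele_coe_sub_apply, adele_coe_algebraMap_apply]
      exact hf v
    · rw [mem_principalRepartitions_iff]
      exact ⟨f, rfl⟩

open Classical in
/-- the adele with value `f` at `P` and `0` elsewhere. -/
def singleAdele (P : Place K F) (f : F) : ↥(repartitions K F) :=
  ⟨fun v => if v = P then f else 0, mem_repartitions_of_finite <|
    (Set.finite_singleton P).subset fun v hv => by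
      by_contra hne
      apply hv
      rw [Set.mem_singleton_iff] at hne
      simp [hne]⟩

theorem singleAdele_apply_self (P : Place K F) (f : F) :
    (singleAdele P f : Place K F → F) P = f := by
  simp [singleAdele]

theorem singleAdele_apply_of_ne (P : Place K F) (f : F) {v : Place K F} (hv : v ≠ P) :
    (singleAdele P f : Place K F → F) v = 0 := by
  simp [singleAdele, hv]

/-! ### auxiliary lemmas for the one-step analysis -/

theorem adele_add_single_apply_self (D : Divisor K F) (P : Place K F) :
    (D + Finsupp.single P 1 : Divisor K F) P = D P + 1 := by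
  rw [Finsupp.add_apply, Finsupp.single_eq_same]

theorem adele_add_single_apply_of_ne (D : Divisor K F) (P : Place K F) {v : Place K F}
    (hv : v ≠ P) : (D + Finsupp.single P 1 : Divisor K F) v = D v := by
  rw [Finsupp.add_apply, Finsupp.single_eq_of_ne hv, add_zero]

theorem adele_le_add_single (D : Divisor K F) (P : Place K F) : D ≤ D + Finsupp.single P 1 := by
  rw [Finsupp.le_def]
  intro v
  by_cases hv : v = P
  · subst hv
    rw [adele_add_single_apply_self]
    linarith
  · rw [adele_add_single_apply_of_ne D P hv]

theorem adele_ord_zpow_uniformizer (P : Place K F) {t : F} (ht : P.ord t = 1) (n : ℤ) :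
    P.ord (t ^ n) = n := by
  rw [P.ord_zpow, ht, mul_one]

theorem adele_uniformizer_ne_zero (P : Place K F) {t : F} (ht : P.ord t = 1) : t ≠ 0 := by
  rintro rfl
  simp at ht

/-- the adele `a_P = t^{-(D(P)+1)}` at `P` lies in `A(D + P)`. -/
theorem singleAdele_mem_repartitionsOf_add_single (D : Divisor K F) (P : Place K F) {t : F}
    (ht : P.ord t = 1) :
    singleAdele P (t ^ (-(D P + 1))) ∈ repartitionsOf (D + Finsupp.single P 1) := by
  rw [mem_repartitionsOf_iff]
  intro v
  by_cases hv : v = P
  · subst hv
    right
    rw [singleAdele_apply_self, adele_ord_zpow_uniformizer v ht, adele_add_single_apply_self]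
  · left
    exact singleAdele_apply_of_ne P _ hv

/-- an adele of `A(D + P)` is, modulo `A(D)`, a constant multiple of `a_P`. -/
theorem exists_smul_singleAdele_sub_mem (h : IsRRField K F) (D : Divisor K F) (P : Place K F)
    {t : F} (ht : P.ord t = 1) {α : ↥(repartitions K F)}
    (hα : α ∈ repartitionsOf (D + Finsupp.single P 1)) :
    ∃ c : K, α - c • singleAdele P (t ^ (-(D P + 1))) ∈ repartitionsOf D := by
  have hα' := mem_repartitionsOf_iff.mp hα
  have ht0 := adele_uniformizer_ne_zero P ht
  set g : F := t ^ (-(D P + 1)) with hg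
  have hg0 : g ≠ 0 := zpow_ne_zero _ ht0
  have hgord : P.ord g = -(D P + 1) := adele_ord_zpow_uniformizer P ht _
  -- away from `P` nothing changes
  have haway : ∀ (c : K) (v : Place K F), v ≠ P →
      ((α - c • singleAdele P g : ↥(repartitions K F)) : Place K F → F) v = 0 ∨
        -D v ≤ v.ord (((α - c • singleAdele P g : ↥(repartitions K F)) : Place K F → F) v) := by
    intro c v hv
    have e : ((α - c • singleAdele P g : ↥(repartitions K F)) : Place K F → F) v =
        (α : Place K F → F) v := by
      rw [adele_coe_sub_apply, adele_coe_smul_apply, singleAdele_apply_of_ne P g hv, smul_zero,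
        sub_zero]
    rw [e]
    have := hα' v
    rwa [adele_add_single_apply_of_ne D P hv] at this
  have hatP : ∀ c : K, ((α - c • singleAdele P g : ↥(repartitions K F)) : Place K F → F) P =
      (α : Place K F → F) P - c • g := by
    intro c
    rw [adele_coe_sub_apply, adele_coe_smul_apply, singleAdele_apply_self]
  by_cases h0 : (α : Place K F → F) P = 0
  · -- `α P = 0`
    refine ⟨0, mem_repartitionsOf_iff.mpr fun v => ?_⟩
    by_cases hv : v = P
    · subst hv
      left
      rw [hatP, h0, zero_smul, sub_zero]
    · exact haway 0 v hv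
  have hP := (hα' P).resolve_left h0
  rw [adele_add_single_apply_self] at hP
  by_cases hlt : -D P ≤ P.ord ((α : Place K F → F) P)
  · refine ⟨0, mem_repartitionsOf_iff.mpr fun v => ?_⟩
    by_cases hv : v = P
    · subst hv
      right
      rw [hatP, zero_smul, sub_zero]
      exact hlt
    · exact haway 0 v hv
  · -- `ord (α P) = -(D P + 1)`
    have hαP0 : (α : Place K F → F) P ≠ 0 := h0
    have hord : P.ord ((α : Place K F → F) P) = P.ord g := by
      rw [hgord]
      omega
    obtain ⟨c, -, hc⟩ := exists_const_sub_smul h P hαP0 hg0 hord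
    refine ⟨c, mem_repartitionsOf_iff.mpr fun v => ?_⟩
    by_cases hv : v = P
    · subst hv
      rw [hatP]
      rcases hc with hc | hc
      · left
        rw [hc, sub_self]
      · right
        rw [hgord] at hc
        omega
    · exact haway c v hv

/-- local structure: `A(D + P) = A(D) + K · (t^{-(D(P)+1)} at P)`. -/
theorem repartitionsOf_add_single (h : IsRRField K F) (D : Divisor K F) (P : Place K F) {t : F}
    (ht : P.ord t = 1) :
    repartitionsOf (D + Finsupp.single P 1) =
      repartitionsOf D ⊔ Submodule.span K {singleAdele P (t ^ (-(D P + 1)))} := by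
  apply le_antisymm
  · intro α hα
    obtain ⟨c, hc⟩ := exists_smul_singleAdele_sub_mem h D P ht hα
    rw [Submodule.mem_sup]
    refine ⟨_, hc, c • singleAdele P (t ^ (-(D P + 1))), ?_, sub_add_cancel _ _⟩
    exact Submodule.smul_mem _ _ (Submodule.mem_span_singleton_self _)
  · refine sup_le (repartitionsOf_mono (adele_le_add_single D P)) ?_
    rw [Submodule.span_le, Set.singleton_subset_iff]
    exact singleAdele_mem_repartitionsOf_add_single D P ht

/-- `AF (D + P) = AF D + K · a_P`. -/
theorem AF_add_single (h : IsRRField K F) (D : Divisor K F) (P : Place K F) {t : F}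
    (ht : P.ord t = 1) :
    AF (D + Finsupp.single P 1) =
      AF D ⊔ Submodule.span K {singleAdele P (t ^ (-(D P + 1)))} := by
  rw [AF, AF, repartitionsOf_add_single h D P ht, sup_assoc, sup_assoc,
    sup_comm (Submodule.span K _) (principalRepartitions K F)]

/-- `a_P ∈ AF D` iff `L(D + P) ≠ L(D)`. -/
theorem singleAdele_mem_AF_iff (h : IsRRField K F) (D : Divisor K F) (P : Place K F) {t : F}
    (ht : P.ord t = 1) :
    singleAdele P (t ^ (-(D P + 1))) ∈ AF D ↔
      ∃ f, f ∈ riemannRochSpace (D + Finsupp.single P 1) ∧ f ∉ riemannRochSpace D := by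
  have ht0 := adele_uniformizer_ne_zero P ht
  set g : F := t ^ (-(D P + 1)) with hg
  have hg0 : g ≠ 0 := zpow_ne_zero _ ht0
  have hgord : P.ord g = -(D P + 1) := adele_ord_zpow_uniformizer P ht _
  constructor
  · intro hmem
    obtain ⟨f, hf⟩ := mem_AF_iff.mp hmem
    have hP := hf P
    rw [singleAdele_apply_self] at hP
    have haway : ∀ v : Place K F, v ≠ P → f = 0 ∨ -D v ≤ v.ord f := by
      intro v hv
      have := hf v
      rw [singleAdele_apply_of_ne P g hv, zero_sub, neg_eq_zero] at this
      rcases this with h0 | h1
      · exact Or.inl h0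
      · right
        have e : v.ord (-f) = v.ord f := by
          rw [show -f = (-1 : F) * f by ring]
          by_cases hf0 : f = 0
          · simp [hf0]
          · rw [v.ord_mul (by simp) hf0]
            have : v.ord (-1 : F) = 0 := by
              have h2 := v.ord_mul (f := (-1 : F)) (g := -1) (by simp) (by simp)
              rw [show (-1 : F) * -1 = 1 by ring, v.ord_one] at h2
              omega
            rw [this, zero_add]
        rwa [e] at h1
    -- `f ≠ 0` and `ord_P f = -(D P + 1)`
    have hf0 : f ≠ 0 := by
      rintro rfl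
      rw [sub_zero] at hP
      rcases hP with h0 | h1
      · exact hg0 h0
      · rw [hgord] at h1
        omega
    have hordf : P.ord f = -(D P + 1) := by
      rcases hP with h0 | h1
      · rw [← sub_eq_zero.mp h0, hgord]
      · -- `f = g - (g - f)` with `ord (g - f) > ord g`
        by_cases hgf : g - f = 0
        · rw [← sub_eq_zero.mp hgf, hgord]
        · have h2 : P.ord g < P.ord (g - f) := by rw [hgord]; omega
          -- ord f ≥ min, and ord g ≥ min(ord f, ord (g - f))
          have h3 := Fermat.Agent.S24Res.ord_add_ge P (f := g) (g := -(g - f)) hg0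
            (neg_ne_zero.mpr hgf) (by
              rw [show g + -(g - f) = f by ring]
              exact hf0)
          rw [show g + -(g - f) = f by ring] at h3
          have hneg : P.ord (-(g - f)) = P.ord (g - f) := by
            rw [show -(g - f) = (-1 : F) * (g - f) by ring, P.ord_mul (by simp) hgf]
            have : P.ord (-1 : F) = 0 := by
              have h2 := P.ord_mul (f := (-1 : F)) (g := -1) (by simp) (by simp)
              rw [show (-1 : F) * -1 = 1 by ring, P.ord_one] at h2
              omega
            rw [this, zero_add]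
          rw [hneg] at h3
          have h4 := Fermat.Agent.S24Res.ord_add_ge P (f := f) (g := g - f) hf0 hgf (by
            rw [show f + (g - f) = g by ring]
            exact hg0)
          rw [show f + (g - f) = g by ring] at h4
          rw [hgord] at h2 h3 h4
          rcases min_le_iff.mp h4 with h5 | h5
          · have h6 : -(D P + 1) ≤ P.ord f := by
              rcases le_min_iff.mp (le_of_eq (min_eq_left (le_of_lt h2)).symm) with ⟨-, -⟩
              have := le_trans (le_min le_rfl (le_of_lt h2)) h3
              exact this
            omega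
          · omega
    refine ⟨f, mem_riemannRochSpace_iff.mpr fun v => ?_, fun hfD => ?_⟩
    · by_cases hv : v = P
      · subst hv
        right
        rw [adele_add_single_apply_self, hordf]
      · rw [adele_add_single_apply_of_ne D P hv]
        exact haway v hv
    · have := (mem_riemannRochSpace_iff.mp hfD P).resolve_left hf0
      rw [hordf] at this
      omega
  · rintro ⟨f, hf1, hf2⟩
    have hf1' := mem_riemannRochSpace_iff.mp hf1
    have hf0 : f ≠ 0 := by
      rintro rfl
      exact hf2 (Submodule.zero_mem _)
    -- `ord_P f = -(D P + 1)`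
    have hordf : P.ord f = -(D P + 1) := by
      have h1 := (hf1' P).resolve_left hf0
      rw [adele_add_single_apply_self] at h1
      by_contra hne
      apply hf2
      rw [mem_riemannRochSpace_iff]
      intro v
      right
      by_cases hv : v = P
      · subst hv
        omega
      · have := (hf1' v).resolve_left hf0
        rwa [adele_add_single_apply_of_ne D P hv] at this
    obtain ⟨c, hc0, hc⟩ := exists_const_sub_smul h P hf0 hg0 (hordf.trans hgord.symm)
    -- `c • a_P - f ∈ A(D)`
    have hmem : c • singleAdele P g ∈ AF D := by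
      rw [mem_AF_iff]
      refine ⟨f, fun v => ?_⟩
      by_cases hv : v = P
      · subst hv
        rw [adele_coe_smul_apply, singleAdele_apply_self]
        rcases hc with hc | hc
        · left
          rw [hc, sub_self]
        · right
          have e : v.ord (c • g - f) = v.ord (f - c • g) := by
            rw [show c • g - f = (-1 : F) * (f - c • g) by ring]
            by_cases h0 : f - c • g = 0
            · simp [h0]
            · rw [v.ord_mul (by simp) h0]
              have : v.ord (-1 : F) = 0 := by
                have h2 := v.ord_mul (f := (-1 : F)) (g := -1) (by simp) (by simp)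
                rw [show (-1 : F) * -1 = 1 by ring, v.ord_one] at h2
                omega
              rw [this, zero_add]
          rw [e]
          rw [hgord] at hc
          omega
      · rw [adele_coe_smul_apply, singleAdele_apply_of_ne P g hv, smul_zero, zero_sub]
        right
        have e : v.ord (-f) = v.ord f := by
          rw [show -f = (-1 : F) * f by ring, v.ord_mul (by simp) hf0]
          have : v.ord (-1 : F) = 0 := by
            have h2 := v.ord_mul (f := (-1 : F)) (g := -1) (by simp) (by simp)
            rw [show (-1 : F) * -1 = 1 by ring, v.ord_one] at h2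
            omega
          rw [this, zero_add]
        rw [e]
        have := (hf1' v).resolve_left hf0
        rwa [adele_add_single_apply_of_ne D P hv] at this
    have := Submodule.smul_mem (AF D) c⁻¹ hmem
    rwa [smul_smul, inv_mul_cancel₀ hc0, one_smul] at this

/-- one step, dichotomy: `AF (D + P) = AF D` iff `L(D + P) ≠ L(D)`. -/
theorem AF_add_single_eq_iff (h : IsRRField K F) (D : Divisor K F) (P : Place K F) :
    AF (D + Finsupp.single P 1) = AF D ↔
      ∃ f, f ∈ riemannRochSpace (D + Finsupp.single P 1) ∧ f ∉ riemannRochSpace D := by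
  obtain ⟨t, ht⟩ := exists_uniformizer P
  rw [← singleAdele_mem_AF_iff h D P ht, AF_add_single h D P ht]
  constructor
  · intro heq
    rw [← heq]
    exact Submodule.mem_sup_right (Submodule.mem_span_singleton_self _)
  · intro hmem
    refine le_antisymm (sup_le le_rfl ?_) le_sup_left
    rw [Submodule.span_le, Set.singleton_subset_iff]
    exact hmem

/-- one step: `AF (D + P) / AF D` is finite dimensional of dimension `1 - (ℓ(D+P) - ℓ(D))`. -/
theorem relAF_add_single (h : IsRRField K F) (D : Divisor K F) (P : Place K F) :
    Module.Finite K (relAF D (D + Finsupp.single P 1)) ∧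
      (Module.finrank K (relAF D (D + Finsupp.single P 1)) : ℤ) =
        1 - ((ell (D + Finsupp.single P 1) : ℤ) - ell D) := by
  obtain ⟨t, ht⟩ := exists_uniformizer P
  set a : ↥(repartitions K F) := singleAdele P (t ^ (-(D P + 1))) with ha
  have hrel : relAF D (D + Finsupp.single P 1) = Submodule.span K {(AF D).mkQ a} := by
    rw [relAF, AF_add_single h D P ht, Submodule.map_sup, Submodule.map_span,
      Set.image_singleton]
    rw [Submodule.mkQ_map_self, bot_sup_eq]
  rw [hrel]
  refine ⟨inferInstance, ?_⟩
  by_cases hmem : a ∈ AF D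
  · have h0 : (AF D).mkQ a = 0 := by
      rw [Submodule.mkQ_apply, Submodule.Quotient.mk_eq_zero]
      exact hmem
    have h1 := (ell_add_single_eq_iff h D P).mpr ((singleAdele_mem_AF_iff h D P ht).mp hmem)
    rw [h0, Submodule.span_zero_singleton, finrank_bot, h1]
    push_cast
    ring
  · have h0 : (AF D).mkQ a ≠ 0 := by
      rw [Submodule.mkQ_apply, Ne, Submodule.Quotient.mk_eq_zero]
      exact hmem
    have h1 : ell (D + Finsupp.single P 1) = ell D := by
      have h2 := ell_add_single_le h D P
      have h3 := ell_mono h (adele_le_add_single D P)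
      have h4 : ¬ ell (D + Finsupp.single P 1) = ell D + 1 := fun h5 =>
        hmem ((singleAdele_mem_AF_iff h D P ht).mpr ((ell_add_single_eq_iff h D P).mp h5))
      omega
    rw [finrank_span_singleton h0, h1]
    push_cast
    ring

/-- linear algebra: additivity of relative dimensions in a chain `M ≤ M' ≤ M''`. -/
theorem finrank_map_mkQ_add {V : Type*} [AddCommGroup V] [Module K V]
    {M M' M'' : Submodule K V} (h1 : M ≤ M') (h2 : M' ≤ M'')
    [Module.Finite K (M'.map M.mkQ)] [Module.Finite K (M''.map M'.mkQ)] :
    Module.Finite K (M''.map M.mkQ) ∧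
      Module.finrank K (M''.map M.mkQ) =
        Module.finrank K (M'.map M.mkQ) + Module.finrank K (M''.map M'.mkQ) := by
  -- the natural map `V ⧸ M → V ⧸ M'`
  set φ : (V ⧸ M) →ₗ[K] (V ⧸ M') := M.mapQ M' LinearMap.id (by simpa using h1) with hφ
  have hφmk : ∀ x : V, φ (M.mkQ x) = M'.mkQ x := fun x => rfl
  set ψ : ↥(M''.map M.mkQ) →ₗ[K] (V ⧸ M') := φ.domRestrict (M''.map M.mkQ) with hψ
  have hrange : LinearMap.range ψ = M''.map M'.mkQ := by
    ext y
    constructor
    · rintro ⟨⟨x, hx⟩, rfl⟩
      obtain ⟨z, hz, rfl⟩ := hx
      exact ⟨z, hz, (hφmk z).symm⟩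
    · rintro ⟨z, hz, rfl⟩
      exact ⟨⟨M.mkQ z, z, hz, rfl⟩, hφmk z⟩
  have hle : M'.map M.mkQ ≤ M''.map M.mkQ := Submodule.map_mono h2
  have hker : LinearMap.ker ψ = (M'.map M.mkQ).comap (M''.map M.mkQ).subtype := by
    ext ⟨x, hx⟩
    rw [LinearMap.mem_ker, Submodule.mem_comap]
    obtain ⟨z, hz, rfl⟩ := hx
    show φ (M.mkQ z) = 0 ↔ M.mkQ z ∈ M'.map M.mkQ
    rw [hφmk, Submodule.mkQ_apply, Submodule.Quotient.mk_eq_zero]
    constructor
    · intro hz'
      exact ⟨z, hz', rfl⟩
    · rintro ⟨w, hw, hwz⟩
      have : w - z ∈ M := by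
        rw [← Submodule.Quotient.mk_eq_zero M, Submodule.Quotient.mk_sub, sub_eq_zero]
        exact hwz
      have hz2 : z = w - (w - z) := by abel
      rw [hz2]
      exact M'.sub_mem hw (h1 this)
  -- the kernel is isomorphic to `M'.map M.mkQ`
  let e : ↥((M'.map M.mkQ).comap (M''.map M.mkQ).subtype) ≃ₗ[K] ↥(M'.map M.mkQ) :=
    Submodule.comapSubtypeEquivOfLe hle
  have : Module.Finite K ↥(LinearMap.ker ψ) := by
    rw [hker]
    exact Module.Finite.equiv e.symm
  have : Module.Finite K ↥(LinearMap.range ψ) := by
    rw [hrange]
    infer_instance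
  have : Module.Finite K (↥(M''.map M.mkQ) ⧸ LinearMap.ker ψ) :=
    Module.Finite.equiv ψ.quotKerEquivRange.symm
  have hfin : Module.Finite K ↥(M''.map M.mkQ) :=
    Module.Finite.of_submodule_quotient (LinearMap.ker ψ)
  refine ⟨hfin, ?_⟩
  have := LinearMap.finrank_range_add_finrank_ker ψ
  rw [← this, add_comm]
  congr 1
  · rw [hker]
    exact e.finrank_eq
  · rw [hrange]

/-- **key formula**: `dim AF D' / AF D = (deg D' - ℓ(D')) - (deg D - ℓ(D))` for `D ≤ D'`. -/
theorem relAF_finrank (h : IsRRField K F) {D D' : Divisor K F} (hle : D ≤ D') :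
    Module.Finite K (relAF D D') ∧
      (Module.finrank K (relAF D D') : ℤ) =
        (Divisor.degree D' - (ell D' : ℤ)) - (Divisor.degree D - (ell D : ℤ)) := by
  -- induction on `n = deg D' - deg D`
  suffices H : ∀ (n : ℕ) (D' : Divisor K F), D ≤ D' →
      Divisor.degree D' - Divisor.degree D = n →
      Module.Finite K (relAF D D') ∧
        (Module.finrank K (relAF D D') : ℤ) =
          (Divisor.degree D' - (ell D' : ℤ)) - (Divisor.degree D - (ell D : ℤ)) by
    have hdeg := degree_mono h hle
    obtain ⟨n, hn⟩ := Int.eq_ofNat_of_zero_le (sub_nonneg.mpr hdeg)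
    exact H n D' hle hn
  intro n
  induction n with
  | zero =>
    intro D' hle hn
    have hDD : D = D' := eq_of_le_of_degree_eq h hle (by
      have : Divisor.degree D' - Divisor.degree D = 0 := by simpa using hn
      linarith)
    subst hDD
    have hbot : relAF D D = ⊥ := by
      rw [relAF, Submodule.mkQ_map_self]
    rw [hbot]
    refine ⟨inferInstance, ?_⟩
    rw [finrank_bot]
    simp
  | succ n ih =>
    intro D' hle hn
    -- pick a point `P` with `D P < D' P`
    have hne : D ≠ D' := by
      rintro rfl
      rw [sub_self] at hn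
      have : (0 : ℤ) < ((n + 1 : ℕ) : ℤ) := by positivity
      omega
    obtain ⟨P, hP⟩ : ∃ P, D P < D' P := by
      by_contra hcon
      push Not at hcon
      apply hne
      ext v
      exact le_antisymm (Finsupp.le_def.mp hle v) (hcon v)
    set D'' : Divisor K F := D' - Finsupp.single P 1 with hD''
    have hD' : D' = D'' + Finsupp.single P 1 := by rw [hD'', sub_add_cancel]
    have hle'' : D ≤ D'' := by
      rw [Finsupp.le_def]
      intro v
      rw [hD'', Finsupp.sub_apply]
      by_cases hv : v = P
      · subst hv
        rw [Finsupp.single_eq_same]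
        omega
      · rw [Finsupp.single_eq_of_ne hv, sub_zero]
        exact Finsupp.le_def.mp hle v
    have hdeg : Divisor.degree D' = Divisor.degree D'' + 1 := by
      rw [hD', map_add, Divisor.degree_single, h.deg_one]
      simp
    obtain ⟨hfin1, hrank1⟩ := ih D'' hle'' (by rw [hdeg] at hn; push_cast at hn; linarith)
    obtain ⟨hfin2, hrank2⟩ := relAF_add_single h D'' P
    rw [← hD'] at hfin2 hrank2
    have : Module.Finite K ((AF D'').map (AF D).mkQ) := hfin1
    have : Module.Finite K ((AF D').map (AF D'').mkQ) := hfin2
    obtain ⟨hfin, hrank⟩ := finrank_map_mkQ_add (K := K) (AF_mono hle'')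
      (AF_mono (show D'' ≤ D' by rw [hD']; exact adele_le_add_single D'' P))
    refine ⟨hfin, ?_⟩
    show ((Module.finrank K ((AF D').map (AF D).mkQ) : ℕ) : ℤ) = _
    rw [hrank]
    push_cast
    have e1 : (Module.finrank K ((AF D'').map (AF D).mkQ) : ℤ) =
        (Divisor.degree D'' - (ell D'' : ℤ)) - (Divisor.degree D - (ell D : ℤ)) := hrank1
    have e2 : (Module.finrank K ((AF D').map (AF D'').mkQ) : ℤ) =
        1 - ((ell D' : ℤ) - ell D'') := hrank2
    rw [e1, e2, hdeg]
    ring

end Fermat.Agent.RR
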