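import Mathlib
import Fermat.Agent.Lib.RR.Basic

set_option autoImplicit false
set_option linter.style.haveILetI false

/-!
# Riemann-Roch library, RR1: Riemann's inequality

`∃ γ, ∀ D, deg D - ℓ(D) ≤ γ`  (Stichtenoth, Prop. 1.4.14).

Proof. `x` as in `IsRRField.exists_x`, `B = (x)_∞` its pole divisor, `n = [F : K(x)]`, so
`deg B ≤ n`.  Take a basis `u_1, …, u_n` of `F / K(x)` and `C ≥ 0` with `div u_j + C ≥ 0`.
The `n (l + 1)` elements `x^i u_j` (`0 ≤ i ≤ l`) lie in `L(l B + C)` and are linearly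
independent over `K`, so `ℓ(l B) ≥ ℓ(l B + C) - deg C ≥ n (l + 1) - deg C ≥ deg (l B) + n - deg C`.
For arbitrary `D`: choose `D₁ ≥ D`, `D₁ ≥ 0`; for `l` large `L(l B - D₁) ≠ 0`, say `z ≠ 0` in it,
then `D₁ - div z⁻¹ …` i.e. `D₂ := D₁ + div z ≤ l B`, and
`deg D - ℓ(D) ≤ deg D₁ - ℓ(D₁) = deg D₂ - ℓ(D₂) ≤ deg (l B) - ℓ(l B) ≤ deg C - n`.
-/

noncomputable section

open AlgebraicCurve IntermediateField

namespace Fermat.Agent.RR

variable {K F : Type*} [Field K] [Field F] [Algebra K F]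

/-- the pole divisor `(f)_∞ = ∑_{ord_v f < 0} (- ord_v f) · v`. -/
def poleDiv (h : IsRRField K F) (f : F) : Divisor K F :=
  Finsupp.onFinset (divOf h f).support (fun v => max (-(v.ord f)) 0) (by
    intro v hv
    rw [Finsupp.mem_support_iff, divOf_apply]
    intro h0
    rw [h0] at hv
    simp at hv)

theorem poleDiv_apply (h : IsRRField K F) (f : F) (v : Place K F) :
    poleDiv h f v = max (-(v.ord f)) 0 := rfl

theorem poleDiv_nonneg (h : IsRRField K F) (f : F) : 0 ≤ poleDiv h f := by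
  rw [Finsupp.le_def]
  intro v
  rw [poleDiv_apply]
  exact le_max_right _ _

/-- `div f + (f)_∞ ≥ 0`. -/
theorem neg_poleDiv_le_divOf (h : IsRRField K F) (f : F) : -poleDiv h f ≤ divOf h f := by
  rw [Finsupp.le_def]
  intro v
  rw [Finsupp.neg_apply, poleDiv_apply, divOf_apply]
  have := le_max_left (-(v.ord f)) 0
  omega

theorem mem_riemannRochSpace_poleDiv (h : IsRRField K F) (f : F) :
    f ∈ riemannRochSpace (poleDiv h f) := by
  rw [mem_riemannRochSpace_iff]
  intro v
  right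
  rw [poleDiv_apply]
  have := le_max_left (-(v.ord f)) 0
  omega

/-- finitely many functions have a common denominator divisor. -/
theorem exists_common_poleBound (h : IsRRField K F) (s : Finset F) :
    ∃ C : Divisor K F, 0 ≤ C ∧ ∀ f ∈ s, f ∈ riemannRochSpace C := by
  classical
  refine ⟨∑ f ∈ s, poleDiv h f, Finset.sum_nonneg fun f _ => poleDiv_nonneg h f, fun f hf => ?_⟩
  refine riemannRochSpace_mono ?_ (mem_riemannRochSpace_poleDiv h f)
  exact Finset.single_le_sum (f := fun g => poleDiv h g) (fun g _ => poleDiv_nonneg h g) hf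

/-- `x^i u ∈ L(l (x)_∞ + C)` for `i ≤ l`, `u ∈ L(C)`. -/
theorem pow_mul_mem (h : IsRRField K F) (x : F) {C : Divisor K F} {u : F}
    (hu : u ∈ riemannRochSpace C) {i l : ℕ} (hil : i ≤ l) :
    x ^ i * u ∈ riemannRochSpace (l • poleDiv h x + C) := by
  rw [mem_riemannRochSpace_iff] at hu ⊢
  intro v
  rcases eq_or_ne x 0 with rfl | hx
  · rcases Nat.eq_zero_or_pos i with rfl | hi
    · rw [pow_zero, one_mul]
      rcases hu v with h0 | h1
      · exact Or.inl h0
      · right
        rw [Finsupp.add_apply, Finsupp.smul_apply, poleDiv_apply]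
        have : (0 : ℤ) ≤ l • max (-(v.ord (0 : F))) 0 :=
          nsmul_nonneg (le_max_right _ _) l
        omega
    · left
      rw [zero_pow hi.ne', zero_mul]
  rcases eq_or_ne u 0 with rfl | hu0
  · left
    rw [mul_zero]
  right
  have h1 : -C v ≤ v.ord u := (hu v).resolve_left hu0
  rw [v.ord_mul (pow_ne_zero i hx) hu0, ← zpow_natCast, v.ord_zpow, Finsupp.add_apply,
    Finsupp.smul_apply, poleDiv_apply, nsmul_eq_mul]
  have h2 : -(v.ord x) ≤ max (-(v.ord x)) 0 := le_max_left _ _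
  have h3 : (0 : ℤ) ≤ max (-(v.ord x)) 0 := le_max_right _ _
  have h4 : (i : ℤ) * (-(v.ord x)) ≤ (l : ℤ) * max (-(v.ord x)) 0 := by
    calc (i : ℤ) * (-(v.ord x)) ≤ (i : ℤ) * max (-(v.ord x)) 0 :=
          mul_le_mul_of_nonneg_left h2 (Int.natCast_nonneg i)
      _ ≤ (l : ℤ) * max (-(v.ord x)) 0 :=
          mul_le_mul_of_nonneg_right (by exact_mod_cast hil) h3
  linarith

theorem support_poleDiv (h : IsRRField K F) (f : F) (v : Place K F) :
    v ∈ (poleDiv h f).support ↔ v.ord f < 0 := by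
  rw [Finsupp.mem_support_iff, poleDiv_apply]
  constructor
  · intro hne
    by_contra hlt
    apply hne
    rw [max_eq_right (by omega)]
  · intro hlt
    rw [max_eq_left (by omega)]
    omega

theorem degree_poleDiv (h : IsRRField K F) (f : F) (s : Finset (Place K F))
    (hs : ∀ v, v ∈ s ↔ v.ord f < 0) :
    Divisor.degree (poleDiv h f) = ∑ v ∈ s, (-v.ord f) := by
  have hsupp : (poleDiv h f).support = s := by
    ext v
    rw [support_poleDiv, hs]
  rw [degree_eq_sum h, hsupp]
  refine Finset.sum_congr rfl fun v hv => ?_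
  rw [poleDiv_apply, max_eq_left]
  have := (hs v).mp hv
  omega

/-- the degree of the pole divisor of the distinguished `x` is at most `[F : K(x)]`. -/
theorem exists_x_degree_poleDiv_le (h : IsRRField K F) :
    ∃ x : F, Transcendental K x ∧ FiniteDimensional K⟮x⟯ F ∧
      Divisor.degree (poleDiv h x) ≤ (Module.finrank K⟮x⟯ F : ℤ) ∧
      0 < Divisor.degree (poleDiv h x) := by
  obtain ⟨x, hx, hfin, s, hs, hsum⟩ := h.exists_x
  have hdeg := degree_poleDiv h x s hs
  rw [hsum] at hdeg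
  refine ⟨x, hx, hfin, hdeg.le, ?_⟩
  rw [hdeg]
  haveI := hfin
  exact_mod_cast Module.finrank_pos (R := K⟮x⟯) (M := F)


theorem linearIndependent_gen_pow {x : F} (hx : Transcendental K x) :
    LinearIndependent K (fun i : ℕ => (AdjoinSimple.gen K x) ^ i) := by
  have hinj : Function.Injective (Polynomial.aeval (R := K) (AdjoinSimple.gen K x)) := by
    rw [injective_iff_map_eq_zero]
    intro p hp
    have h1 : Polynomial.aeval x p = 0 := by
      have h2 := Polynomial.aeval_algHom_apply (K⟮x⟯.val) (AdjoinSimple.gen K x) p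
      rw [hp, map_zero] at h2
      rw [← h2]
      rfl
    exact (transcendental_iff_injective.mp hx) (by rw [h1, map_zero])
  have h1 : LinearIndependent K (fun i : ℕ => (Polynomial.monomial i (1 : K))) := by
    have := (Polynomial.basisMonomials K).linearIndependent
    rwa [Polynomial.coe_basisMonomials] at this
  have h2 := h1.map' (Polynomial.aeval (R := K) (AdjoinSimple.gen K x)).toLinearMap
    (LinearMap.ker_eq_bot.mpr hinj)
  have e : (fun i : ℕ => (AdjoinSimple.gen K x) ^ i) =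
      ⇑(Polynomial.aeval (R := K) (AdjoinSimple.gen K x)).toLinearMap ∘
        (fun i : ℕ => (Polynomial.monomial i (1 : K))) := by
    funext i
    simp [Polynomial.aeval_monomial]
  rw [e]
  exact h2

/-- linear independence over `K` of the `x^i u_j`: if `u` is a `K(x)`-basis of `F` and `x` is
transcendental, the family `(i, j) ↦ x^i u_j` is `K`-linearly independent. -/
theorem linearIndependent_pow_mul {x : F} (hx : Transcendental K x) {ι : Type*}
    (u : ι → F) (hu : LinearIndependent K⟮x⟯ u) :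
    LinearIndependent K (fun p : ℕ × ι => x ^ p.1 * u p.2) := by
  have h := linearIndependent_smul (linearIndependent_gen_pow hx) hu
  have e : (fun p : ℕ × ι => x ^ p.1 * u p.2) =
      fun p : ℕ × ι => ((AdjoinSimple.gen K x) ^ p.1 : K⟮x⟯) • u p.2 := by
    funext p
    rw [IntermediateField.smul_def, smul_eq_mul]
    simp
  rw [e]
  exact h


/-- lower bound `ℓ(l B + C) ≥ n (l + 1)`. -/
theorem le_ell_multiple (h : IsRRField K F) {x : F} (hx : Transcendental K x)
    [FiniteDimensional K⟮x⟯ F] :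
    ∃ C : Divisor K F, 0 ≤ C ∧ ∀ l : ℕ,
      Module.finrank K⟮x⟯ F * (l + 1) ≤ ell (l • poleDiv h x + C) := by
  classical
  set n := Module.finrank K⟮x⟯ F with hn
  let b := Module.finBasis K⟮x⟯ F
  obtain ⟨C, hC0, hC⟩ := exists_common_poleBound h (Finset.univ.image fun j => b j)
  refine ⟨C, hC0, fun l => ?_⟩
  have hmem : ∀ p : Fin (l + 1) × Fin n,
      x ^ (p.1 : ℕ) * b p.2 ∈ riemannRochSpace (l • poleDiv h x + C) := fun p =>
    pow_mul_mem h x (hC _ (Finset.mem_image_of_mem _ (Finset.mem_univ p.2)))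
      (Nat.lt_succ_iff.mp p.1.2)
  have hli0 := linearIndependent_pow_mul hx (fun j => b j) b.linearIndependent
  have hli1 : LinearIndependent K (fun p : Fin (l + 1) × Fin n => x ^ (p.1 : ℕ) * b p.2) :=
    hli0.comp (fun p : Fin (l + 1) × Fin n => ((p.1 : ℕ), p.2)) (by
      intro p q hpq
      simp only [Prod.mk.injEq] at hpq
      exact Prod.ext (Fin.ext hpq.1) hpq.2)
  have hli2 : LinearIndependent K (fun p : Fin (l + 1) × Fin n =>
      (⟨x ^ (p.1 : ℕ) * b p.2, hmem p⟩ : riemannRochSpace (l • poleDiv h x + C))) := by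
    apply LinearIndependent.of_comp (riemannRochSpace (l • poleDiv h x + C)).subtype
    exact hli1
  haveI := finite_riemannRochSpace h (l • poleDiv h x + C)
  have hcard := hli2.fintype_card_le_finrank
  rw [Fintype.card_prod, Fintype.card_fin, Fintype.card_fin] at hcard
  rw [ell_def]
  calc n * (l + 1) = (l + 1) * n := mul_comm _ _
    _ ≤ _ := hcard

/-- Riemann's inequality along the multiples of `B = (x)_∞`. -/
theorem exists_bound_multiples (h : IsRRField K F) :
    ∃ (B : Divisor K F) (γ : ℤ), 0 < Divisor.degree B ∧ 0 ≤ B ∧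
      ∀ l : ℕ, Divisor.degree (l • B) - (ell (l • B) : ℤ) ≤ γ := by
  obtain ⟨x, hx, hfin, hdeg, hpos⟩ := exists_x_degree_poleDiv_le h
  haveI := hfin
  obtain ⟨C, hC0, hC⟩ := le_ell_multiple h hx
  refine ⟨poleDiv h x, Divisor.degree C - Module.finrank K⟮x⟯ F, hpos, poleDiv_nonneg h x,
    fun l => ?_⟩
  have h1 : l • poleDiv h x ≤ l • poleDiv h x + C := le_add_of_nonneg_right hC0
  have h2 := degree_sub_ell_mono h h1
  have h3 : ((Module.finrank K⟮x⟯ F * (l + 1) : ℕ) : ℤ) ≤ (ell (l • poleDiv h x + C) : ℤ) := by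
    exact_mod_cast hC l
  have h4 : Divisor.degree (l • poleDiv h x + C) =
      (l : ℤ) * Divisor.degree (poleDiv h x) + Divisor.degree C := by
    rw [map_add, map_nsmul, nsmul_eq_mul]
  have h5 : (l : ℤ) * Divisor.degree (poleDiv h x) ≤ (l : ℤ) * (Module.finrank K⟮x⟯ F : ℤ) :=
    mul_le_mul_of_nonneg_left hdeg (Int.natCast_nonneg l)
  push_cast at h3
  rw [h4] at h2
  nlinarith


/-- **Riemann's inequality**: `deg D - ℓ(D)` is bounded above. -/
theorem exists_riemann_bound (h : IsRRField K F) :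
    ∃ γ : ℤ, ∀ D : Divisor K F, Divisor.degree D - (ell D : ℤ) ≤ γ := by
  classical
  obtain ⟨B, γ, hBpos, hB0, hbound⟩ := exists_bound_multiples h
  refine ⟨γ, fun D => ?_⟩
  -- `D₁ ≥ D`, `D₁ ≥ 0`
  set D₁ : Divisor K F := D ⊔ 0 with hD₁
  have hDD₁ : D ≤ D₁ := le_sup_left
  have hD₁0 : 0 ≤ D₁ := le_sup_right
  -- `l` large
  set l : ℕ := (Divisor.degree D₁ + γ + 1).toNat with hl
  have hl' : Divisor.degree D₁ + γ + 1 ≤ (l : ℤ) := Int.self_le_toNat _
  have hle : l • B - D₁ ≤ l • B := sub_le_self _ hD₁0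
  have h1 := degree_sub_ell_mono h hle
  have h2 := hbound l
  have hdeg : Divisor.degree (l • B - D₁) = (l : ℤ) * Divisor.degree B - Divisor.degree D₁ := by
    rw [map_sub, map_nsmul, nsmul_eq_mul]
  have hlB : (l : ℤ) ≤ (l : ℤ) * Divisor.degree B := by
    have : (0 : ℤ) ≤ (l : ℤ) := Int.natCast_nonneg l
    nlinarith
  have hpos : 0 < ell (l • B - D₁) := by
    have : (0 : ℤ) < (ell (l • B - D₁) : ℤ) := by
      rw [hdeg] at h1
      linarith
    exact_mod_cast this
  -- a nonzero element `z` of `L(l B - D₁)`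
  rw [ell_def] at hpos
  haveI := finite_riemannRochSpace h (l • B - D₁)
  obtain ⟨⟨z, hz⟩, hz0⟩ := Module.finrank_pos_iff_exists_ne_zero.mp hpos
  have hz0' : z ≠ 0 := fun h0 => hz0 (Subtype.ext h0)
  have hzle := (mem_riemannRochSpace_iff_le h hz0').mp hz
  -- `D₂ = D₁ - div z ≤ l B`
  set D₂ : Divisor K F := D₁ + divOf h z⁻¹ with hD₂
  have hD₂le : D₂ ≤ l • B := by
    rw [hD₂, divOf_inv]
    have : D₁ + -divOf h z ≤ D₁ + -(-(l • B - D₁)) := add_le_add_right (neg_le_neg hzle) D₁
    calc D₁ + -divOf h z ≤ D₁ + -(-(l • B - D₁)) := this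
      _ = l • B := by abel
  have hell : ell D₂ = ell D₁ := ell_add_divOf h D₁ (inv_ne_zero hz0')
  have hdeg₂ : Divisor.degree D₂ = Divisor.degree D₁ := by
    rw [hD₂, map_add, degree_divOf, add_zero]
  have h3 := degree_sub_ell_mono h hDD₁
  have h4 := degree_sub_ell_mono h hD₂le
  rw [hell, hdeg₂] at h4
  linarith

/-- the maximum of `deg D - ℓ(D)` is attained. -/
theorem exists_max_degree_sub_ell (h : IsRRField K F) :
    ∃ D₀ : Divisor K F, ∀ D : Divisor K F,
      Divisor.degree D - (ell D : ℤ) ≤ Divisor.degree D₀ - (ell D₀ : ℤ) := by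
  obtain ⟨γ, hγ⟩ := exists_riemann_bound h
  obtain ⟨ub, ⟨D₀, hD₀⟩, hub⟩ := Int.exists_greatest_of_bdd
    (P := fun z => ∃ D : Divisor K F, Divisor.degree D - (ell D : ℤ) = z)
    ⟨γ, fun z ⟨D, hD⟩ => hD ▸ hγ D⟩ ⟨_, 0, rfl⟩
  exact ⟨D₀, fun D => hD₀ ▸ hub _ ⟨D, rfl⟩⟩

end Fermat.Agent.RR
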