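import Mathlib
import Fermat.Agent.Lib.RR.Riemann
import Fermat.Agent.Lib.RR.Adele

set_option autoImplicit false

/-!
# Riemann-Roch library, RR3: Riemann-Roch, first form

`H¹(D)` is finite dimensional and `ℓ(D) = deg D + 1 - genusFF + dim H¹(D)`.
-/

noncomputable section

open AlgebraicCurve IntermediateField

namespace Fermat.Agent.RR

variable {K F : Type*} [Field K] [Field F] [Algebra K F]

/-- if `deg D₀ - ℓ(D₀)` is maximal then `A = A(D₀) + F`. -/
theorem AF_eq_top_of_max (h : IsRRField K F) {D₀ : Divisor K F}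
    (hmax : ∀ D : Divisor K F,
      Divisor.degree D - (ell D : ℤ) ≤ Divisor.degree D₀ - (ell D₀ : ℤ)) :
    AF D₀ = ⊤ := by
  rw [eq_top_iff]
  intro α _
  obtain ⟨D', hle, hα⟩ := exists_mem_repartitionsOf h α D₀
  obtain ⟨hfin, hrank⟩ := relAF_finrank h hle
  have h0 : Module.finrank K (relAF D₀ D') = 0 := by
    have := hmax D'
    omega
  have hbot : relAF D₀ D' = ⊥ := by
    have := hfin
    exact Submodule.finrank_eq_zero.mp h0
  have hαAF : α ∈ AF D' := Submodule.mem_sup_left hα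
  have hmem : (AF D₀).mkQ α ∈ relAF D₀ D' := Submodule.mem_map_of_mem hαAF
  rw [hbot, Submodule.mem_bot, Submodule.mkQ_apply, Submodule.Quotient.mk_eq_zero] at hmem
  exact hmem

/-- auxiliary: maximality propagates upwards. -/
theorem max_of_le_of_max (h : IsRRField K F) {D₀ D' : Divisor K F} (hle : D₀ ≤ D')
    (hmax : ∀ D : Divisor K F,
      Divisor.degree D - (ell D : ℤ) ≤ Divisor.degree D₀ - (ell D₀ : ℤ)) :
    (∀ D : Divisor K F,
      Divisor.degree D - (ell D : ℤ) ≤ Divisor.degree D' - (ell D' : ℤ)) ∧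
    Divisor.degree D' - (ell D' : ℤ) = Divisor.degree D₀ - (ell D₀ : ℤ) := by
  have h1 := degree_sub_ell_mono h hle
  have h2 := hmax D'
  refine ⟨fun D => (hmax D).trans h1, le_antisymm h2 h1⟩

/-- auxiliary: `H¹(D) = AF D' / AF D` when `AF D' = ⊤`. -/
theorem relAF_eq_top_of_AF_eq_top {D D' : Divisor K F} (hD' : AF D' = ⊤) :
    relAF D D' = ⊤ := by
  unfold relAF
  rw [hD', Submodule.map_top, Submodule.range_mkQ]

/-- auxiliary: finiteness and dimension of `A ⧸ AF D`. -/
theorem finite_and_finrank_quot_AF (h : IsRRField K F) {D₀ : Divisor K F}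
    (hmax : ∀ D : Divisor K F,
      Divisor.degree D - (ell D : ℤ) ≤ Divisor.degree D₀ - (ell D₀ : ℤ)) (D : Divisor K F) :
    Module.Finite K (↥(repartitions K F) ⧸ AF D) ∧
      (Module.finrank K (↥(repartitions K F) ⧸ AF D) : ℤ) =
        (Divisor.degree D₀ - (ell D₀ : ℤ)) - (Divisor.degree D - (ell D : ℤ)) := by
  obtain ⟨D', hle0, hle⟩ : ∃ D' : Divisor K F, D₀ ≤ D' ∧ D ≤ D' :=
    ⟨D₀ ⊔ D, le_sup_left, le_sup_right⟩
  obtain ⟨hmax', heq⟩ := max_of_le_of_max h hle0 hmax
  have htop : relAF D D' = ⊤ := relAF_eq_top_of_AF_eq_top (AF_eq_top_of_max h hmax')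
  obtain ⟨hfin, hrank⟩ := relAF_finrank h hle
  rw [htop] at hfin hrank
  have := hfin
  refine ⟨Module.Finite.equiv (Submodule.topEquiv (R := K)
    (M := ↥(repartitions K F) ⧸ AF D)), ?_⟩
  rw [finrank_top] at hrank
  rw [hrank, heq]

/-- `H¹(D)` is finite dimensional. -/
theorem finite_H1 (h : IsRRField K F) (D : Divisor K F) : Module.Finite K (H1 D) := by
  obtain ⟨D₀, hmax⟩ := exists_max_degree_sub_ell h
  exact (finite_and_finrank_quot_AF h hmax D).1

/-- `dim H¹(D) = (max (deg - ℓ)) - (deg D - ℓ(D))`. -/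
theorem idx_eq_of_max (h : IsRRField K F) {D₀ : Divisor K F}
    (hmax : ∀ D : Divisor K F,
      Divisor.degree D - (ell D : ℤ) ≤ Divisor.degree D₀ - (ell D₀ : ℤ)) (D : Divisor K F) :
    (idx D : ℤ) = (Divisor.degree D₀ - (ell D₀ : ℤ)) - (Divisor.degree D - (ell D : ℤ)) :=
  (finite_and_finrank_quot_AF h hmax D).2

/-- `genusFF - 1 = max (deg D - ℓ(D))`. -/
theorem genusFF_eq_of_max (h : IsRRField K F) {D₀ : Divisor K F}
    (hmax : ∀ D : Divisor K F,
      Divisor.degree D - (ell D : ℤ) ≤ Divisor.degree D₀ - (ell D₀ : ℤ)) :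
    (genusFF K F : ℤ) = Divisor.degree D₀ - (ell D₀ : ℤ) + 1 := by
  have h0 := idx_eq_of_max h hmax 0
  rw [idx_zero, ell_zero h, map_zero] at h0
  rw [h0]
  push_cast
  ring

/-- **Riemann-Roch, first form**. -/
theorem riemann_roch_H1 (h : IsRRField K F) (D : Divisor K F) :
    (ell D : ℤ) = Divisor.degree D + 1 - (genusFF K F : ℤ) + (idx D : ℤ) := by
  obtain ⟨D₀, hmax⟩ := exists_max_degree_sub_ell h
  rw [idx_eq_of_max h hmax D, genusFF_eq_of_max h hmax]
  ring

/-- **Riemann's inequality** with the genus. -/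
theorem riemann_inequality (h : IsRRField K F) (D : Divisor K F) :
    Divisor.degree D + 1 - (genusFF K F : ℤ) ≤ (ell D : ℤ) := by
  have := riemann_roch_H1 h D
  have h0 : (0 : ℤ) ≤ (idx D : ℤ) := Int.natCast_nonneg _
  omega

/-- `H¹(D) = 0` for all `D` of large degree. -/
theorem exists_idx_eq_zero (h : IsRRField K F) :
    ∃ c : ℤ, ∀ D : Divisor K F, c ≤ Divisor.degree D → idx D = 0 := by
  obtain ⟨D₀, hmax⟩ := exists_max_degree_sub_ell h
  refine ⟨Divisor.degree D₀ + (genusFF K F : ℤ), fun D hD => ?_⟩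
  -- `L(D - D₀) ≠ 0`
  have hineq := riemann_inequality h (D - D₀)
  rw [map_sub] at hineq
  have hpos : 0 < ell (D - D₀) := by
    have : (0 : ℤ) < (ell (D - D₀) : ℤ) := by omega
    exact_mod_cast this
  have hne : riemannRochSpace (D - D₀) ≠ ⊥ := by
    intro hbot
    rw [ell_def, hbot, finrank_bot] at hpos
    exact lt_irrefl _ hpos
  obtain ⟨z, hz, hz0⟩ := Submodule.exists_mem_ne_zero_of_ne_bot hne
  -- `D₀ ≤ D + div z`
  have hle : D₀ ≤ D + divOf h z := by
    have h1 := (mem_riemannRochSpace_iff_le h hz0).mp hz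
    have h2 : D₀ = D + -(D - D₀) := by abel
    rw [h2]
    exact add_le_add_right h1 D
  have h3 := degree_sub_ell_mono h hle
  rw [map_add, degree_divOf, add_zero, ell_add_divOf h D hz0] at h3
  have h4 := hmax D
  have h5 := idx_eq_of_max h hmax D
  have h6 : (idx D : ℤ) = 0 := by omega
  exact_mod_cast h6

/-- `idx` is antitone. -/
theorem idx_anti (h : IsRRField K F) {D D' : Divisor K F} (hle : D ≤ D') : idx D' ≤ idx D := by
  obtain ⟨D₀, hmax⟩ := exists_max_degree_sub_ell h
  have h1 := idx_eq_of_max h hmax D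
  have h2 := idx_eq_of_max h hmax D'
  have h3 := degree_sub_ell_mono h hle
  have : (idx D' : ℤ) ≤ (idx D : ℤ) := by omega
  exact_mod_cast this

/-- `idx` depends only on the class. -/
theorem idx_add_divOf (h : IsRRField K F) (D : Divisor K F) {f : F} (hf : f ≠ 0) :
    idx (D + divOf h f) = idx D := by
  obtain ⟨D₀, hmax⟩ := exists_max_degree_sub_ell h
  have h1 := idx_eq_of_max h hmax D
  have h2 := idx_eq_of_max h hmax (D + divOf h f)
  rw [map_add, degree_divOf, add_zero, ell_add_divOf h D hf] at h2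
  have : (idx (D + divOf h f) : ℤ) = (idx D : ℤ) := by rw [h1, h2]
  exact_mod_cast this

end Fermat.Agent.RR
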