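/-
Lib/RR (Riemann–Roch library), part RR4a: adele ("repartition") lemmas needed for Weil differentials.
Owner: helper80.  Only Mathlib + Prelude are imported.

Notation: `𝔸 = ↥(repartitions K F)`, `𝔸(D) = repartitionsOf D`, `L(D) = riemannRochSpace D`.
-/
import Mathlib
import Fermat.Prelude.Def_AlgebraicCurve_Repartitions

set_option autoImplicit false

namespace Fermat.Agent.RRDual

open AlgebraicCurve WithZero

variable {K F : Type*} [Field K] [Field F] [Algebra K F]

/-! ### membership in `𝔸` -/

/-- an adele built from a function bounded by a divisor -/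
def adeleOfLe (D : Divisor K F) (α : Place K F → F)
    (h : ∀ v : Place K F, v.adicValuation (α v) ≤ exp (D v)) : ↥(repartitions K F) :=
  ⟨α, mem_repartitions_of_forall_le_exp D α h⟩

@[simp] theorem adeleOfLe_coe (D : Divisor K F) (α : Place K F → F)
    (h : ∀ v : Place K F, v.adicValuation (α v) ≤ exp (D v)) :
    ((adeleOfLe D α h : ↥(repartitions K F)) : Place K F → F) = α := rfl

theorem adeleOfLe_mem (D : Divisor K F) (α : Place K F → F)
    (h : ∀ v : Place K F, v.adicValuation (α v) ≤ exp (D v)) :
    adeleOfLe D α h ∈ repartitionsOf D := h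

theorem mem_repartitionsOf_def {D : Divisor K F} {α : ↥(repartitions K F)} :
    α ∈ repartitionsOf D ↔
      ∀ v : Place K F, v.adicValuation ((α : Place K F → F) v) ≤ exp (D v) := Iff.rfl

/-! ### `𝔸(D ⊔ E) = 𝔸(D) + 𝔸(E)` -/

theorem repartitionsOf_sup (D E : Divisor K F) :
    repartitionsOf (D ⊔ E) = repartitionsOf D ⊔ repartitionsOf E := by
  classical
  apply le_antisymm
  · intro α hα
    rw [mem_repartitionsOf_def] at hα
    -- split
    let β : Place K F → F := fun v =>
      if v.adicValuation ((α : Place K F → F) v) ≤ exp (D v) then (α : Place K F → F) v else 0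
    have hβ : ∀ v : Place K F, v.adicValuation (β v) ≤ exp (D v) := by
      intro v
      by_cases h : v.adicValuation ((α : Place K F → F) v) ≤ exp (D v)
      · simp only [β, if_pos h]; exact h
      · simp only [β, if_neg h, map_zero]; exact zero_le
    let γ : Place K F → F := fun v =>
      if v.adicValuation ((α : Place K F → F) v) ≤ exp (D v) then 0 else (α : Place K F → F) v
    have hγ : ∀ v : Place K F, v.adicValuation (γ v) ≤ exp (E v) := by
      intro v
      by_cases h : v.adicValuation ((α : Place K F → F) v) ≤ exp (D v)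
      · simp only [γ, if_pos h, map_zero]; exact zero_le
      · simp only [γ, if_neg h]
        have h1 := hα v
        rw [Finsupp.sup_apply] at h1
        rcases le_total (D v) (E v) with hDE | hDE
        · rwa [sup_eq_right.mpr hDE] at h1
        · rw [sup_eq_left.mpr hDE] at h1
          exact absurd h1 h
    have hsum : α = adeleOfLe D β hβ + adeleOfLe E γ hγ := by
      apply Subtype.ext
      funext v
      show (α : Place K F → F) v = β v + γ v
      by_cases h : v.adicValuation ((α : Place K F → F) v) ≤ exp (D v)
      · simp only [β, γ, if_pos h, add_zero]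
      · simp only [β, γ, if_neg h, zero_add]
    rw [hsum]
    exact Submodule.add_mem_sup (adeleOfLe_mem D β hβ) (adeleOfLe_mem E γ hγ)
  · exact sup_le (repartitionsOf_mono le_sup_left) (repartitionsOf_mono le_sup_right)

/-! ### multiplication by an element of `F` -/

/-- multiplication by `x : F` on adeles, as a `K`-linear map -/
noncomputable def mulF (x : F) : ↥(repartitions K F) →ₗ[K] ↥(repartitions K F) :=
  DistribSMul.toLinearMap K ↥(repartitions K F) x

@[simp] theorem mulF_apply (x : F) (α : ↥(repartitions K F)) : mulF (K := K) x α = x • α := rfl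

theorem coe_smul_apply (x : F) (α : ↥(repartitions K F)) (v : Place K F) :
    ((x • α : ↥(repartitions K F)) : Place K F → F) v = x * (α : Place K F → F) v := rfl

theorem mulF_one : mulF (K := K) (F := F) 1 = LinearMap.id := by
  ext α; simp

theorem mulF_mul (x y : F) : mulF (K := K) (x * y) = (mulF x).comp (mulF y) := by
  ext α; simp [mul_smul]

theorem mulF_principal (x : F) {α : ↥(repartitions K F)} (hα : α ∈ principalRepartitions K F) :
    mulF (K := K) x α ∈ principalRepartitions K F := by
  rw [mem_principalRepartitions_iff] at hα ⊢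
  obtain ⟨f, hf⟩ := hα
  refine ⟨x * f, ?_⟩
  funext v
  rw [mulF_apply, coe_smul_apply, hf]

/-- if `div x = Dx` then `x • 𝔸(D) ⊆ 𝔸(D - Dx)` -/
theorem mulF_mem_repartitionsOf {x : F} (hx : x ≠ 0) {Dx : Divisor K F}
    (hDx : ∀ v : Place K F, Dx v = v.ord x) {D : Divisor K F} {α : ↥(repartitions K F)}
    (hα : α ∈ repartitionsOf D) : mulF (K := K) x α ∈ repartitionsOf (D - Dx) := by
  intro v
  show v.adicValuation (x * (α : Place K F → F) v) ≤ exp ((D - Dx) v)
  rw [map_mul, v.adicValuation_eq_exp_neg_ord hx, Finsupp.sub_apply, hDx v,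
    show D v - v.ord x = -v.ord x + D v by ring, exp_add]
  exact mul_le_mul_right (hα v) _

end Fermat.Agent.RRDual
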