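/-
Lib/RR (Riemann–Roch library), part RR4b: Weil differentials.
Owner: helper80.  Only Mathlib + Prelude are imported.

`weilDiff D` = `K`-linear forms on `𝔸` vanishing on `𝔸(D) + F`;  `twist x ω = ω ∘ (x • ·)`.
-/
import Fermat.Agent.Lib.RR.DualityAdeles

set_option autoImplicit false

namespace Fermat.Agent.RRDual

open AlgebraicCurve WithZero

variable {K F : Type*} [Field K] [Field F] [Algebra K F]

/-! ### the spaces `Ω(D)` -/

/-- Weil differentials vanishing on `𝔸(D) + F`. -/
def weilDiff (D : Divisor K F) : Submodule K (Module.Dual K ↥(repartitions K F)) :=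
  (repartitionsOf D ⊔ principalRepartitions K F).dualAnnihilator

theorem mem_weilDiff {D : Divisor K F} {ω : Module.Dual K ↥(repartitions K F)} :
    ω ∈ weilDiff D ↔ (∀ α ∈ repartitionsOf D, ω α = 0) ∧
      (∀ α ∈ principalRepartitions K F, ω α = 0) := by
  rw [weilDiff, Submodule.mem_dualAnnihilator]
  constructor
  · intro h
    exact ⟨fun α hα => h α (Submodule.mem_sup_left hα), fun α hα => h α (Submodule.mem_sup_right hα)⟩
  · rintro ⟨h1, h2⟩ α hα
    obtain ⟨β, hβ, γ, hγ, rfl⟩ := Submodule.mem_sup.mp hα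
    rw [map_add, h1 β hβ, h2 γ hγ, add_zero]

theorem weilDiff_anti {D E : Divisor K F} (h : D ≤ E) : weilDiff E ≤ weilDiff D := by
  intro ω hω
  rw [mem_weilDiff] at hω ⊢
  exact ⟨fun α hα => hω.1 α (repartitionsOf_mono h hα), hω.2⟩

theorem weilDiff_inf_le (D E : Divisor K F) : weilDiff D ⊓ weilDiff E ≤ weilDiff (D ⊔ E) := by
  intro ω hω
  obtain ⟨h1, h2⟩ := Submodule.mem_inf.mp hω
  rw [mem_weilDiff] at h1 h2 ⊢
  refine ⟨fun α hα => ?_, h1.2⟩
  rw [repartitionsOf_sup] at hα
  obtain ⟨β, hβ, γ, hγ, rfl⟩ := Submodule.mem_sup.mp hα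
  rw [map_add, h1.1 β hβ, h2.1 γ hγ, add_zero]

/-- `Ω(D)` is the dual of `H¹(D)`. -/
noncomputable def weilDiffEquiv (D : Divisor K F) : Module.Dual K (H1 D) ≃ₗ[K] ↥(weilDiff D) :=
  Submodule.dualQuotEquivDualAnnihilator (repartitionsOf D ⊔ principalRepartitions K F)

theorem finrank_weilDiff (D : Divisor K F) [Module.Finite K (H1 D)] :
    Module.finrank K ↥(weilDiff D) = Module.finrank K (H1 D) := by
  rw [← (weilDiffEquiv D).finrank_eq, Subspace.dual_finrank_eq]

theorem finite_weilDiff (D : Divisor K F) [Module.Finite K (H1 D)] :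
    Module.Finite K ↥(weilDiff D) :=
  Module.Finite.equiv (weilDiffEquiv D)

/-! ### twisting by `x : F` -/

/-- `twist x ω = ω ∘ (x • ·)`, linear in `ω`. -/
noncomputable def twist (x : F) :
    Module.Dual K ↥(repartitions K F) →ₗ[K] Module.Dual K ↥(repartitions K F) :=
  LinearMap.lcomp K K (mulF x)

@[simp] theorem twist_apply (x : F) (ω : Module.Dual K ↥(repartitions K F))
    (α : ↥(repartitions K F)) : twist x ω α = ω (x • α) := rfl

theorem twist_one (ω : Module.Dual K ↥(repartitions K F)) : twist 1 ω = ω := by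
  ext α; simp

theorem twist_zero (ω : Module.Dual K ↥(repartitions K F)) : twist 0 ω = 0 := by
  ext α; simp

theorem twist_twist (x y : F) (ω : Module.Dual K ↥(repartitions K F)) :
    twist x (twist y ω) = twist (y * x) ω := by
  ext α; simp [mul_smul]

theorem twist_add (x y : F) (ω : Module.Dual K ↥(repartitions K F)) :
    twist (x + y) ω = twist x ω + twist y ω := by
  ext α; simp [add_smul]

theorem twist_smul (c : K) (x : F) (ω : Module.Dual K ↥(repartitions K F)) :
    twist (c • x) ω = c • twist x ω := by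
  ext α
  simp only [twist_apply, LinearMap.smul_apply, smul_assoc]
  exact ω.map_smul c (x • α)

theorem twist_inv_twist {x : F} (hx : x ≠ 0) (ω : Module.Dual K ↥(repartitions K F)) :
    twist x⁻¹ (twist x ω) = ω := by
  rw [twist_twist, mul_inv_cancel₀ hx, twist_one]

theorem twist_ne_zero {x : F} (hx : x ≠ 0) {ω : Module.Dual K ↥(repartitions K F)}
    (hω : ω ≠ 0) : twist x ω ≠ 0 := by
  intro h
  apply hω
  rw [← twist_inv_twist hx ω, h, map_zero]

/-- if `div x = Dx` and `ω ∈ Ω(D)` then `x ω ∈ Ω(D + Dx)` -/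
theorem twist_mem_weilDiff {x : F} (hx : x ≠ 0) {Dx : Divisor K F}
    (hDx : ∀ v : Place K F, Dx v = v.ord x) {D : Divisor K F}
    {ω : Module.Dual K ↥(repartitions K F)} (hω : ω ∈ weilDiff D) :
    twist x ω ∈ weilDiff (D + Dx) := by
  rw [mem_weilDiff] at hω ⊢
  refine ⟨fun α hα => ?_, fun α hα => ?_⟩
  · have := mulF_mem_repartitionsOf (K := K) hx hDx hα
    rw [add_sub_cancel_right] at this
    exact hω.1 _ this
  · exact hω.2 _ (mulF_principal x hα)

end Fermat.Agent.RRDual
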