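/-
Lib/RR (Riemann–Roch library), part RR4c: the inputs from RR1–RR3 (as a hypothesis bundle) and
first consequences.   Owner: helper80.  Only Mathlib + Prelude are imported.
-/
import Fermat.Agent.Lib.RR.DualityWeil

set_option autoImplicit false

namespace Fermat.Agent.RRDual

open AlgebraicCurve WithZero

/-- The inputs of the duality theorem (outputs of RR1–RR3):
principal divisors, places of positive degree, finiteness of `L(D)` and `H¹(D)`,
`ℓ(D) - i(D) = deg D + 1 - g` and Riemann's theorem `i(D) = 0` for `deg D ≥ c`. -/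
structure RRBase (K F : Type*) [Field K] [Field F] [Algebra K F] : Prop where
  hasPD : HasPrincipalDivisors K F
  deg_pos : ∀ v : Place K F, 0 < v.deg
  nonempty : Nonempty (Place K F)
  finite_L : ∀ D : Divisor K F, Module.Finite K ↥(riemannRochSpace D)
  finite_H1 : ∀ D : Divisor K F, Module.Finite K (H1 D)
  rr : ∀ D : Divisor K F, (Module.finrank K ↥(riemannRochSpace D) : ℤ)
      - (Module.finrank K (H1 D) : ℤ) = Divisor.degree D + 1 - (genusFF K F : ℤ)
  riemann : ∃ c : ℤ, ∀ D : Divisor K F, c ≤ Divisor.degree D → Module.finrank K (H1 D) = 0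

variable {K F : Type*} [Field K] [Field F] [Algebra K F]

/-! ### divisors -/

theorem degree_nonneg_of_nonneg {D : Divisor K F} (hD : 0 ≤ D) : 0 ≤ Divisor.degree D := by
  classical
  have : Divisor.degree D = D.sum fun v n => n * (v.deg : ℤ) := by
    simp [Divisor.degree, Finsupp.liftAddHom_apply]
  rw [this, Finsupp.sum]
  exact Finset.sum_nonneg fun v _ => mul_nonneg (hD v) (Int.natCast_nonneg _)

theorem degree_mono {D E : Divisor K F} (h : D ≤ E) : Divisor.degree D ≤ Divisor.degree E := by
  have h1 : 0 ≤ E - D := sub_nonneg.mpr h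
  have := degree_nonneg_of_nonneg h1
  rw [map_sub] at this
  linarith

theorem eq_zero_of_nonneg_of_degree_le (hdeg : ∀ v : Place K F, 0 < v.deg) {D : Divisor K F}
    (hD : 0 ≤ D) (h : Divisor.degree D ≤ 0) : D = 0 := by
  classical
  have hsum : Divisor.degree D = D.sum fun v n => n * (v.deg : ℤ) := by
    simp [Divisor.degree, Finsupp.liftAddHom_apply]
  rw [hsum, Finsupp.sum] at h
  have hnn : ∀ v ∈ D.support, 0 ≤ D v * (v.deg : ℤ) :=
    fun v _ => mul_nonneg (hD v) (Int.natCast_nonneg _)
  have hz := (Finset.sum_eq_zero_iff_of_nonneg hnn).mp (le_antisymm h (Finset.sum_nonneg hnn))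
  ext v
  by_cases hv : v ∈ D.support
  · have := hz v hv
    have hpos : (0 : ℤ) < (v.deg : ℤ) := by exact_mod_cast hdeg v
    rcases mul_eq_zero.mp this with h0 | h0
    · simpa using h0
    · omega
  · simpa using Finsupp.notMem_support_iff.mp hv

/-! ### `L(D)` -/

theorem mem_riemannRochSpace_of_div {x : F} (hx : x ≠ 0) {Dx : Divisor K F}
    (hDx : ∀ v : Place K F, Dx v = v.ord x) {E : Divisor K F} :
    x ∈ riemannRochSpace E ↔ -E ≤ Dx := by
  rw [mem_riemannRochSpace_iff]
  constructor
  · intro h v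
    rcases h v with h0 | h0
    · exact absurd h0 hx
    · rw [Finsupp.neg_apply, hDx v]; exact h0
  · intro h v
    right
    have := h v
    rwa [Finsupp.neg_apply, hDx v] at this

namespace RRBase

variable (B : RRBase K F)
include B

theorem exists_div {x : F} (hx : x ≠ 0) :
    ∃ Dx : Divisor K F, (∀ v : Place K F, Dx v = v.ord x) ∧ Divisor.degree Dx = 0 :=
  B.hasPD.exists_divisor x hx

theorem riemannRochSpace_eq_bot {D : Divisor K F} (hD : Divisor.degree D < 0) :
    riemannRochSpace D = ⊥ := by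
  rw [eq_bot_iff]
  intro x hx
  rw [Submodule.mem_bot]
  by_contra hx0
  obtain ⟨Dx, hDx, hdeg⟩ := B.exists_div hx0
  have h1 := (mem_riemannRochSpace_of_div hx0 hDx).mp hx
  have h2 := degree_mono h1
  rw [map_neg, hdeg] at h2
  omega

theorem finrank_L_eq_zero {D : Divisor K F} (hD : Divisor.degree D < 0) :
    Module.finrank K ↥(riemannRochSpace D) = 0 := by
  rw [B.riemannRochSpace_eq_bot hD]
  exact finrank_bot K F

/-- `i(D) = ℓ(D) - deg D - 1 + g` -/
theorem finrank_H1 (D : Divisor K F) : (Module.finrank K (H1 D) : ℤ) =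
    (Module.finrank K ↥(riemannRochSpace D) : ℤ) - Divisor.degree D - 1 + (genusFF K F : ℤ) := by
  have := B.rr D
  omega

theorem finrank_weilDiff_eq (D : Divisor K F) : (Module.finrank K ↥(weilDiff D) : ℤ) =
    (Module.finrank K ↥(riemannRochSpace D) : ℤ) - Divisor.degree D - 1 + (genusFF K F : ℤ) := by
  have := B.finite_H1 D
  rw [finrank_weilDiff, B.finrank_H1]

/-- Riemann's inequality `ℓ(D) ≥ deg D + 1 - g`. -/
theorem riemann_ineq (D : Divisor K F) :
    Divisor.degree D + 1 - (genusFF K F : ℤ) ≤ (Module.finrank K ↥(riemannRochSpace D) : ℤ) := by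
  have := B.rr D
  have h2 : (0 : ℤ) ≤ (Module.finrank K (H1 D) : ℤ) := Int.natCast_nonneg _
  omega

theorem weilDiff_eq_bot_of_le : ∃ c : ℤ, ∀ D : Divisor K F, c ≤ Divisor.degree D →
    weilDiff D = ⊥ := by
  obtain ⟨c, hc⟩ := B.riemann
  refine ⟨c, fun D hD => ?_⟩
  have := B.finite_H1 D
  have := finite_weilDiff D
  apply Submodule.finrank_eq_zero.mp
  rw [finrank_weilDiff, hc D hD]

end RRBase

end Fermat.Agent.RRDual
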