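/-
Lib/RR (Riemann–Roch library), part RR4: the duality theorem and the Riemann–Roch theorem.
Owner: helper80.  Only Mathlib + Prelude are imported.

Main results (all under `B : RRBase K F`, the outputs of RR1–RR3):
* `RRBase.exists_twist_eq`      : Weil differentials form a 1-dimensional `F`-space;
* `RRBase.exists_isCanonical`   : a canonical divisor `W` exists;
* `RRBase.finrank_H1_eq`        : `i(D) = ℓ(W - D)`  (duality);
* `RRBase.riemann_roch`         : `ℓ(D) - ℓ(W - D) = deg D + 1 - g`;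
* `RRBase.degree_canonical`     : `deg W = 2 g - 2`;   `RRBase.finrank_L_canonical : ℓ(W) = g`;
* `RRBase.finrank_L_of_lt`      : `ℓ(D) = deg D + 1 - g` if `deg D > 2 g - 2`.
-/
import Fermat.Agent.Lib.RR.DualityBase

set_option autoImplicit false

namespace Fermat.Agent.RRDual

open AlgebraicCurve WithZero

variable {K F : Type*} [Field K] [Field F] [Algebra K F]

/-! ### the map `L(E) → Ω(T)`, `x ↦ x ω` -/

/-- `x ↦ twist x ω` as a `K`-linear map `F → 𝔸*`. -/
noncomputable def twistL (ω : Module.Dual K ↥(repartitions K F)) :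
    F →ₗ[K] Module.Dual K ↥(repartitions K F) where
  toFun x := twist x ω
  map_add' x y := twist_add x y ω
  map_smul' c x := twist_smul c x ω

@[simp] theorem twistL_apply (ω : Module.Dual K ↥(repartitions K F)) (x : F) :
    twistL ω x = twist x ω := rfl

namespace RRBase

variable (B : RRBase K F)
include B

theorem twist_mem_of_mem {D E T : Divisor K F} (hT : T + E ≤ D)
    {ω : Module.Dual K ↥(repartitions K F)} (hω : ω ∈ weilDiff D) {x : F}
    (hx : x ∈ riemannRochSpace E) : twist x ω ∈ weilDiff T := by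
  by_cases hx0 : x = 0
  · rw [hx0, twist_zero]; exact Submodule.zero_mem _
  · obtain ⟨Dx, hDx, -⟩ := B.exists_div hx0
    have h1 := (mem_riemannRochSpace_of_div hx0 hDx).mp hx
    have h2 := twist_mem_weilDiff hx0 hDx hω
    refine weilDiff_anti ?_ h2
    intro v
    have h3 := hT v
    have h4 := h1 v
    simp only [Finsupp.add_apply, Finsupp.neg_apply] at h3 h4 ⊢
    omega

/-- for `ω ∈ Ω(D)` and `T + E ≤ D`: the map `L(E) → Ω(T)`, `x ↦ x ω`. -/
noncomputable def twistMap {D E T : Divisor K F} (hT : T + E ≤ D)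
    {ω : Module.Dual K ↥(repartitions K F)} (hω : ω ∈ weilDiff D) :
    ↥(riemannRochSpace E) →ₗ[K] ↥(weilDiff T) :=
  LinearMap.codRestrict (weilDiff T) ((twistL ω).domRestrict (riemannRochSpace E))
    (fun x => B.twist_mem_of_mem hT hω x.2)

theorem twistMap_coe {D E T : Divisor K F} (hT : T + E ≤ D)
    {ω : Module.Dual K ↥(repartitions K F)} (hω : ω ∈ weilDiff D)
    (x : ↥(riemannRochSpace E)) :
    ((B.twistMap hT hω x : ↥(weilDiff T)) : Module.Dual K ↥(repartitions K F)) =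
      twist (x : F) ω := rfl

theorem twistMap_injective {D E T : Divisor K F} (hT : T + E ≤ D)
    {ω : Module.Dual K ↥(repartitions K F)} (hω : ω ∈ weilDiff D) (hω0 : ω ≠ 0) :
    Function.Injective (B.twistMap hT hω : ↥(riemannRochSpace E) →ₗ[K] ↥(weilDiff T)) := by
  intro x y hxy
  have h1 : twist (x : F) ω = twist (y : F) ω := by
    have := congrArg Subtype.val hxy
    rwa [twistMap_coe, twistMap_coe] at this
  have h2 : twist ((x : F) - (y : F)) ω = 0 := by
    rw [sub_eq_add_neg, twist_add, h1, ← twist_add, add_neg_cancel, twist_zero]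
  by_contra hne
  exact twist_ne_zero (fun h => hne (Subtype.ext (sub_eq_zero.mp h))) hω0 h2

/-! ### Weil differentials form a one-dimensional `F`-space -/

omit B in
/-- two injective maps into a space of too small dimension have a common nonzero value -/
theorem exists_common_value {V U₁ U₂ : Type*} [AddCommGroup V] [Module K V]
    [AddCommGroup U₁] [Module K U₁] [AddCommGroup U₂] [Module K U₂]
    [Module.Finite K V] [Module.Finite K U₁] [Module.Finite K U₂]
    (f₁ : U₁ →ₗ[K] V) (f₂ : U₂ →ₗ[K] V) (h₁ : Function.Injective f₁)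
    (h₂ : Function.Injective f₂)
    (hdim : Module.finrank K V < Module.finrank K U₁ + Module.finrank K U₂) :
    ∃ (x₁ : U₁) (x₂ : U₂), f₁ x₁ = f₂ x₂ ∧ f₁ x₁ ≠ 0 := by
  have hker : LinearMap.ker (f₁.coprod (-f₂)) ≠ ⊥ := by
    apply LinearMap.ker_ne_bot_of_finrank_lt
    rw [Module.finrank_prod]
    exact hdim
  obtain ⟨z, hz, hz0⟩ := Submodule.exists_mem_ne_zero_of_ne_bot hker
  rw [LinearMap.mem_ker, LinearMap.coprod_apply, LinearMap.neg_apply, ← sub_eq_add_neg,
    sub_eq_zero] at hz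
  refine ⟨z.1, z.2, hz, fun h0 => hz0 ?_⟩
  have e1 : z.1 = 0 := h₁ (by rw [h0, map_zero])
  have e2 : z.2 = 0 := h₂ (by rw [← hz, h0, map_zero])
  exact Prod.ext e1 e2

theorem exists_twist_eq_aux {D₁ D₂ T : Divisor K F}
    {ω₁ ω₂ : Module.Dual K ↥(repartitions K F)}
    (h₁ : ω₁ ∈ weilDiff D₁) (h₂ : ω₂ ∈ weilDiff D₂) (hω₁ : ω₁ ≠ 0) (hω₂ : ω₂ ≠ 0)
    (hT : Divisor.degree T < 0)
    (hbig : 3 * (genusFF K F : ℤ) - Divisor.degree D₁ - Divisor.degree D₂
      < - Divisor.degree T + 3) :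
    ∃ x : F, ω₂ = twist x ω₁ := by
  have hT₁ : T + (D₁ - T) ≤ D₁ := by rw [add_sub_cancel]
  have hT₂ : T + (D₂ - T) ≤ D₂ := by rw [add_sub_cancel]
  have hfH : Module.Finite K (H1 T) := B.finite_H1 T
  have hfin : Module.Finite K ↥(weilDiff T) := finite_weilDiff T
  have hfL₁ : Module.Finite K ↥(riemannRochSpace (D₁ - T)) := B.finite_L (D₁ - T)
  have hfL₂ : Module.Finite K ↥(riemannRochSpace (D₂ - T)) := B.finite_L (D₂ - T)
  have hV := B.finrank_weilDiff_eq T
  rw [B.finrank_L_eq_zero hT] at hV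
  have hl₁ := B.riemann_ineq (D₁ - T)
  have hl₂ := B.riemann_ineq (D₂ - T)
  rw [map_sub] at hl₁ hl₂
  have hdim : Module.finrank K ↥(weilDiff T) < Module.finrank K ↥(riemannRochSpace (D₁ - T))
      + Module.finrank K ↥(riemannRochSpace (D₂ - T)) := by
    have : (Module.finrank K ↥(weilDiff T) : ℤ) <
        (Module.finrank K ↥(riemannRochSpace (D₁ - T)) : ℤ)
          + (Module.finrank K ↥(riemannRochSpace (D₂ - T)) : ℤ) := by
      push_cast at hV
      linarith
    exact_mod_cast this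
  obtain ⟨x₁, x₂, he, hne⟩ := exists_common_value (K := K) (V := ↥(weilDiff T))
    (U₁ := ↥(riemannRochSpace (D₁ - T))) (U₂ := ↥(riemannRochSpace (D₂ - T)))
    (B.twistMap hT₁ h₁) (B.twistMap hT₂ h₂)
    (B.twistMap_injective hT₁ h₁ hω₁) (B.twistMap_injective hT₂ h₂ hω₂) hdim
  have e : twist (x₁ : F) ω₁ = twist (x₂ : F) ω₂ := by
    have := congrArg Subtype.val he
    rwa [twistMap_coe, twistMap_coe] at this
  have hx₂0 : (x₂ : F) ≠ 0 := by
    intro h
    apply hne
    apply Subtype.ext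
    rw [twistMap_coe, e, h, twist_zero]
    rfl
  refine ⟨(x₁ : F) * (x₂ : F)⁻¹, ?_⟩
  rw [← twist_twist, e, twist_inv_twist hx₂0]

theorem exists_divisor_degree_lt (n : ℤ) : ∃ T : Divisor K F, Divisor.degree T < n := by
  obtain ⟨P⟩ := B.nonempty
  have hd : (0 : ℤ) < (P.deg : ℤ) := by exact_mod_cast B.deg_pos P
  refine ⟨Finsupp.single P (-(|n| + 1)), ?_⟩
  rw [Divisor.degree_single]
  have h1 := neg_abs_le n
  have h2 : (|n| + 1) ≤ (|n| + 1) * (P.deg : ℤ) := by
    have := abs_nonneg n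
    nlinarith
  linarith

/-- `dim_F Ω = 1`. -/
theorem exists_twist_eq {D₁ D₂ : Divisor K F} {ω₁ ω₂ : Module.Dual K ↥(repartitions K F)}
    (h₁ : ω₁ ∈ weilDiff D₁) (h₂ : ω₂ ∈ weilDiff D₂) (hω₁ : ω₁ ≠ 0) :
    ∃ x : F, ω₂ = twist x ω₁ := by
  by_cases hω₂ : ω₂ = 0
  · exact ⟨0, by rw [twist_zero, hω₂]⟩
  obtain ⟨T, hT⟩ := B.exists_divisor_degree_lt
    (min 0 (-(3 * (genusFF K F : ℤ) - Divisor.degree D₁ - Divisor.degree D₂)))
  have hT0 : Divisor.degree T < 0 := lt_of_lt_of_le hT (min_le_left _ _)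
  have hT1 := lt_of_lt_of_le hT (min_le_right _ _)
  exact B.exists_twist_eq_aux h₁ h₂ hω₁ hω₂ hT0 (by linarith)

/-! ### existence of a nonzero Weil differential -/

theorem exists_weilDiff_ne_zero :
    ∃ (ω : Module.Dual K ↥(repartitions K F)) (D : Divisor K F), ω ≠ 0 ∧ ω ∈ weilDiff D := by
  obtain ⟨T, hT⟩ := B.exists_divisor_degree_lt (-1)
  have hfH : Module.Finite K (H1 T) := B.finite_H1 T
  have hfin : Module.Finite K ↥(weilDiff T) := finite_weilDiff T
  have hV := B.finrank_weilDiff_eq T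
  rw [B.finrank_L_eq_zero (by linarith)] at hV
  have hpos : 0 < Module.finrank K ↥(weilDiff T) := by
    have : (0 : ℤ) < (Module.finrank K ↥(weilDiff T) : ℤ) := by
      have := Int.natCast_nonneg (genusFF K F)
      push_cast at hV
      linarith
    exact_mod_cast this
  have hnt : Nontrivial ↥(weilDiff T) := Module.nontrivial_of_finrank_pos (R := K) hpos
  obtain ⟨y, hy⟩ := exists_ne (0 : ↥(weilDiff T))
  exact ⟨y.1, T, fun h => hy (Subtype.ext h), y.2⟩

/-! ### the divisor of a Weil differential -/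

/-- the set of `D` with `ω ∈ Ω(D)` has a greatest element. -/
theorem exists_max_divisor {ω : Module.Dual K ↥(repartitions K F)} (hω : ω ≠ 0)
    {D₀ : Divisor K F} (h₀ : ω ∈ weilDiff D₀) :
    ∃ W : Divisor K F, ω ∈ weilDiff W ∧ ∀ D : Divisor K F, ω ∈ weilDiff D → D ≤ W := by
  obtain ⟨c, hc⟩ := B.weilDiff_eq_bot_of_le
  obtain ⟨ub, ⟨W, hW, hWdeg⟩, hub⟩ := Int.exists_greatest_of_bdd
    (P := fun n : ℤ => ∃ D : Divisor K F, ω ∈ weilDiff D ∧ Divisor.degree D = n)
    ⟨c, fun z ⟨D, hD, hz⟩ => by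
      by_contra hlt
      push Not at hlt
      have := hc D (by rw [hz]; exact hlt.le)
      rw [this, Submodule.mem_bot] at hD
      exact hω hD⟩
    ⟨Divisor.degree D₀, D₀, h₀, rfl⟩
  refine ⟨W, hW, fun D hD => ?_⟩
  have hsup : ω ∈ weilDiff (D ⊔ W) := weilDiff_inf_le D W (Submodule.mem_inf.mpr ⟨hD, hW⟩)
  have hdeg : Divisor.degree (D ⊔ W) ≤ ub := hub _ ⟨D ⊔ W, hsup, rfl⟩
  have hz : (D ⊔ W) - W = 0 := by
    apply eq_zero_of_nonneg_of_degree_le B.deg_pos
    · exact sub_nonneg.mpr le_sup_right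
    · rw [map_sub, hWdeg]; linarith
  have : D ⊔ W = W := sub_eq_zero.mp hz
  exact sup_eq_right.mp this

theorem mem_weilDiff_iff_le {ω : Module.Dual K ↥(repartitions K F)} (hω : ω ≠ 0)
    {D₀ : Divisor K F} (h₀ : ω ∈ weilDiff D₀) :
    ∃ W : Divisor K F, ∀ D : Divisor K F, ω ∈ weilDiff D ↔ D ≤ W := by
  obtain ⟨W, hW, hmax⟩ := B.exists_max_divisor hω h₀
  exact ⟨W, fun D => ⟨hmax D, fun hle => weilDiff_anti hle hW⟩⟩

end RRBase

end Fermat.Agent.RRDual
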