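import Mathlib
import Fermat.Agent.Lib.RR.RRI
import Fermat.Agent.Lib.RR.Duality

set_option autoImplicit false

/-!
# Riemann-Roch library, RR4: Weil differentials, duality, Riemann-Roch

A Weil differential is a `K`-linear form on `A = repartitions K F` vanishing on `A(D) + F` for
some `D`.  `weilSpace D = Ω(D)` is the dual of `H¹(D)`.  `F` acts by `(f ω)(α) = ω(f α)`.
-/

noncomputable section

open AlgebraicCurve IntermediateField

namespace Fermat.Agent.RR

variable {K F : Type*} [Field K] [Field F] [Algebra K F]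

/-- `Ω(D)`: linear forms on the adeles vanishing on `A(D) + F`. -/
def weilSpace (D : Divisor K F) : Submodule K (↥(repartitions K F) →ₗ[K] K) where
  carrier := {ω | AF D ≤ LinearMap.ker ω}
  zero_mem' := by
    intro α _
    simp
  add_mem' := by
    intro ω₁ ω₂ h₁ h₂ α hα
    have e1 := h₁ hα
    have e2 := h₂ hα
    rw [LinearMap.mem_ker] at e1 e2 ⊢
    rw [LinearMap.add_apply, e1, e2, add_zero]
  smul_mem' := by
    intro c ω hω α hα
    have e1 := hω hα
    rw [LinearMap.mem_ker] at e1 ⊢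
    rw [LinearMap.smul_apply, e1, smul_zero]

theorem mem_weilSpace_iff {D : Divisor K F} {ω : ↥(repartitions K F) →ₗ[K] K} :
    ω ∈ weilSpace D ↔ AF D ≤ LinearMap.ker ω := Iff.rfl

theorem weilSpace_anti {D D' : Divisor K F} (hle : D ≤ D') : weilSpace D' ≤ weilSpace D :=
  fun _ hω => (AF_mono hle).trans hω

/-- multiplication by `f` on the adeles, as a `K`-linear map. -/
def mulAdele (f : F) : ↥(repartitions K F) →ₗ[K] ↥(repartitions K F) where
  toFun α := f • α
  map_add' α β := smul_add f α β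
  map_smul' c α := smul_comm f c α

theorem mulAdele_apply (f : F) (α : ↥(repartitions K F)) (v : Place K F) :
    ((mulAdele (K := K) f α : ↥(repartitions K F)) : Place K F → F) v =
      f * (α : Place K F → F) v := rfl

/-- the action of `F` on linear forms: `(f ω)(α) = ω(f α)`. -/
def smulWeil (f : F) (ω : ↥(repartitions K F) →ₗ[K] K) : ↥(repartitions K F) →ₗ[K] K :=
  ω.comp (mulAdele f)

theorem smulWeil_apply (f : F) (ω : ↥(repartitions K F) →ₗ[K] K) (α : ↥(repartitions K F)) :
    smulWeil f ω α = ω (f • α) := rfl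

/-! ### bridge to `Fermat.Agent.RRDual` (helper80's core, proved against the bundle `RRBase`) -/

/-- the outputs of RR0-RR3 in the form used by `Fermat.Agent.RRDual`. -/
theorem rrBase (h : IsRRField K F) : Fermat.Agent.RRDual.RRBase K F where
  hasPD := ⟨h.principal⟩
  deg_pos v := by rw [h.deg_one v]; exact Nat.one_pos
  nonempty := nonempty_place h
  finite_L := finite_riemannRochSpace h
  finite_H1 := finite_H1 h
  rr D := by
    have := riemann_roch_H1 h D
    simp only [ell, idx] at this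
    omega
  riemann := exists_idx_eq_zero h

theorem weilSpace_eq (D : Divisor K F) : weilSpace D = Fermat.Agent.RRDual.weilDiff D := by
  ext ω
  rw [mem_weilSpace_iff, Fermat.Agent.RRDual.weilDiff, Submodule.mem_dualAnnihilator]
  constructor
  · intro hle α hα
    exact LinearMap.mem_ker.mp (hle hα)
  · intro hω α hα
    exact LinearMap.mem_ker.mpr (hω α hα)

theorem smulWeil_eq_twist (f : F) (ω : ↥(repartitions K F) →ₗ[K] K) :
    smulWeil f ω = Fermat.Agent.RRDual.twist f ω := rfl

theorem divOf_spec (h : IsRRField K F) (f : F) : ∀ v : Place K F, divOf h f v = v.ord f :=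
  fun v => divOf_apply h f v

/-- `dim_K Ω(D) = dim_K H¹(D)`. -/
theorem finrank_weilSpace (h : IsRRField K F) (D : Divisor K F) :
    Module.Finite K (weilSpace D) ∧ Module.finrank K (weilSpace D) = idx D := by
  have hf : Module.Finite K (H1 D) := finite_H1 h D
  rw [weilSpace_eq]
  exact ⟨Fermat.Agent.RRDual.finite_weilDiff D, Fermat.Agent.RRDual.finrank_weilDiff D⟩

/-- `f Ω(D) ⊆ Ω(D + div f)`. -/
theorem smulWeil_mem (h : IsRRField K F) {D : Divisor K F} {ω : ↥(repartitions K F) →ₗ[K] K}
    (hω : ω ∈ weilSpace D) {f : F} (hf : f ≠ 0) : smulWeil f ω ∈ weilSpace (D + divOf h f) := by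
  rw [weilSpace_eq] at hω ⊢
  exact Fermat.Agent.RRDual.twist_mem_weilDiff hf (divOf_spec h f) hω

theorem smulWeil_mem_iff (h : IsRRField K F) {D : Divisor K F}
    {ω : ↥(repartitions K F) →ₗ[K] K} {f : F} (hf : f ≠ 0) :
    smulWeil f ω ∈ weilSpace (D + divOf h f) ↔ ω ∈ weilSpace D := by
  constructor
  · intro hmem
    have h1 := smulWeil_mem h hmem (inv_ne_zero hf)
    rw [divOf_inv, add_neg_cancel_right, smulWeil_eq_twist, smulWeil_eq_twist,
      Fermat.Agent.RRDual.twist_twist, mul_inv_cancel₀ hf, Fermat.Agent.RRDual.twist_one] at h1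
    exact h1
  · intro hω
    exact smulWeil_mem h hω hf

theorem smulWeil_eq_zero_iff {ω : ↥(repartitions K F) →ₗ[K] K} {f : F} (hf : f ≠ 0) :
    smulWeil f ω = 0 ↔ ω = 0 := by
  constructor
  · intro h0
    by_contra hne
    exact Fermat.Agent.RRDual.twist_ne_zero hf hne h0
  · rintro rfl
    exact map_zero (Fermat.Agent.RRDual.twist f)

/-- there is a nonzero Weil differential. -/
theorem exists_weil_ne_zero (h : IsRRField K F) :
    ∃ (ω : ↥(repartitions K F) →ₗ[K] K) (D : Divisor K F), ω ≠ 0 ∧ ω ∈ weilSpace D := by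
  obtain ⟨ω, D, hω, hD⟩ := (rrBase h).exists_weilDiff_ne_zero
  exact ⟨ω, D, hω, by rw [weilSpace_eq]; exact hD⟩

/-- `dim_F Ω = 1`: any two Weil differentials are proportional over `F`. -/
theorem exists_smulWeil_eq (h : IsRRField K F) {ω₁ ω₂ : ↥(repartitions K F) →ₗ[K] K}
    {D₁ D₂ : Divisor K F} (h₁ : ω₁ ∈ weilSpace D₁) (h₂ : ω₂ ∈ weilSpace D₂) (hne : ω₁ ≠ 0) :
    ∃ f : F, ω₂ = smulWeil f ω₁ := by
  rw [weilSpace_eq] at h₁ h₂
  exact (rrBase h).exists_twist_eq h₁ h₂ hne

/-- `Ω(D₁) ∩ Ω(D₂) = Ω(sup D₁ D₂)`. -/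
theorem mem_weilSpace_sup (h : IsRRField K F) {ω : ↥(repartitions K F) →ₗ[K] K}
    {D₁ D₂ : Divisor K F} (h₁ : ω ∈ weilSpace D₁) (h₂ : ω ∈ weilSpace D₂) :
    ω ∈ weilSpace (D₁ ⊔ D₂) := by
  rw [weilSpace_eq] at h₁ h₂ ⊢
  exact Fermat.Agent.RRDual.weilDiff_inf_le D₁ D₂ (Submodule.mem_inf.mpr ⟨h₁, h₂⟩)

/-- the divisor `(ω)` of a nonzero Weil differential. -/
theorem exists_divisor_weil (h : IsRRField K F) {ω : ↥(repartitions K F) →ₗ[K] K}
    (hne : ω ≠ 0) {D₁ : Divisor K F} (h₁ : ω ∈ weilSpace D₁) :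
    ∃ W : Divisor K F, ∀ D : Divisor K F, ω ∈ weilSpace D ↔ D ≤ W := by
  rw [weilSpace_eq] at h₁
  obtain ⟨W, hW⟩ := (rrBase h).mem_weilDiff_iff_le hne h₁
  exact ⟨W, fun D => by rw [weilSpace_eq]; exact hW D⟩

/-- **duality**: there is a (canonical) divisor `W` with `dim H¹(D) = ℓ(W - D)` for all `D`. -/
theorem exists_canonical (h : IsRRField K F) :
    ∃ W : Divisor K F, ∀ D : Divisor K F, idx D = ell (W - D) := by
  obtain ⟨ω, D₁, hω0, hωD₁⟩ := exists_weil_ne_zero h
  obtain ⟨W, hW⟩ := exists_divisor_weil h hω0 hωD₁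
  have hωW : ω ∈ weilSpace W := (hW W).mpr le_rfl
  refine ⟨W, fun D => ?_⟩
  -- `smulWeil 0 ω = 0`
  have hzero : smulWeil (0 : F) ω = 0 := by
    ext α
    rw [smulWeil_apply, zero_smul, map_zero, LinearMap.zero_apply]
  -- the map `x ↦ x ω` lands in `Ω(D)` for `x ∈ L(W - D)`
  have hmem : ∀ x : F, x ∈ riemannRochSpace (W - D) → smulWeil x ω ∈ weilSpace D := by
    intro x hx
    by_cases hx0 : x = 0
    · rw [hx0, hzero]
      exact (weilSpace D).zero_mem
    · have h1 : smulWeil x ω ∈ weilSpace (W + divOf h x) := smulWeil_mem h hωW hx0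
      refine weilSpace_anti ?_ h1
      have h2 : -(W - D) ≤ divOf h x := (mem_riemannRochSpace_iff_le h hx0).mp hx
      rw [Finsupp.le_def] at h2 ⊢
      intro v
      have := h2 v
      simp only [Finsupp.neg_apply, Finsupp.sub_apply, Finsupp.add_apply] at this ⊢
      linarith
  -- the linear map
  let φ : riemannRochSpace (W - D) →ₗ[K] weilSpace D :=
    { toFun := fun x => ⟨smulWeil (x : F) ω, hmem x x.2⟩
      map_add' := by
        intro x y
        apply Subtype.ext
        apply LinearMap.ext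
        intro α
        simp only [Submodule.coe_add, smulWeil_apply, LinearMap.add_apply, add_smul, map_add]
      map_smul' := by
        intro c x
        apply Subtype.ext
        apply LinearMap.ext
        intro α
        simp only [Submodule.coe_smul, smulWeil_apply, LinearMap.smul_apply, RingHom.id_apply,
          smul_assoc, map_smul] }
  have hφ_apply : ∀ x : riemannRochSpace (W - D), ((φ x : weilSpace D) :
      ↥(repartitions K F) →ₗ[K] K) = smulWeil (x : F) ω := fun _ => rfl
  have hinj : Function.Injective φ := by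
    refine (injective_iff_map_eq_zero φ).mpr ?_
    intro x hx
    have h1 : smulWeil (x : F) ω = 0 := by
      rw [← hφ_apply, hx]
      rfl
    by_contra hx0
    have hx0' : (x : F) ≠ 0 := fun h0 => hx0 (Subtype.ext h0)
    exact hω0 ((smulWeil_eq_zero_iff hx0').mp h1)
  have hsurj : Function.Surjective φ := by
    rintro ⟨ω', hω'⟩
    obtain ⟨x, hx⟩ := exists_smulWeil_eq h hωW hω' hω0
    by_cases hx0 : x = 0
    · refine ⟨0, ?_⟩
      apply Subtype.ext
      show smulWeil ((0 : riemannRochSpace (W - D)) : F) ω = ω'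
      rw [Submodule.coe_zero, hzero, hx, hx0, hzero]
    · have h1 : smulWeil x ω ∈ weilSpace ((D - divOf h x) + divOf h x) := by
        rw [sub_add_cancel, ← hx]
        exact hω'
      have h2 : ω ∈ weilSpace (D - divOf h x) := (smulWeil_mem_iff h hx0).mp h1
      have h3 : D - divOf h x ≤ W := (hW _).mp h2
      have hxL : x ∈ riemannRochSpace (W - D) := by
        rw [mem_riemannRochSpace_iff_le h hx0, Finsupp.le_def]
        intro v
        have := (Finsupp.le_def.mp h3) v
        simp only [Finsupp.neg_apply, Finsupp.sub_apply] at this ⊢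
        linarith
      refine ⟨⟨x, hxL⟩, ?_⟩
      apply Subtype.ext
      show smulWeil x ω = ω'
      exact hx.symm
  have e : riemannRochSpace (W - D) ≃ₗ[K] weilSpace D := LinearEquiv.ofBijective φ ⟨hinj, hsurj⟩
  rw [← (finrank_weilSpace h D).2, ell_def]
  exact e.finrank_eq.symm

/-- **Riemann-Roch**. -/
theorem riemann_roch (h : IsRRField K F) :
    ∃ W : Divisor K F, ∀ D : Divisor K F,
      (ell D : ℤ) = Divisor.degree D + 1 - (genusFF K F : ℤ) + (ell (W - D) : ℤ) := by
  obtain ⟨W, hW⟩ := exists_canonical h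
  refine ⟨W, fun D => ?_⟩
  rw [← hW D]
  exact riemann_roch_H1 h D

/-- a canonical divisor has degree `2g - 2` and `ℓ(W) = g`. -/
theorem canonical_degree (h : IsRRField K F) {W : Divisor K F}
    (hW : ∀ D : Divisor K F,
      (ell D : ℤ) = Divisor.degree D + 1 - (genusFF K F : ℤ) + (ell (W - D) : ℤ)) :
    Divisor.degree W = 2 * (genusFF K F : ℤ) - 2 ∧ ell W = genusFF K F := by
  have h0 := hW 0
  have hWW := hW W
  rw [sub_zero, ell_zero h, map_zero] at h0
  rw [sub_self, ell_zero h] at hWW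
  have hg : (ell W : ℤ) = (genusFF K F : ℤ) := by
    push_cast at h0
    linarith
  refine ⟨?_, by exact_mod_cast hg⟩
  push_cast at hWW
  linarith

/-- `ℓ(D) = deg D + 1 - g` for `deg D > 2g - 2`. -/
theorem ell_of_degree_gt (h : IsRRField K F) {D : Divisor K F}
    (hD : 2 * (genusFF K F : ℤ) - 2 < Divisor.degree D) :
    (ell D : ℤ) = Divisor.degree D + 1 - (genusFF K F : ℤ) := by
  obtain ⟨W, hW⟩ := riemann_roch h
  have hdeg := (canonical_degree h hW).1
  have hneg : Divisor.degree (W - D) < 0 := by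
    rw [map_sub, hdeg]
    linarith
  have := hW D
  rw [ell_eq_zero_of_degree_neg h hneg] at this
  simpa using this

/-- `H¹(D) = 0` for `deg D > 2g - 2`. -/
theorem idx_eq_zero_of_degree_gt (h : IsRRField K F) {D : Divisor K F}
    (hD : 2 * (genusFF K F : ℤ) - 2 < Divisor.degree D) : idx D = 0 := by
  have h1 := riemann_roch_H1 h D
  have h2 := ell_of_degree_gt h hD
  have h3 : (idx D : ℤ) = 0 := by linarith
  exact_mod_cast h3

end Fermat.Agent.RR
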