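import Mathlib
import Fermat.Agent.S24.Residue

set_option autoImplicit false
set_option linter.unusedSectionVars false

/-!
# Riemann-Roch library: separating elements in characteristic `p` (pieces S2, S2' of `OfSep`)

`K` algebraically closed of characteristic `p`, `x : F` transcendental with `F / K(x)` finite
separable.  Then a transcendental `y : F` is separating or a `p`-th power
(`separable_or_exists_pow_eq`), and `[F : K(z)] < [F : K(z ^ p)]` (`finrank_adjoin_lt_of_pow_eq`).

Route: `F^p` is an intermediate field of `F / K` (`K` perfect); `F = F^p(x)` because `F / K(x)` is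
separable (Mathlib: `adjoin_eq_adjoin_pow_expChar_of_isSeparable'`), so `[F : F^p] ≤ p`; if `y` is
not a `p`-th power then `X ^ p - y ^ p` is irreducible over `F^p`, so `F = F^p(y)`, hence
`F = K(y)(F^p)`; a finite extension `L / E` with `L = E(L^p)` is separable.
-/

noncomputable section

open IntermediateField Polynomial

namespace Fermat.Agent.RR

variable {K F : Type*} [Field K] [Field F] [Algebra K F]

/-! ### S2': degree drop -/

/-- a transcendental `z` is not a rational function of `z ^ p` (`p ≥ 2`). -/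
theorem S2_not_mem_adjoin_pow {z : F} (hz : Transcendental K z) {p : ℕ} (hp : 2 ≤ p) :
    z ∉ K⟮z ^ p⟯ := by
  intro hmem
  rw [IntermediateField.mem_adjoin_simple_iff] at hmem
  obtain ⟨a, b, hab⟩ := hmem
  have hz0 : z ≠ 0 := by
    rintro rfl
    exact hz (isAlgebraic_zero)
  have hb : aeval (z ^ p) b ≠ 0 := by
    intro hb
    rw [hb, div_zero] at hab
    exact hz0 hab
  have hb0 : b ≠ 0 := by
    rintro rfl
    simp at hb
  have h1 : z * aeval (z ^ p) b = aeval (z ^ p) a := (eq_div_iff hb).mp hab
  have h2 : aeval z (X * expand K p b - expand K p a) = 0 := by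
    rw [map_sub, map_mul, aeval_X, expand_aeval, expand_aeval, h1, sub_self]
  have h3 : X * expand K p b - expand K p a = 0 := by
    by_contra hne
    exact hz ⟨_, hne, h2⟩
  have h4 : X * expand K p b = expand K p a := sub_eq_zero.mp h3
  have hp0 : 0 < p := by omega
  have h5 := congrArg natDegree h4
  have hexp : expand K p b ≠ 0 := by
    rwa [Ne, expand_eq_zero hp0]
  rw [natDegree_X_mul hexp, natDegree_expand, natDegree_expand] at h5
  have h6 : p ∣ 1 := by
    have : 1 = a.natDegree * p - b.natDegree * p := by omega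
    rw [this]
    exact Nat.dvd_sub (Dvd.intro_left _ rfl) (Dvd.intro_left _ rfl)
  have := Nat.le_of_dvd one_pos h6
  omega



section CharP

variable (p : ℕ) [Fact p.Prime] [CharP F p]

/-- `F^p` as an intermediate field of `F / K` (`K` perfect). -/
def S2_frobRange (hK : ∀ k : K, ∃ c : K, c ^ p = k) : IntermediateField K F :=
  Subfield.toIntermediateField (frobenius F p).fieldRange (fun k => by
    obtain ⟨c, hc⟩ := hK k
    exact ⟨algebraMap K F c, by rw [frobenius_def, ← map_pow, hc]⟩)

theorem S2_mem_frobRange (hK : ∀ k : K, ∃ c : K, c ^ p = k) {f : F} :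
    f ∈ S2_frobRange (K := K) (F := F) p hK ↔ ∃ g : F, g ^ p = f := by
  show f ∈ (frobenius F p).fieldRange ↔ _
  rw [RingHom.mem_fieldRange]
  simp [frobenius_def]

theorem S2_pow_mem_frobRange (hK : ∀ k : K, ∃ c : K, c ^ p = k) (g : F) :
    g ^ p ∈ S2_frobRange (K := K) (F := F) p hK :=
  (S2_mem_frobRange p hK).mpr ⟨g, rfl⟩

/-- `F = F^p(x)` if `x` is separating. -/
theorem S2_adjoin_frobRange_eq_top (hK : ∀ k : K, ∃ c : K, c ^ p = k) (x : F)
    [Algebra.IsSeparable K⟮x⟯ F] :
    (S2_frobRange (K := K) (F := F) p hK)⟮x⟯ = ⊤ := by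
  set Fp := S2_frobRange (K := K) (F := F) p hK with hFp
  set M : IntermediateField Fp F := Fp⟮x⟯ with hM
  have : CharP K⟮x⟯ p := (algebraMap K⟮x⟯ F).charP (algebraMap K⟮x⟯ F).injective p
  have : ExpChar K⟮x⟯ p := ExpChar.prime Fact.out
  have key := adjoin_eq_adjoin_pow_expChar_of_isSeparable' K⟮x⟯ F (Set.univ) p
  have hxM : x ∈ M := mem_adjoin_simple_self Fp x
  have hKx : K⟮x⟯ ≤ restrictScalars K M := by
    rw [adjoin_simple_le_iff]
    exact hxM
  let M' : IntermediateField K⟮x⟯ F :=
    Subfield.toIntermediateField M.toSubfield (fun c => hKx c.2)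
  have hle : adjoin K⟮x⟯ ((· ^ p) '' (Set.univ : Set F)) ≤ M' := by
    rw [adjoin_le_iff]
    rintro _ ⟨g, -, rfl⟩
    exact M.algebraMap_mem ⟨g ^ p, S2_pow_mem_frobRange p hK g⟩
  rw [eq_top_iff]
  intro f _
  have hf : f ∈ adjoin K⟮x⟯ (Set.univ : Set F) := subset_adjoin _ _ (Set.mem_univ f)
  rw [key] at hf
  exact hle hf

/-- an element of `F` is integral over `F^p`, of degree at most `p`. -/
theorem S2_isIntegral_frobRange (hK : ∀ k : K, ∃ c : K, c ^ p = k) (x : F) :
    IsIntegral (S2_frobRange (K := K) (F := F) p hK) x := by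
  refine ⟨X ^ p - C ⟨x ^ p, S2_pow_mem_frobRange p hK x⟩,
    monic_X_pow_sub_C _ (Fact.out : p.Prime).ne_zero, ?_⟩
  simp

theorem S2_natDegree_minpoly_le (hK : ∀ k : K, ∃ c : K, c ^ p = k) (x : F) :
    (minpoly (S2_frobRange (K := K) (F := F) p hK) x).natDegree ≤ p := by
  have hdvd : minpoly (S2_frobRange (K := K) (F := F) p hK) x ∣
      X ^ p - C ⟨x ^ p, S2_pow_mem_frobRange p hK x⟩ := by
    apply minpoly.dvd
    simp
  have hne : (X ^ p - C (⟨x ^ p, S2_pow_mem_frobRange p hK x⟩ : S2_frobRange (K := K) (F := F) p hK)) ≠ 0 :=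
    (monic_X_pow_sub_C _ (Fact.out : p.Prime).ne_zero).ne_zero
  have := natDegree_le_of_dvd hdvd hne
  rwa [natDegree_X_pow_sub_C] at this

/-- `[F : F^p] ≤ p` if there is a separating element. -/
theorem S2_finrank_frobRange_le (hK : ∀ k : K, ∃ c : K, c ^ p = k) (x : F)
    [Algebra.IsSeparable K⟮x⟯ F] :
    FiniteDimensional (S2_frobRange (K := K) (F := F) p hK) F ∧
      Module.finrank (S2_frobRange (K := K) (F := F) p hK) F ≤ p := by
  set Fp := S2_frobRange (K := K) (F := F) p hK with hFp
  have htop := S2_adjoin_frobRange_eq_top p hK x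
  have hint := S2_isIntegral_frobRange p hK x
  have : FiniteDimensional Fp Fp⟮x⟯ := adjoin.finiteDimensional hint
  have hfin : FiniteDimensional Fp (⊤ : IntermediateField Fp F) := htop ▸ this
  have hF : FiniteDimensional Fp F :=
    Module.Finite.equiv (topEquiv (F := Fp) (E := F)).toLinearEquiv
  refine ⟨hF, ?_⟩
  rw [← IntermediateField.finrank_top', ← htop, adjoin.finrank hint]
  exact S2_natDegree_minpoly_le p hK x

/-- `F = F^p(y)` if `y` is not a `p`-th power. -/
theorem S2_adjoin_frobRange_eq_top_of_not_pow (hK : ∀ k : K, ∃ c : K, c ^ p = k) (x : F)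
    [Algebra.IsSeparable K⟮x⟯ F] {y : F} (hy : ¬ ∃ z : F, z ^ p = y) :
    (S2_frobRange (K := K) (F := F) p hK)⟮y⟯ = ⊤ := by
  set Fp := S2_frobRange (K := K) (F := F) p hK with hFp
  obtain ⟨hF, hle⟩ := S2_finrank_frobRange_le p hK x
  have hint := S2_isIntegral_frobRange p hK y
  have hp : p.Prime := Fact.out
  set a : Fp := ⟨y ^ p, S2_pow_mem_frobRange p hK y⟩ with ha
  have hirr : Irreducible (X ^ p - C a) := by
    apply X_pow_sub_C_irreducible_of_prime hp
    intro b hb
    obtain ⟨c, hc⟩ := (S2_mem_frobRange p hK).mp b.2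
    apply hy
    refine ⟨c, ?_⟩
    have h1 : ((b ^ p : Fp) : F) = y ^ p := by rw [hb]
    rw [SubmonoidClass.coe_pow, ← hc] at h1
    exact frobenius_inj F p h1
  have hmin : minpoly Fp y = X ^ p - C a := by
    symm
    apply minpoly.eq_of_irreducible_of_monic hirr _ (monic_X_pow_sub_C _ hp.ne_zero)
    simp [ha]
  have hdeg : Module.finrank Fp Fp⟮y⟯ = p := by
    rw [adjoin.finrank hint, hmin, natDegree_X_pow_sub_C]
  apply IntermediateField.eq_of_le_of_finrank_le le_top
  rw [IntermediateField.finrank_top', hdeg]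
  exact hle

end CharP


/-! ### the criterion `L = E(L^p)` -/

/-- a finite extension `L / E` in characteristic `p` with `L = E(L^p)` is separable. -/
theorem S2_isSeparable_of_adjoin_pow_eq_top {E L : Type*} [Field E] [Field L] [Algebra E L]
    [FiniteDimensional E L] (p : ℕ) [Fact p.Prime] [CharP E p]
    (h : IntermediateField.adjoin E (Set.range fun f : L => f ^ p) = ⊤) :
    Algebra.IsSeparable E L := by
  have hp : p.Prime := Fact.out
  have : CharP L p := charP_of_injective_algebraMap (algebraMap E L).injective p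
  have : ExpChar E p := ExpChar.prime hp
  have : ExpChar L p := ExpChar.prime hp
  have hn : ∀ n : ℕ, IntermediateField.adjoin E (Set.range fun f : L => f ^ p ^ n) = ⊤ := by
    intro n
    induction n with
    | zero =>
      rw [eq_top_iff]
      intro f _
      exact subset_adjoin _ _ ⟨f, by simp⟩
    | succ n ih =>
      set N := IntermediateField.adjoin E (Set.range fun f : L => f ^ p ^ (n + 1)) with hN
      have key : ∀ f : L, f ^ p ∈ N := by
        intro f
        have hf : f ∈ IntermediateField.adjoin E (Set.range fun f : L => f ^ p ^ n) := by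
          rw [ih]
          trivial
        induction hf using IntermediateField.adjoin_induction with
        | mem x hx =>
          obtain ⟨g, rfl⟩ := hx
          refine subset_adjoin _ _ ⟨g, ?_⟩
          simp only [pow_succ, pow_mul]
        | algebraMap c =>
          rw [← map_pow]
          exact N.algebraMap_mem _
        | add x y _ _ hx hy =>
          rw [add_pow_char]
          exact N.add_mem hx hy
        | inv x _ hx =>
          rw [inv_pow]
          exact N.inv_mem hx
        | mul x y _ _ hx hy =>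
          rw [mul_pow]
          exact N.mul_mem hx hy
      rw [eq_top_iff, ← h, adjoin_le_iff]
      rintro _ ⟨f, rfl⟩
      exact key f
  set S := separableClosure E L with hS
  have : IsPurelyInseparable S L := separableClosure.isPurelyInseparable E L
  have : FiniteDimensional S L := FiniteDimensional.right E S L
  have : CharP S p := (algebraMap S L).charP (algebraMap S L).injective p
  have : ExpChar S p := ExpChar.prime hp
  rw [← separableClosure.eq_top_iff, eq_top_iff, ← hn (IsPurelyInseparable.exponent S L),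
    adjoin_le_iff]
  rintro _ ⟨f, rfl⟩
  obtain ⟨s, hs⟩ := IsPurelyInseparable.exponent_def' S p f
  show f ^ p ^ IsPurelyInseparable.exponent S L ∈ S
  rw [← hs]
  exact s.2

/-! ### the theorem -/

variable [IsAlgClosed K]

/-- in characteristic `p`: a transcendental element of a separably generated function field in
one variable over a perfect field is separating or a `p`-th power. -/
theorem separable_or_exists_pow_eq {x : F} (hx : Transcendental K x)
    [FiniteDimensional K⟮x⟯ F] [Algebra.IsSeparable K⟮x⟯ F] (p : ℕ) [Fact p.Prime] [CharP K p]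
    {y : F} (hy : Transcendental K y) :
    (FiniteDimensional K⟮y⟯ F ∧ Algebra.IsSeparable K⟮y⟯ F) ∨ ∃ z : F, z ^ p = y := by
  by_cases hpow : ∃ z : F, z ^ p = y
  · exact Or.inr hpow
  left
  have hp : p.Prime := Fact.out
  have hfy : FiniteDimensional K⟮y⟯ F :=
    Fermat.Agent.S24Res.finiteDimensional_adjoin_simple ⟨hx, inferInstance⟩ hy
  refine ⟨hfy, ?_⟩
  have : CharP F p := charP_of_injective_algebraMap (algebraMap K F).injective p
  have hK : ∀ k : K, ∃ c : K, c ^ p = k := fun k => IsAlgClosed.exists_pow_nat_eq k hp.pos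
  have htop := S2_adjoin_frobRange_eq_top_of_not_pow p hK x hpow
  have : CharP K⟮y⟯ p := (algebraMap K⟮y⟯ F).charP (algebraMap K⟮y⟯ F).injective p
  apply S2_isSeparable_of_adjoin_pow_eq_top p
  set N := IntermediateField.adjoin K⟮y⟯ (Set.range fun f : F => f ^ p) with hN
  let N' : IntermediateField (S2_frobRange (K := K) (F := F) p hK) F :=
    Subfield.toIntermediateField N.toSubfield (fun c => by
      obtain ⟨g, hg⟩ := (S2_mem_frobRange p hK).mp c.2
      exact subset_adjoin _ _ ⟨g, hg⟩)
  have hle : (S2_frobRange (K := K) (F := F) p hK)⟮y⟯ ≤ N' := by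
    rw [adjoin_simple_le_iff]
    exact N.algebraMap_mem ⟨y, mem_adjoin_simple_self K y⟩
  rw [eq_top_iff]
  intro f _
  have hf : f ∈ (S2_frobRange (K := K) (F := F) p hK)⟮y⟯ := by
    rw [htop]
    trivial
  exact hle hf

/-- `[F : K(z)] < [F : K(z ^ p)]`. -/
theorem finrank_adjoin_lt_of_pow_eq {x : F} (hx : Transcendental K x)
    [FiniteDimensional K⟮x⟯ F] (p : ℕ) [Fact p.Prime] {y z : F} (hy : Transcendental K y)
    (hz : z ^ p = y) :
    Module.finrank K⟮z⟯ F < Module.finrank K⟮y⟯ F := by
  have hp : p.Prime := Fact.out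
  have hzt : Transcendental K z := by
    intro hz'
    exact hy (hz ▸ hz'.pow p)
  have hfy : FiniteDimensional K⟮y⟯ F :=
    Fermat.Agent.S24Res.finiteDimensional_adjoin_simple ⟨hx, inferInstance⟩ hy
  have hfz : FiniteDimensional K⟮z⟯ F :=
    Fermat.Agent.S24Res.finiteDimensional_adjoin_simple ⟨hx, inferInstance⟩ hzt
  have hle : K⟮y⟯ ≤ K⟮z⟯ := by
    rw [adjoin_simple_le_iff, ← hz]
    exact pow_mem (mem_adjoin_simple_self K z) p
  have hzy : z ∉ K⟮y⟯ := hz ▸ S2_not_mem_adjoin_pow hzt hp.two_le
  let M : IntermediateField K⟮y⟯ F := extendScalars hle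
  have hM : Module.finrank M F = Module.finrank K⟮z⟯ F := rfl
  have hmul := Module.finrank_mul_finrank K⟮y⟯ M F
  have hMne : M ≠ ⊥ := by
    intro hbot
    have hzM : z ∈ M := (mem_extendScalars hle).mpr (mem_adjoin_simple_self K z)
    rw [hbot, mem_bot] at hzM
    obtain ⟨c, hc⟩ := hzM
    exact hzy (hc ▸ c.2)
  have h1 : Module.finrank K⟮y⟯ M ≠ 1 := fun h => hMne (finrank_eq_one_iff.mp h)
  have h0 : 0 < Module.finrank K⟮y⟯ M := Module.finrank_pos
  have hz0 : 0 < Module.finrank K⟮z⟯ F := Module.finrank_pos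
  rw [hM] at hmul
  rw [← hmul]
  have h2 : 2 ≤ Module.finrank K⟮y⟯ M := by omega
  nlinarith


end Fermat.Agent.RR
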