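import Mathlib
import Fermat.Agent.Lib.RR.Defs
import Fermat.Agent.S24.Residue
import Fermat.Agent.S24.FundId
import Fermat.Agent.Lib.RR.OfSepS2

set_option autoImplicit false
set_option linter.style.haveILetI false
set_option linter.unusedSectionVars false

/-!
# Riemann-Roch library: the standing hypothesis `IsRRField` from a separating element

`K` algebraically closed of ANY characteristic, `x : F` transcendental with `F / K(x)` finite
separable.  Then `IsRRField K F` holds:
* places have degree one (`Fermat.Agent.S24Res.deg_eq_one`),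
* the fundamental identity for `x` (`Fermat.Agent.S24Fund.zeros_aux`, Mathlib's
  `Ideal.sum_ramification_inertia`),
* principal divisors have degree zero: for `f` separating by the fundamental identity for `f`;
  in characteristic `p` a non separating transcendental `f` is a `p`-th power, `f = z ^ p`,
  `div f = p • div z`, induction on `[F : K(f)]`.
-/

noncomputable section

open AlgebraicCurve IntermediateField Polynomial

namespace Fermat.Agent.RR

open Fermat.Agent.S24Diff

variable {K F : Type*} [Field K] [Field F] [Algebra K F] [IsAlgClosed K]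

/-- `[F : K(y)]` computed over `RatFunc K` (with `X ↦ y`). -/
theorem finrank_ratFunc_eq_adjoin {y : F} (hy : Transcendental K y) :
    letI := ratFuncAlgebra y hy
    Module.finrank (RatFunc K) F = Module.finrank K⟮y⟯ F := by
  letI := ratFuncAlgebra y hy
  refine Algebra.finrank_eq_of_equiv_equiv (RatFunc.algEquivOfTranscendental y hy).toRingEquiv
    (RingEquiv.refl F) ?_
  ext u
  simp only [RingHom.coe_comp, Function.comp_apply]
  rw [ratFuncAlgebra_algebraMap_eq hy u]
  rfl

theorem transcendental_inv_of {y : F} (hy : Transcendental K y) : Transcendental K y⁻¹ :=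
  fun halg => hy (by simpa using halg.inv)

theorem adjoin_simple_inv_eq (y : F) : K⟮y⁻¹⟯ = K⟮y⟯ := by
  apply le_antisymm
  · rw [adjoin_simple_le_iff]
    exact inv_mem (mem_adjoin_simple_self K y)
  · rw [adjoin_simple_le_iff]
    have hmem : (y⁻¹)⁻¹ ∈ K⟮y⁻¹⟯ := inv_mem (mem_adjoin_simple_self K y⁻¹)
    rwa [inv_inv] at hmem

theorem finrank_adjoin_simple_inv_eq (y : F) :
    Module.finrank K⟮y⁻¹⟯ F = Module.finrank K⟮y⟯ F := by
  rw [adjoin_simple_inv_eq]

theorem isSeparable_ratFunc {y : F} (hy : Transcendental K y)
    [Algebra.IsSeparable K⟮y⟯ F] :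
    letI := ratFuncAlgebra y hy
    Algebra.IsSeparable (RatFunc K) F := by
  letI := ratFuncAlgebra y hy
  refine Algebra.IsSeparable.of_equiv_equiv (A₁ := K⟮y⟯) (B₁ := F) (A₂ := RatFunc K) (B₂ := F)
    (RatFunc.algEquivOfTranscendental y hy).symm.toRingEquiv (RingEquiv.refl F) ?_
  ext u
  simp only [RingHom.coe_comp, Function.comp_apply]
  have := ratFuncAlgebra_algebraMap_eq hy ((RatFunc.algEquivOfTranscendental y hy).symm u)
  rw [AlgEquiv.apply_symm_apply] at this
  exact this

/-- fundamental identity for the zeros of `y - a`, `y` separating (any characteristic). -/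
theorem exists_finset_zeros_of_separable {y : F} (hy : Transcendental K y)
    [FiniteDimensional K⟮y⟯ F] [Algebra.IsSeparable K⟮y⟯ F] (a : K) :
    ∃ s : Finset (Place K F), (∀ v, v ∈ s ↔ 0 < v.ord (y - algebraMap K F a)) ∧
      ∑ v ∈ s, v.ord (y - algebraMap K F a) = (Module.finrank K⟮y⟯ F : ℤ) := by
  letI := polyAlgebra K y
  letI := ratFuncAlgebra y hy
  haveI := polyAlgebra_isScalarTower (K := K) y
  haveI := ratFuncAlgebra_isScalarTower_poly hy
  haveI : FiniteDimensional (RatFunc K) F := (finite_ratFunc_iff hy).mpr inferInstance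
  haveI : Algebra.IsSeparable (RatFunc K) F := isSeparable_ratFunc hy
  obtain ⟨s, hs, hsum⟩ := Fermat.Agent.S24Fund.zeros_aux (K := K) (F := F) (RatFunc K) a
  have hXa : algebraMap K[X] F (X - C a) = y - algebraMap K F a := by
    rw [polyAlgebra_algebraMap]
    simp
  rw [hXa] at hs hsum
  refine ⟨s, hs, hsum.trans ?_⟩
  rw [finrank_ratFunc_eq_adjoin hy]

theorem finiteDimensional_adjoin_inv {y : F} [FiniteDimensional K⟮y⟯ F] :
    FiniteDimensional K⟮y⁻¹⟯ F := by
  rw [adjoin_simple_inv_eq]
  infer_instance

theorem isSeparable_adjoin_inv {y : F} [Algebra.IsSeparable K⟮y⟯ F] :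
    Algebra.IsSeparable K⟮y⁻¹⟯ F := by
  rw [adjoin_simple_inv_eq]
  infer_instance

/-- fundamental identity for the poles of `y`, `y` separating (any characteristic). -/
theorem exists_finset_poles_of_separable {y : F} (hy : Transcendental K y)
    [FiniteDimensional K⟮y⟯ F] [Algebra.IsSeparable K⟮y⟯ F] :
    ∃ s : Finset (Place K F), (∀ v, v ∈ s ↔ v.ord y < 0) ∧
      ∑ v ∈ s, (-v.ord y) = (Module.finrank K⟮y⟯ F : ℤ) := by
  haveI : FiniteDimensional K⟮y⁻¹⟯ F := finiteDimensional_adjoin_inv
  haveI : Algebra.IsSeparable K⟮y⁻¹⟯ F := isSeparable_adjoin_inv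
  obtain ⟨s, hs, hsum⟩ :=
    exists_finset_zeros_of_separable (transcendental_inv_of hy) (0 : K)
  simp only [map_zero, sub_zero, Place.ord_inv] at hs hsum
  refine ⟨s, fun v => ?_, ?_⟩
  · rw [hs]
    omega
  · rw [hsum, finrank_adjoin_simple_inv_eq]

/-- the divisor of a separating element has degree zero. -/
theorem exists_principal_divisor_of_separable_elt {y : F} (hy : Transcendental K y)
    [FiniteDimensional K⟮y⟯ F] [Algebra.IsSeparable K⟮y⟯ F] :
    ∃ D : Divisor K F, (∀ v : Place K F, D v = v.ord y) ∧ Divisor.degree D = 0 := by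
  classical
  obtain ⟨sz, hsz, hsumz⟩ := exists_finset_zeros_of_separable hy (0 : K)
  obtain ⟨sp, hsp, hsump⟩ := exists_finset_poles_of_separable hy
  simp only [map_zero, sub_zero] at hsz hsumz
  have hdisj : Disjoint sz sp := by
    rw [Finset.disjoint_left]
    intro v hv hv'
    rw [hsz] at hv
    rw [hsp] at hv'
    omega
  let D : Divisor K F := Finsupp.onFinset (sz ∪ sp) (fun v => v.ord y) (by
    intro v hv
    rw [Finset.mem_union, hsz, hsp]
    omega)
  have hD : ∀ v : Place K F, D v = v.ord y := fun v => rfl
  refine ⟨D, hD, ?_⟩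
  have hdeg1 : ∀ v : Place K F, v.deg = 1 := Fermat.Agent.S24Res.deg_eq_one ⟨hy, inferInstance⟩
  have hdeg : Divisor.degree D = ∑ v ∈ D.support, D v := by
    simp only [Divisor.degree, Finsupp.liftAddHom_apply, Finsupp.sum, AddMonoidHom.coe_mulRight,
      hdeg1, Nat.cast_one, mul_one]
  have hsupp : D.support = sz ∪ sp := by
    ext v
    rw [Finsupp.mem_support_iff, hD, Finset.mem_union, hsz, hsp]
    omega
  rw [hdeg, hsupp, Finset.sum_union hdisj]
  simp only [hD]
  rw [hsumz]
  have : ∑ v ∈ sp, v.ord y = -∑ v ∈ sp, (-v.ord y) := by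
    rw [Finset.sum_neg_distrib, neg_neg]
  rw [this, hsump]
  ring

/-- principal divisors have degree zero: transcendental case, by strong induction on
`[F : K(f)]`. -/
theorem exists_principal_divisor_of_transcendental {x : F} (hx : Transcendental K x)
    [FiniteDimensional K⟮x⟯ F] [Algebra.IsSeparable K⟮x⟯ F] :
    ∀ (n : ℕ) (f : F), Transcendental K f → Module.finrank K⟮f⟯ F = n →
      ∃ D : Divisor K F, (∀ v : Place K F, D v = v.ord f) ∧ Divisor.degree D = 0 := by
  intro n
  induction n using Nat.strong_induction_on with
  | _ n ih =>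
    intro f hf hn
    have hfin : FiniteDimensional K⟮f⟯ F :=
      Fermat.Agent.S24Res.finiteDimensional_adjoin_simple ⟨hx, inferInstance⟩ hf
    obtain ⟨p, hp⟩ := CharP.exists K
    rcases CharP.char_is_prime_or_zero K p with hpp | hp0
    · -- characteristic `p`
      haveI : Fact p.Prime := ⟨hpp⟩
      rcases separable_or_exists_pow_eq hx p hf with ⟨_, hsep⟩ | ⟨z, hz⟩
      · exact exists_principal_divisor_of_separable_elt hf
      · have hztr : Transcendental K z := by
          intro halg
          apply hf
          rw [← hz]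
          exact halg.pow p
        have hlt := finrank_adjoin_lt_of_pow_eq hx p hf hz
        rw [hn] at hlt
        obtain ⟨D, hD, hdeg⟩ := ih _ hlt z hztr rfl
        refine ⟨p • D, fun v => ?_, ?_⟩
        · rw [Finsupp.smul_apply, hD, ← hz]
          have := v.ord_zpow z (p : ℤ)
          rw [zpow_natCast] at this
          rw [this]
          simp
        · rw [map_nsmul, hdeg, smul_zero]
    · -- characteristic zero
      subst hp0
      haveI : CharZero K := CharP.charP_to_charZero K
      haveI : CharZero K⟮f⟯ := charZero_of_injective_algebraMap (algebraMap K K⟮f⟯).injective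
      exact exists_principal_divisor_of_separable_elt hf

/-- principal divisors have degree zero (any characteristic). -/
theorem exists_principal_divisor_of_separable {x : F} (hx : Transcendental K x)
    [FiniteDimensional K⟮x⟯ F] [Algebra.IsSeparable K⟮x⟯ F] (f : F) (hf : f ≠ 0) :
    ∃ D : Divisor K F, (∀ v : Place K F, D v = v.ord f) ∧ Divisor.degree D = 0 := by
  by_cases halg : IsAlgebraic K f
  · obtain ⟨c, rfl⟩ := Fermat.Agent.S24Res.mem_range_of_isAlgebraic halg
    exact ⟨0, fun v => by rw [Fermat.Agent.S24Res.ord_algebraMap]; rfl, map_zero _⟩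
  · exact exists_principal_divisor_of_transcendental hx _ f halg rfl

/-- **the standing hypothesis of the Riemann-Roch library holds for every function field in one
variable with a separating element over an algebraically closed field.** -/
theorem isRRField_of_separable {x : F} (hx : Transcendental K x)
    [FiniteDimensional K⟮x⟯ F] [Algebra.IsSeparable K⟮x⟯ F] : IsRRField K F where
  principal := exists_principal_divisor_of_separable hx
  deg_one := Fermat.Agent.S24Res.deg_eq_one ⟨hx, inferInstance⟩
  exists_x := ⟨x, hx, inferInstance, exists_finset_poles_of_separable hx⟩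

/-- principal divisors have degree zero, characteristic zero (no induction needed). -/
theorem exists_principal_divisor_of_charZero [CharZero K] {x : F}
    (h : IsFunctionFieldOver K F x) (f : F) (_hf : f ≠ 0) :
    ∃ D : Divisor K F, (∀ v : Place K F, D v = v.ord f) ∧ Divisor.degree D = 0 := by
  by_cases halg : IsAlgebraic K f
  · obtain ⟨c, rfl⟩ := Fermat.Agent.S24Res.mem_range_of_isAlgebraic halg
    exact ⟨0, fun v => by rw [Fermat.Agent.S24Res.ord_algebraMap]; rfl, map_zero _⟩
  · have hfin : FiniteDimensional K⟮f⟯ F :=
      Fermat.Agent.S24Res.finiteDimensional_adjoin_simple h halg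
    haveI : CharZero K⟮f⟯ := charZero_of_injective_algebraMap (algebraMap K K⟮f⟯).injective
    exact exists_principal_divisor_of_separable_elt halg

/-- characteristic zero (independent of the characteristic `p` lemmas above). -/
theorem isRRField_of_charZero [CharZero K] {x : F} (h : IsFunctionFieldOver K F x) :
    IsRRField K F := by
  haveI := h.finite
  haveI : CharZero K⟮x⟯ := charZero_of_injective_algebraMap (algebraMap K K⟮x⟯).injective
  exact
    { principal := exists_principal_divisor_of_charZero h
      deg_one := Fermat.Agent.S24Res.deg_eq_one h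
      exists_x := ⟨x, h.transcendental, inferInstance,
        exists_finset_poles_of_separable h.transcendental⟩ }

end Fermat.Agent.RR
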