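import Mathlib
import Fermat.Agent.Lib.RR.OfSep
import Fermat.Agent.S24.GlobalDatum

set_option autoImplicit false

/-!
# Riemann-Roch library: the function field of `X₀(N)` over `ℚ̄`

`IsRRField ℚ̄ (modularFunctionFieldBar N)`, from S24's `isFunctionFieldOver_jBar`.
So `Fermat.Agent.RR.riemann_roch`, `ell_of_degree_gt`, ... apply to `J₀(N)`'s function field.
-/

noncomputable section

open AlgebraicCurve IntermediateField ModularCurve

namespace Fermat.Agent.RRMod

set_option synthInstance.maxHeartbeats 400000 in
/-- **The Riemann-Roch library applies to the function field of `X₀(N)` over `ℚ̄`.** -/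
theorem isRRField_bar (N : ℕ) [NeZero N] :
    Fermat.Agent.RR.IsRRField (AlgebraicClosure ℚ) ↥(modularFunctionFieldBar N) :=
  Fermat.Agent.RR.isRRField_of_charZero (Fermat.Agent.S24.isFunctionFieldOver_jBar N)

end Fermat.Agent.RRMod
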