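import Mathlib
import Fermat.Agent.Lib.RR.Weil
import Fermat.Agent.Lib.RR.NonSpecial

set_option autoImplicit false

/-!
# Riemann-Roch library: the multiplication lemma (helper20)

For a function field `F / K` (`IsRRField`, `K` infinite) of genus `g` and divisors `A`, `B` with
`deg A ≥ 3 g`, `deg B ≥ 3 g`:

* `mulSpan_eq` : `span {a * b | a ∈ L(A), b ∈ L(B)} = L(A + B)` (Castelnuovo / Mumford);
* `exists_ord_eq` : `L(D)` has no base point for `deg D ≥ 2 g`;
* `exists_bpf_pair` : a base-point-free pencil `s, t ∈ L(D)` for `deg D ≥ 2 g`;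
* `mem_of_forall_mul_mem` : the colon lemma `{f | f • L(B) ⊆ L(A + B)} = L(A)` for `deg B ≥ 2 g`;
* `sup_eq_of_disjoint` : `L(E - D) ⊔ L(E - D') = L(E)` for effective `D`, `D'` with disjoint
  supports and `deg (E - D - D') > 2 g - 2`.

Proof of `mulSpan_eq` (say `deg A ≥ deg B`): choose `n ≤ g` places `D = P₁ + ⋯ + Pₙ` with
`A - B + D` non-special; `B - D` has degree `≥ 2 g`, so it carries a base-point-free pencil
`s, t`; the base-point-free pencil trick gives `s L(A) + t L(A) = L(A + B - D)` by a dimension
count; a second choice `D'` disjoint from `D` gives `L(A + B - D')`, and the two spaces span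
`L(A + B)`.
-/

noncomputable section

open AlgebraicCurve IntermediateField

namespace Fermat.Agent.RRMult

open Fermat.Agent.RR

variable {K F : Type*} [Field K] [Field F] [Algebra K F]

/-- the span of the products `a * b`, `a ∈ L(A)`, `b ∈ L(B)`. -/
def mulSpan (A B : Divisor K F) : Submodule K F :=
  Submodule.span K {x | ∃ a ∈ riemannRochSpace A, ∃ b ∈ riemannRochSpace B, x = a * b}

theorem mul_mem_riemannRochSpace {A B : Divisor K F} {a b : F}
    (ha : a ∈ riemannRochSpace A) (hb : b ∈ riemannRochSpace B) :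
    a * b ∈ riemannRochSpace (A + B) := by
  rw [mem_riemannRochSpace_iff] at ha hb ⊢
  intro v
  rcases eq_or_ne a 0 with ha0 | ha0
  · left; rw [ha0, zero_mul]
  rcases eq_or_ne b 0 with hb0 | hb0
  · left; rw [hb0, mul_zero]
  right
  have h1 := (ha v).resolve_left ha0
  have h2 := (hb v).resolve_left hb0
  rw [v.ord_mul ha0 hb0, Finsupp.add_apply]
  omega

theorem mulSpan_le (A B : Divisor K F) : mulSpan A B ≤ riemannRochSpace (A + B) := by
  refine Submodule.span_le.mpr ?_
  rintro x ⟨a, ha, b, hb, rfl⟩
  exact mul_mem_riemannRochSpace ha hb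

theorem mul_mem_mulSpan {A B : Divisor K F} {a b : F}
    (ha : a ∈ riemannRochSpace A) (hb : b ∈ riemannRochSpace B) : a * b ∈ mulSpan A B :=
  Submodule.subset_span ⟨a, ha, b, hb, rfl⟩

theorem mulSpan_comm (A B : Divisor K F) : mulSpan A B = mulSpan B A := by
  unfold mulSpan
  congr 1
  ext x
  constructor
  · rintro ⟨a, ha, b, hb, rfl⟩
    exact ⟨b, hb, a, ha, mul_comm a b⟩
  · rintro ⟨a, ha, b, hb, rfl⟩
    exact ⟨b, hb, a, ha, mul_comm a b⟩

theorem mulSpan_mono_right {A B B' : Divisor K F} (hB : B' ≤ B) : mulSpan A B' ≤ mulSpan A B := by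
  refine Submodule.span_mono ?_
  rintro x ⟨a, ha, b, hb, rfl⟩
  exact ⟨a, ha, b, riemannRochSpace_mono hB hb, rfl⟩

/-! ### base points -/

/-- `D - P` as `D + (-P)`; degree. -/
theorem degree_sub_single (h : IsRRField K F) (D : Divisor K F) (P : Place K F) :
    Divisor.degree (D - Finsupp.single P 1) = Divisor.degree D - 1 := by
  rw [map_sub, degree_single_one h]

/-- for `deg D ≥ 2 g` the space `L(D)` has no base point. -/
theorem exists_ord_eq (h : IsRRField K F) {D : Divisor K F}
    (hD : 2 * (genusFF K F : ℤ) ≤ Divisor.degree D) (v : Place K F) :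
    ∃ f ∈ riemannRochSpace D, f ≠ 0 ∧ v.ord f = -D v := by
  have h1 : (ell D : ℤ) = Divisor.degree D + 1 - (genusFF K F : ℤ) :=
    ell_of_degree_gt h (by omega)
  have h2 : (ell (D - Finsupp.single v 1) : ℤ)
      = Divisor.degree (D - Finsupp.single v 1) + 1 - (genusFF K F : ℤ) :=
    ell_of_degree_gt h (by rw [degree_sub_single h]; omega)
  rw [degree_sub_single h] at h2
  have hlt : ell (D - Finsupp.single v 1) < ell D := by omega
  have hle : riemannRochSpace (D - Finsupp.single v 1) ≤ riemannRochSpace D :=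
    riemannRochSpace_mono (by
      rw [sub_le_self_iff]
      intro w
      classical
      rw [Finsupp.single_apply]
      split_ifs <;> simp)
  have hne : riemannRochSpace (D - Finsupp.single v 1) ≠ riemannRochSpace D := by
    intro heq
    unfold ell at hlt
    rw [heq] at hlt
    exact lt_irrefl _ hlt
  obtain ⟨f, hf, hfn⟩ := SetLike.exists_of_lt (lt_of_le_of_ne hle hne)
  have hf0 : f ≠ 0 := by
    rintro rfl
    exact hfn (zero_mem _)
  refine ⟨f, hf, hf0, ?_⟩
  have hfD := (mem_riemannRochSpace_iff.mp hf v).resolve_left hf0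
  by_contra hne'
  apply hfn
  rw [mem_riemannRochSpace_iff]
  intro w
  right
  have hw := (mem_riemannRochSpace_iff.mp hf w).resolve_left hf0
  classical
  rw [Finsupp.sub_apply, Finsupp.single_apply]
  split_ifs with hvw
  · subst hvw
    omega
  · omega

/-- the colon lemma: for `deg B ≥ 2 g`, `f • L(B) ⊆ L(A + B)` forces `f ∈ L(A)`. -/
theorem mem_of_forall_mul_mem (h : IsRRField K F) {A B : Divisor K F}
    (hB : 2 * (genusFF K F : ℤ) ≤ Divisor.degree B) {f : F}
    (hf : ∀ b ∈ riemannRochSpace B, f * b ∈ riemannRochSpace (A + B)) :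
    f ∈ riemannRochSpace A := by
  rw [mem_riemannRochSpace_iff]
  intro v
  rcases eq_or_ne f 0 with hf0 | hf0
  · exact Or.inl hf0
  right
  obtain ⟨b, hb, hb0, hbv⟩ := exists_ord_eq h hB v
  have h1 := (mem_riemannRochSpace_iff.mp (hf b hb) v).resolve_left (mul_ne_zero hf0 hb0)
  rw [v.ord_mul hf0 hb0, Finsupp.add_apply, hbv] at h1
  omega

/-- the colon lemma as an equivalence. -/
theorem mem_iff_forall_mul_mem (h : IsRRField K F) {A B : Divisor K F}
    (hB : 2 * (genusFF K F : ℤ) ≤ Divisor.degree B) {f : F} :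
    f ∈ riemannRochSpace A ↔ ∀ b ∈ riemannRochSpace B, f * b ∈ riemannRochSpace (A + B) :=
  ⟨fun hf _ hb => mul_mem_riemannRochSpace hf hb, mem_of_forall_mul_mem h hB⟩

/-- the set of zeros of `s ∈ L(D)` relative to `D` is finite. -/
theorem finite_relZeros (h : IsRRField K F) (D : Divisor K F) {s : F} (hs0 : s ≠ 0) :
    {v : Place K F | v.ord s ≠ -D v}.Finite := by
  classical
  refine ((divOf h s).support ∪ D.support).finite_toSet.subset fun v hv => ?_
  rw [Finset.mem_coe, Finset.mem_union, Finsupp.mem_support_iff, Finsupp.mem_support_iff,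
    divOf_apply]
  by_contra hcon
  push Not at hcon
  apply hv
  rw [hcon.1, hcon.2]
  rfl

/-- a base-point-free pencil in `L(D)`, `deg D ≥ 2 g`. -/
theorem exists_bpf_pair (h : IsRRField K F) [Infinite K] {D : Divisor K F}
    (hD : 2 * (genusFF K F : ℤ) ≤ Divisor.degree D) :
    ∃ s t : F, s ∈ riemannRochSpace D ∧ t ∈ riemannRochSpace D ∧ s ≠ 0 ∧ t ≠ 0 ∧
      ∀ v : Place K F, v.ord s = -D v ∨ v.ord t = -D v := by
  classical
  obtain ⟨v₀⟩ := nonempty_place h
  obtain ⟨s, hs, hs0, -⟩ := exists_ord_eq h hD v₀
  have hfin := finite_relZeros h D hs0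
  set Z : Finset (Place K F) := hfin.toFinset with hZ
  -- the proper subspaces to avoid
  let sub : Place K F → Subspace K (riemannRochSpace D) := fun v =>
    (riemannRochSpace (D - Finsupp.single v 1)).comap (riemannRochSpace D).subtype
  have hproper : ∀ v, sub v ≠ ⊤ := by
    intro v htop
    obtain ⟨f, hf, hf0, hfv⟩ := exists_ord_eq h hD v
    have hmem : (⟨f, hf⟩ : riemannRochSpace D) ∈ sub v := by
      rw [htop]; exact Submodule.mem_top
    have hmem' : f ∈ riemannRochSpace (D - Finsupp.single v 1) := hmem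
    have := (mem_riemannRochSpace_iff.mp hmem' v).resolve_left hf0
    rw [Finsupp.sub_apply, Finsupp.single_apply, if_pos rfl] at this
    omega
  have hcov : ⋃ p ∈ Z.image sub, (p : Set (riemannRochSpace D)) ≠ Set.univ := by
    apply Subspace.biUnion_ne_univ_of_top_notMem
    intro htop
    obtain ⟨v, -, hv⟩ := Finset.mem_image.mp htop
    exact hproper v hv
  obtain ⟨t, ht⟩ := (Set.ne_univ_iff_exists_notMem _).mp hcov
  have htv : ∀ v ∈ Z, t ∉ sub v := by
    intro v hv hmem
    apply ht
    rw [Set.mem_iUnion₂]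
    exact ⟨sub v, Finset.mem_image_of_mem sub hv, hmem⟩
  by_cases hZe : Z = ∅
  · refine ⟨s, s, hs, hs, hs0, hs0, fun v => Or.inl ?_⟩
    by_contra hne
    have : v ∈ Z := by
      rw [hZ, Set.Finite.mem_toFinset]
      exact hne
    rw [hZe] at this
    exact absurd this (Finset.notMem_empty v)
  · obtain ⟨v₁, hv₁⟩ := Finset.nonempty_iff_ne_empty.mpr hZe
    have ht0 : (t : F) ≠ 0 := by
      intro h0
      apply htv v₁ hv₁
      have : t = 0 := Subtype.ext h0
      rw [this]
      exact zero_mem _
    refine ⟨s, t, hs, t.2, hs0, ht0, fun v => ?_⟩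
    by_cases hvs : v.ord s = -D v
    · exact Or.inl hvs
    · right
      have hvZ : v ∈ Z := by
        rw [hZ, Set.Finite.mem_toFinset]
        exact hvs
      have hnot := htv v hvZ
      have htD := (mem_riemannRochSpace_iff.mp t.2 v).resolve_left ht0
      by_contra hne
      apply hnot
      show (t : F) ∈ riemannRochSpace (D - Finsupp.single v 1)
      rw [mem_riemannRochSpace_iff]
      intro w
      right
      have hw := (mem_riemannRochSpace_iff.mp t.2 w).resolve_left ht0
      rw [Finsupp.sub_apply, Finsupp.single_apply]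
      split_ifs with hvw
      · subst hvw
        omega
      · omega

/-! ### the base-point-free pencil trick -/

/-- the map `(a, b) ↦ s a + t b` on `L(A) × L(A)`. -/
def pencilMap (A : Divisor K F) (s t : F) :
    (riemannRochSpace A × riemannRochSpace A) →ₗ[K] F where
  toFun x := s * (x.1 : F) + t * (x.2 : F)
  map_add' x y := by
    simp only [Prod.fst_add, Prod.snd_add, Submodule.coe_add]
    ring
  map_smul' c x := by
    simp only [Prod.smul_fst, Prod.smul_snd, Submodule.coe_smul, RingHom.id_apply,
      Algebra.smul_def]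
    ring

theorem pencilMap_apply (A : Divisor K F) (s t : F)
    (x : riemannRochSpace A × riemannRochSpace A) :
    pencilMap A s t x = s * (x.1 : F) + t * (x.2 : F) := rfl

theorem range_pencilMap_le {A B' : Divisor K F} {s t : F}
    (hs : s ∈ riemannRochSpace B') (ht : t ∈ riemannRochSpace B') :
    LinearMap.range (pencilMap A s t) ≤ riemannRochSpace (A + B') := by
  rintro _ ⟨x, rfl⟩
  rw [pencilMap_apply]
  refine add_mem ?_ ?_
  · rw [add_comm A B']
    exact mul_mem_riemannRochSpace hs x.1.2
  · rw [add_comm A B']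
    exact mul_mem_riemannRochSpace ht x.2.2

/-- the first coordinate divided by `t`, on the kernel of the pencil map. -/
def pencilKer (A : Divisor K F) (s t : F) :
    LinearMap.ker (pencilMap A s t) →ₗ[K] F where
  toFun x := t⁻¹ * ((x : riemannRochSpace A × riemannRochSpace A).1 : F)
  map_add' x y := by
    simp only [Submodule.coe_add, Prod.fst_add]
    ring
  map_smul' c x := by
    simp only [Submodule.coe_smul, Prod.smul_fst, RingHom.id_apply, Algebra.smul_def]
    ring

theorem pencilKer_mem {A B' : Divisor K F} {s t : F} (hs0 : s ≠ 0) (ht0 : t ≠ 0)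
    (hbpf : ∀ v : Place K F, v.ord s = -B' v ∨ v.ord t = -B' v)
    (x : LinearMap.ker (pencilMap A s t)) :
    pencilKer A s t x ∈ riemannRochSpace (A - B') := by
  have hx : s * ((x : riemannRochSpace A × riemannRochSpace A).1 : F)
      + t * ((x : riemannRochSpace A × riemannRochSpace A).2 : F) = 0 := by
    have := LinearMap.mem_ker.mp x.2
    rwa [pencilMap_apply] at this
  set a : F := ((x : riemannRochSpace A × riemannRochSpace A).1 : F) with ha
  set b : F := ((x : riemannRochSpace A × riemannRochSpace A).2 : F) with hb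
  have haA : a ∈ riemannRochSpace A := (x : riemannRochSpace A × riemannRochSpace A).1.2
  have hbA : b ∈ riemannRochSpace A := (x : riemannRochSpace A × riemannRochSpace A).2.2
  show t⁻¹ * a ∈ riemannRochSpace (A - B')
  rw [mem_riemannRochSpace_iff]
  intro v
  rcases eq_or_ne a 0 with ha0 | ha0
  · left; rw [ha0, mul_zero]
  right
  have hb0 : b ≠ 0 := by
    rintro hb0
    rw [hb0, mul_zero, add_zero] at hx
    exact ha0 ((mul_eq_zero.mp hx).resolve_left hs0)
  have hc : t⁻¹ * a = -(s⁻¹ * b) := by
    field_simp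
    linear_combination hx
  have h1 := (mem_riemannRochSpace_iff.mp haA v).resolve_left ha0
  have h2 := (mem_riemannRochSpace_iff.mp hbA v).resolve_left hb0
  rw [Finsupp.sub_apply]
  rcases hbpf v with hv | hv
  · have e : v.ord (t⁻¹ * a) = v.ord b - v.ord s := by
      rw [hc]
      have hne : s⁻¹ * b ≠ 0 := mul_ne_zero (inv_ne_zero hs0) hb0
      have hneg : -(s⁻¹ * b) = (-1 : F) * (s⁻¹ * b) := by ring
      rw [hneg, v.ord_mul (neg_ne_zero.mpr one_ne_zero) hne, v.ord_mul (inv_ne_zero hs0) hb0,
        v.ord_inv]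
      have h1' : v.ord (-1 : F) = 0 := by
        have hsq : (-1 : F) * (-1) = 1 := by ring
        have := v.ord_mul (neg_ne_zero.mpr (one_ne_zero (α := F)))
          (neg_ne_zero.mpr (one_ne_zero (α := F)))
        rw [hsq, v.ord_one] at this
        omega
      rw [h1']
      ring
    rw [e, hv]
    omega
  · have e : v.ord (t⁻¹ * a) = v.ord a - v.ord t := by
      rw [v.ord_mul (inv_ne_zero ht0) ha0, v.ord_inv]
      ring
    rw [e, hv]
    omega

theorem pencilKer_injective {A : Divisor K F} {s t : F} (hs0 : s ≠ 0) (ht0 : t ≠ 0) :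
    Function.Injective (pencilKer A s t) := by
  intro x y hxy
  have hxy' : t⁻¹ * ((x : riemannRochSpace A × riemannRochSpace A).1 : F)
      = t⁻¹ * ((y : riemannRochSpace A × riemannRochSpace A).1 : F) := hxy
  have ha : ((x : riemannRochSpace A × riemannRochSpace A).1 : F)
      = ((y : riemannRochSpace A × riemannRochSpace A).1 : F) :=
    mul_left_cancel₀ (inv_ne_zero ht0) hxy'
  have hkx : s * ((x : riemannRochSpace A × riemannRochSpace A).1 : F)
      + t * ((x : riemannRochSpace A × riemannRochSpace A).2 : F) = 0 := by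
    have := LinearMap.mem_ker.mp x.2
    rwa [pencilMap_apply] at this
  have hky : s * ((y : riemannRochSpace A × riemannRochSpace A).1 : F)
      + t * ((y : riemannRochSpace A × riemannRochSpace A).2 : F) = 0 := by
    have := LinearMap.mem_ker.mp y.2
    rwa [pencilMap_apply] at this
  have hb : ((x : riemannRochSpace A × riemannRochSpace A).2 : F)
      = ((y : riemannRochSpace A × riemannRochSpace A).2 : F) := by
    apply mul_left_cancel₀ ht0
    rw [ha] at hkx
    linear_combination hkx - hky
  apply Subtype.ext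
  apply Prod.ext
  · exact Subtype.ext ha
  · exact Subtype.ext hb

/-- **base-point-free pencil trick**: if `s, t ∈ L(B')` have no common base point and
`ℓ(A + B') + ℓ(A - B') ≤ 2 ℓ(A)`, then `s L(A) + t L(A) = L(A + B')`. -/
theorem range_pencilMap_eq (h : IsRRField K F) {A B' : Divisor K F} {s t : F}
    (hs : s ∈ riemannRochSpace B') (ht : t ∈ riemannRochSpace B') (hs0 : s ≠ 0) (ht0 : t ≠ 0)
    (hbpf : ∀ v : Place K F, v.ord s = -B' v ∨ v.ord t = -B' v)
    (hdim : ell (A + B') + ell (A - B') ≤ 2 * ell A) :
    LinearMap.range (pencilMap A s t) = riemannRochSpace (A + B') := by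
  haveI := finite_riemannRochSpace h A
  haveI := finite_riemannRochSpace h (A + B')
  haveI := finite_riemannRochSpace h (A - B')
  have hker : Module.finrank K (LinearMap.ker (pencilMap A s t)) ≤ ell (A - B') := by
    let ψ : LinearMap.ker (pencilMap A s t) →ₗ[K] riemannRochSpace (A - B') :=
      (pencilKer A s t).codRestrict _ (pencilKer_mem hs0 ht0 hbpf)
    have hinj : Function.Injective ψ := by
      intro x y hxy
      apply pencilKer_injective hs0 ht0
      exact congrArg Subtype.val hxy
    exact LinearMap.finrank_le_finrank_of_injective hinj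
  have hrk := LinearMap.finrank_range_add_finrank_ker (pencilMap A s t)
  rw [Module.finrank_prod] at hrk
  have hA : Module.finrank K (riemannRochSpace A) = ell A := rfl
  rw [hA] at hrk
  have hle := range_pencilMap_le (A := A) hs ht
  refine Submodule.eq_of_le_of_finrank_le hle ?_
  show ell (A + B') ≤ _
  omega

/-- pointwise form of the pencil trick. -/
theorem exists_eq_pencil (h : IsRRField K F) {A B' : Divisor K F} {s t : F}
    (hs : s ∈ riemannRochSpace B') (ht : t ∈ riemannRochSpace B') (hs0 : s ≠ 0) (ht0 : t ≠ 0)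
    (hbpf : ∀ v : Place K F, v.ord s = -B' v ∨ v.ord t = -B' v)
    (hdim : ell (A + B') + ell (A - B') ≤ 2 * ell A) {f : F}
    (hf : f ∈ riemannRochSpace (A + B')) :
    ∃ a ∈ riemannRochSpace A, ∃ b ∈ riemannRochSpace A, f = s * a + t * b := by
  rw [← range_pencilMap_eq h hs ht hs0 ht0 hbpf hdim] at hf
  obtain ⟨x, rfl⟩ := hf
  exact ⟨x.1, x.1.2, x.2, x.2.2, rfl⟩

/-! ### two complementary subspaces -/

/-- `L(E - D) ⊔ L(E - D') = L(E)` for effective `D`, `D'` with disjoint supports, if
`E - D - D'` is non-special by degree. -/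
theorem sup_eq_of_disjoint (h : IsRRField K F) {E D D' : Divisor K F} (hD : 0 ≤ D) (hD' : 0 ≤ D')
    (hdisj : ∀ v : Place K F, D v = 0 ∨ D' v = 0)
    (hdeg : 2 * (genusFF K F : ℤ) - 2 < Divisor.degree (E - D - D')) :
    riemannRochSpace (E - D) ⊔ riemannRochSpace (E - D') = riemannRochSpace E := by
  haveI := finite_riemannRochSpace h (E - D)
  haveI := finite_riemannRochSpace h (E - D')
  haveI := finite_riemannRochSpace h E
  haveI := finite_riemannRochSpace h (E - D - D')
  have hdD := degree_nonneg_of_nonneg h hD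
  have hdD' := degree_nonneg_of_nonneg h hD'
  have e0 : Divisor.degree (E - D - D') = Divisor.degree E - Divisor.degree D
      - Divisor.degree D' := by
    rw [map_sub, map_sub]
  have e1 : Divisor.degree (E - D) = Divisor.degree E - Divisor.degree D := map_sub _ _ _
  have e2 : Divisor.degree (E - D') = Divisor.degree E - Divisor.degree D' := map_sub _ _ _
  have h0 := ell_of_degree_gt h hdeg
  have h1 := ell_of_degree_gt h (D := E - D) (by rw [e1]; omega)
  have h2 := ell_of_degree_gt h (D := E - D') (by rw [e2]; omega)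
  have h3 := ell_of_degree_gt h (D := E) (by omega)
  have hle1 : riemannRochSpace (E - D) ≤ riemannRochSpace E :=
    riemannRochSpace_mono (sub_le_self E hD)
  have hle2 : riemannRochSpace (E - D') ≤ riemannRochSpace E :=
    riemannRochSpace_mono (sub_le_self E hD')
  have hinf : riemannRochSpace (E - D) ⊓ riemannRochSpace (E - D')
      ≤ riemannRochSpace (E - D - D') := by
    intro f hf
    obtain ⟨hf1, hf2⟩ := Submodule.mem_inf.mp hf
    rw [mem_riemannRochSpace_iff] at hf1 hf2 ⊢
    intro v
    rcases eq_or_ne f 0 with hf0 | hf0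
    · exact Or.inl hf0
    right
    have a1 := (hf1 v).resolve_left hf0
    have a2 := (hf2 v).resolve_left hf0
    rw [Finsupp.sub_apply] at a1 a2
    rw [Finsupp.sub_apply, Finsupp.sub_apply]
    have b1 : 0 ≤ D v := hD v
    have b2 : 0 ≤ D' v := hD' v
    rcases hdisj v with hv | hv
    · rw [hv] at a1 ⊢
      omega
    · rw [hv] at a2 ⊢
      omega
  have hinf' : Module.finrank K
      ↥(riemannRochSpace (E - D) ⊓ riemannRochSpace (E - D')) ≤ ell (E - D - D') :=
    Submodule.finrank_mono hinf
  have hsum := Submodule.finrank_sup_add_finrank_inf_eq (riemannRochSpace (E - D))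
    (riemannRochSpace (E - D'))
  have hA1 : Module.finrank K (riemannRochSpace (E - D)) = ell (E - D) := rfl
  have hA2 : Module.finrank K (riemannRochSpace (E - D')) = ell (E - D') := rfl
  rw [hA1, hA2] at hsum
  refine Submodule.eq_of_le_of_finrank_le (sup_le hle1 hle2) ?_
  show ell E ≤ _
  have : (ell E : ℤ) + (ell (E - D - D') : ℤ) = (ell (E - D) : ℤ) + (ell (E - D') : ℤ) := by
    rw [h0, h1, h2, h3, e0, e1, e2]
    ring
  omega

/-! ### making a divisor non-special by adding general points -/

/-- if `ℓ(D₀) = deg D₀ + 1 - g + n`, then outside any finite set there are `n` distinct places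
whose sum `D` makes `D₀ + D` non-special: `ℓ(D₀ + D) = deg (D₀ + D) + 1 - g`. -/
theorem exists_sumPlaces_nonspecial (h : IsRRField K F) [Infinite (Place K F)] (n : ℕ) :
    ∀ (D₀ : Divisor K F) (T : Finset (Place K F)),
      (ell D₀ : ℤ) = Divisor.degree D₀ + 1 - (genusFF K F : ℤ) + n →
      ∃ S : Finset (Place K F), Disjoint S T ∧ S.card = n ∧
        (ell (D₀ + sumPlaces S) : ℤ)
          = Divisor.degree (D₀ + sumPlaces S) + 1 - (genusFF K F : ℤ) := by
  classical
  induction n with
  | zero =>
    intro D₀ T hD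
    refine ⟨∅, Finset.disjoint_empty_left T, rfl, ?_⟩
    rw [sumPlaces_empty, add_zero, hD]
    simp
  | succ n ih =>
    intro D₀ T hD
    have hlt : Divisor.degree D₀ + 1 - (genusFF K F : ℤ) < (ell D₀ : ℤ) := by
      rw [hD]
      push_cast
      omega
    obtain ⟨P, hPT, hPell⟩ := exists_place_ell_add_single_eq h D₀ hlt T
    have hD1 : (ell (D₀ + Finsupp.single P 1) : ℤ)
        = Divisor.degree (D₀ + Finsupp.single P 1) + 1 - (genusFF K F : ℤ) + n := by
      rw [hPell, hD, degree_add_single h]
      push_cast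
      ring
    obtain ⟨S, hST, hScard, hSell⟩ := ih (D₀ + Finsupp.single P 1) (insert P T) hD1
    have hPS : P ∉ S := fun hmem =>
      Finset.disjoint_left.mp hST hmem (Finset.mem_insert_self P T)
    refine ⟨Finset.cons P S hPS, ?_, ?_, ?_⟩
    · rw [Finset.disjoint_left]
      intro Q hQ
      rcases Finset.mem_cons.mp hQ with rfl | hQ
      · exact hPT
      · exact fun hQT => Finset.disjoint_left.mp hST hQ (Finset.mem_insert_of_mem hQT)
    · rw [Finset.card_cons, hScard]
    · have e : D₀ + sumPlaces (Finset.cons P S hPS)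
          = D₀ + Finsupp.single P 1 + sumPlaces S := by
        rw [sumPlaces_cons hPS]
        abel
      rw [e]
      exact hSell

/-! ### the multiplication lemma -/

theorem le_mulSpan_of_bpf (h : IsRRField K F) [Infinite K] {A B D : Divisor K F} (hD : 0 ≤ D)
    (hB : 2 * (genusFF K F : ℤ) ≤ Divisor.degree (B - D))
    (hdim : ell (A + (B - D)) + ell (A - (B - D)) ≤ 2 * ell A) :
    riemannRochSpace (A + B - D) ≤ mulSpan A B := by
  obtain ⟨s, t, hs, ht, hs0, ht0, hbpf⟩ := exists_bpf_pair h hB
  have hsB : s ∈ riemannRochSpace B := riemannRochSpace_mono (sub_le_self B hD) hs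
  have htB : t ∈ riemannRochSpace B := riemannRochSpace_mono (sub_le_self B hD) ht
  have e : A + B - D = A + (B - D) := by abel
  rw [e]
  intro f hf
  obtain ⟨a, ha, b, hb, rfl⟩ := exists_eq_pencil h hs ht hs0 ht0 hbpf hdim hf
  refine add_mem ?_ ?_
  · rw [mul_comm]
    exact mul_mem_mulSpan ha hsB
  · rw [mul_comm]
    exact mul_mem_mulSpan hb htB

theorem le_mulSpan_aux (h : IsRRField K F) [Infinite K] {A B : Divisor K F}
    (hAB : Divisor.degree B ≤ Divisor.degree A)
    (hB : 3 * (genusFF K F : ℤ) ≤ Divisor.degree B) :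
    riemannRochSpace (A + B) ≤ mulSpan A B := by
  classical
  haveI : Infinite (Place K F) := infinite_place h
  set g : ℤ := (genusFF K F : ℤ) with hg
  have hg0 : 0 ≤ g := Int.natCast_nonneg _
  have hdAB : Divisor.degree (A - B) = Divisor.degree A - Divisor.degree B := map_sub _ _ _
  have hri := riemann_inequality h (A - B)
  have hup := ell_le_degree_add_one h (D := A - B) (by rw [hdAB]; omega)
  -- the excess of `A - B`
  obtain ⟨n, hn⟩ : ∃ n : ℕ, (ell (A - B) : ℤ) = Divisor.degree (A - B) + 1 - g + n :=
    ⟨((ell (A - B) : ℤ) - (Divisor.degree (A - B) + 1 - g)).toNat, by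
      rw [Int.toNat_of_nonneg (by omega)]
      ring⟩
  have hng : (n : ℤ) ≤ g := by omega
  obtain ⟨S, -, hScard, hSell⟩ := exists_sumPlaces_nonspecial h n (A - B) ∅ hn
  obtain ⟨S', hS'S, hS'card, hS'ell⟩ := exists_sumPlaces_nonspecial h n (A - B) S hn
  have key : ∀ S₀ : Finset (Place K F), S₀.card = n →
      (ell (A - B + sumPlaces S₀) : ℤ)
        = Divisor.degree (A - B + sumPlaces S₀) + 1 - g →
      riemannRochSpace (A + B - sumPlaces S₀) ≤ mulSpan A B := by
    intro S₀ hcard hell
    have hdS : Divisor.degree (sumPlaces S₀) = n := by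
      rw [degree_sumPlaces h, hcard]
    refine le_mulSpan_of_bpf h (sumPlaces_nonneg S₀) ?_ ?_
    · rw [map_sub, hdS]
      omega
    · have e1 : A - (B - sumPlaces S₀) = A - B + sumPlaces S₀ := by abel
      have d1 : Divisor.degree (A - B + sumPlaces S₀)
          = Divisor.degree A - Divisor.degree B + n := by
        rw [map_add, hdAB, hdS]
      have d2 : Divisor.degree (A + (B - sumPlaces S₀))
          = Divisor.degree A + Divisor.degree B - n := by
        rw [map_add, map_sub, hdS]
        ring
      have l2 := ell_of_degree_gt h (D := A + (B - sumPlaces S₀)) (by rw [d2]; omega)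
      have l3 := ell_of_degree_gt h (D := A) (by omega)
      rw [e1]
      have : ((ell (A + (B - sumPlaces S₀)) : ℤ)) + (ell (A - B + sumPlaces S₀) : ℤ)
          ≤ 2 * (ell A : ℤ) := by
        rw [l2, l3, hell, d1, d2]
        omega
      exact_mod_cast this
  have h1 := key S hScard hSell
  have h2 := key S' hS'card hS'ell
  have hdS : Divisor.degree (sumPlaces S) = n := by rw [degree_sumPlaces h, hScard]
  have hdS' : Divisor.degree (sumPlaces S') = n := by rw [degree_sumPlaces h, hS'card]
  have hsup := sup_eq_of_disjoint h (E := A + B) (sumPlaces_nonneg S) (sumPlaces_nonneg S')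
    (fun v => by
      by_cases hv : v ∈ S
      · right
        exact sumPlaces_apply_of_not_mem fun hv' => Finset.disjoint_left.mp hS'S hv' hv
      · left
        exact sumPlaces_apply_of_not_mem hv)
    (by
      rw [map_sub, map_sub, map_add, hdS, hdS']
      omega)
  rw [← hsup]
  exact sup_le h1 h2

/-- **Multiplication lemma** (Castelnuovo, Mumford): for `deg A ≥ 3 g` and `deg B ≥ 3 g`,
the products `a b`, `a ∈ L(A)`, `b ∈ L(B)`, span `L(A + B)`. -/
theorem mulSpan_eq (h : IsRRField K F) [Infinite K] {A B : Divisor K F}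
    (hA : 3 * (genusFF K F : ℤ) ≤ Divisor.degree A)
    (hB : 3 * (genusFF K F : ℤ) ≤ Divisor.degree B) :
    mulSpan A B = riemannRochSpace (A + B) := by
  refine le_antisymm (mulSpan_le A B) ?_
  rcases le_total (Divisor.degree B) (Divisor.degree A) with hle | hle
  · exact le_mulSpan_aux h hle hB
  · rw [mulSpan_comm, add_comm]
    exact le_mulSpan_aux h hle hA

/-- the multiplication lemma, in the set-builder form. -/
theorem span_mul_eq (h : IsRRField K F) [Infinite K] {A B : Divisor K F}
    (hA : 3 * (genusFF K F : ℤ) ≤ Divisor.degree A)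
    (hB : 3 * (genusFF K F : ℤ) ≤ Divisor.degree B) :
    Submodule.span K {x | ∃ a ∈ riemannRochSpace A, ∃ b ∈ riemannRochSpace B, x = a * b}
      = riemannRochSpace (A + B) :=
  mulSpan_eq h hA hB

end Fermat.Agent.RRMult
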